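import Fermat.Agent.FlatLocal.Decomposition
import Fermat.Agent.FlatLocal.Bound.Ordinary
import Fermat.Agent.FlatLocal.Bound.Supersingular
import Fermat.Agent.FlatLocal.Bound.Residual
import Fermat.Agent.FlatLocal.Bound.Deform
import Fermat.Agent.RT.LocalAtP.Flat
import Fermat.Agent.RT.Global.EulerFromLocal

/-!
# The flat tangent bound at `p`

`localBoundAtP_flat`: for conditions implying flat at `p` with cyclotomic determinant, the local
classes at the place of `padicEmbedding` form a space of dimension at most `1 + h⁰`.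
-/

set_option autoImplicit false

noncomputable section

open IsLocalRing Matrix
open Fermat.Agent.Deformation (Mat mapRep)

namespace Fermat.Agent.FlatLocal

local notation "ℚ̄" => AlgebraicClosure ℚ
local notation "Γℚ" => (AlgebraicClosure ℚ ≃ₐ[ℚ] AlgebraicClosure ℚ)

variable {p : ℕ} [hp : Fact p.Prime]
variable {k : Type} [Field k]

/-- A representation of `Γℚ` seen on the local Galois group. -/
def locRep {A : Type} [CommRing A] (r : Γℚ →* Mat A) : Gp p →* Matrix (Fin 2) (Fin 2) A :=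
  r.comp (localGaloisToGlobal p)

theorem locRep_apply {A : Type} [CommRing A] (r : Γℚ →* Mat A) (σ : Gp p) :
    locRep r σ = r (localGaloisToGlobal p σ) := rfl

/-- The local model of a flat representation with values in a finite ring. -/
theorem hasLocalModel_of_isFlatAt {A : Type} [CommRing A] [IsLocalRing A] [Finite A]
    {R : Γℚ →* Mat A} (hR : Deformation.IsCont R)
    (h : (Deformation.repOf R hR).IsFlatAt p) : HasLocalModel p (RepMod (locRep (p := p) R)) := by
  set ρ := Deformation.repOf R hR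
  have : Finite (A ⧸ (⊥ : Ideal A)) := Finite.of_surjective _ Ideal.Quotient.mk_surjective
  have hlev := ((RT.FlatCond.isFlatAt_iff ρ).1 h).2 ⊥ inferInstance
  let _ : DistribMulAction (Gp p) (RT.FlatCond.LevelV ρ ⊥) :=
    DistribMulAction.compHom _ (localGaloisToGlobal p)
  have h1 : HasLocalModel p (RT.FlatCond.LevelV ρ ⊥) :=
    hasLocalModel_of_hasFunctionModel (fun _ _ => rfl) hlev
  have hinj : Function.Injective (RT.FlatCond.toLevel ρ ⊥) := by
    rw [injective_iff_map_eq_zero]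
    intro v hv
    rwa [RT.FlatCond.toLevel_eq_zero_iff, Submodule.bot_smul, Submodule.mem_bot] at hv
  let u : RepMod (locRep (p := p) R) →+ RT.FlatCond.LevelV ρ ⊥ :=
    (RT.FlatCond.toLevel ρ ⊥).toAddMonoidHom
  exact h1.of_injective u hinj fun σ v => rfl

/-- The residual representation of a lift has a local model. -/
theorem hasLocalModel_residual [Finite k] {r : Gp p →* Matrix (Fin 2) (Fin 2) k}
    {R : Gp p →* Matrix (Fin 2) (Fin 2) (DualNumber k)}
    (hR : ∀ σ i j, (R σ i j).fst = r σ i j) (h : HasLocalModel p (RepMod R)) :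
    HasLocalModel p (RepMod r) := by
  let q : RepMod R →+ RepMod r :=
    { toFun := fun v => RepMod.mk r fun i => (RepMod.coords R v i).fst
      map_zero' := funext fun i => rfl
      map_add' := fun v w => funext fun i => rfl }
  refine h.of_surjective q (fun v => ⟨RepMod.mk R fun i => TrivSqZeroExt.inl (RepMod.coords r v i),
    funext fun i => rfl⟩) fun σ v => funext fun i => ?_
  show ((R σ *ᵥ RepMod.coords R v) i).fst = (r σ *ᵥ fun i => (RepMod.coords R v i).fst) i
  simp [Matrix.mulVec, dotProduct, Fin.sum_univ_two, hR]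

/-- The constant lift of a matrix to the dual numbers. -/
def inlMat : Matrix (Fin 2) (Fin 2) k →+* Matrix (Fin 2) (Fin 2) (DualNumber k) :=
  (TrivSqZeroExt.inlHom k k).mapMatrix

/-- Conjugation of a lift by a constant matrix. -/
def conjLift (P : (Matrix (Fin 2) (Fin 2) k)ˣ)
    (R : Gp p →* Matrix (Fin 2) (Fin 2) (DualNumber k)) :
    Gp p →* Matrix (Fin 2) (Fin 2) (DualNumber k) where
  toFun σ := inlMat (↑P⁻¹ : Matrix (Fin 2) (Fin 2) k) * R σ * inlMat (P : Matrix (Fin 2) (Fin 2) k)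
  map_one' := by rw [map_one, mul_one, ← map_mul, Units.inv_mul, map_one]
  map_mul' σ τ := by
    have hPP : inlMat (P : Matrix (Fin 2) (Fin 2) k) * inlMat ↑P⁻¹ = 1 := by
      rw [← map_mul, Units.mul_inv, map_one]
    rw [map_mul]
    calc _ = inlMat (↑P⁻¹ : Matrix (Fin 2) (Fin 2) k) * R σ * 1 * R τ * inlMat ↑P := by
          simp only [mul_one, mul_assoc]
      _ = _ := by rw [← hPP]; simp only [mul_assoc]

theorem hasLocalModel_conjLift (P : (Matrix (Fin 2) (Fin 2) k)ˣ)
    {R : Gp p →* Matrix (Fin 2) (Fin 2) (DualNumber k)} (h : HasLocalModel p (RepMod R)) :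
    HasLocalModel p (RepMod (conjLift P R)) := by
  refine h.of_injective
    { toFun := fun v => RepMod.mk R (inlMat (P : Matrix (Fin 2) (Fin 2) k) *ᵥ
        RepMod.coords _ v)
      map_zero' := Matrix.mulVec_zero _
      map_add' := fun v w => Matrix.mulVec_add _ _ _ } ?_ ?_
  · intro v w hvw
    have h1 : inlMat (↑P⁻¹ : Matrix (Fin 2) (Fin 2) k) *ᵥ
        (inlMat (P : Matrix (Fin 2) (Fin 2) k) *ᵥ RepMod.coords _ v) =
      inlMat (↑P⁻¹ : Matrix (Fin 2) (Fin 2) k) *ᵥ
        (inlMat (P : Matrix (Fin 2) (Fin 2) k) *ᵥ RepMod.coords _ w) :=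
      congrArg (fun x => inlMat (↑P⁻¹ : Matrix (Fin 2) (Fin 2) k) *ᵥ RepMod.coords R x) hvw
    rw [Matrix.mulVec_mulVec, Matrix.mulVec_mulVec, ← map_mul, Units.inv_mul, map_one,
      Matrix.one_mulVec, Matrix.one_mulVec] at h1
    exact h1
  · intro σ v
    show inlMat (P : Matrix (Fin 2) (Fin 2) k) *ᵥ
      ((inlMat (↑P⁻¹ : Matrix (Fin 2) (Fin 2) k) * R σ * inlMat (P : Matrix (Fin 2) (Fin 2) k)) *ᵥ RepMod.coords _ v) =
        R σ *ᵥ (inlMat (P : Matrix (Fin 2) (Fin 2) k) *ᵥ RepMod.coords _ v)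
    rw [Matrix.mulVec_mulVec, Matrix.mulVec_mulVec, ← mul_assoc, ← mul_assoc, ← map_mul,
      Units.mul_inv, map_one, one_mul]

/-- `R` lifts `r` by the cocycle `Z`. -/
def IsLiftBy (r : Gp p →* Matrix (Fin 2) (Fin 2) k) (Z : Gp p → Matrix (Fin 2) (Fin 2) k)
    (R : Gp p →* Matrix (Fin 2) (Fin 2) (DualNumber k)) : Prop :=
  ∀ σ i j, R σ i j = TrivSqZeroExt.inl (r σ i j) + TrivSqZeroExt.inr ((Z σ * r σ) i j)

theorem IsLiftBy.fst {r : Gp p →* Matrix (Fin 2) (Fin 2) k}
    {Z : Gp p → Matrix (Fin 2) (Fin 2) k}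
    {R : Gp p →* Matrix (Fin 2) (Fin 2) (DualNumber k)} (h : IsLiftBy r Z R) (σ : Gp p)
    (i j : Fin 2) : (R σ i j).fst = r σ i j := by simp [h σ i j]

theorem IsLiftBy.eq_one_and_eq_zero {r : Gp p →* Matrix (Fin 2) (Fin 2) k}
    {Z : Gp p → Matrix (Fin 2) (Fin 2) k}
    {R : Gp p →* Matrix (Fin 2) (Fin 2) (DualNumber k)} (h : IsLiftBy r Z R) {σ : Gp p}
    (hσ : R σ = 1) : r σ = 1 ∧ Z σ = 0 := by
  have h1 : r σ = 1 := Matrix.ext fun i j => by
    rw [← h.fst σ i j, hσ]
    by_cases hij : i = j <;> simp [Matrix.one_apply, hij]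
  refine ⟨h1, Matrix.ext fun i j => ?_⟩
  have := congrArg TrivSqZeroExt.snd (h σ i j)
  rw [hσ] at this
  by_cases hij : i = j <;> simpa [Matrix.one_apply, hij, h1] using this.symm

theorem IsLiftBy.conj {r : Gp p →* Matrix (Fin 2) (Fin 2) k}
    {Z : Gp p → Matrix (Fin 2) (Fin 2) k}
    {R : Gp p →* Matrix (Fin 2) (Fin 2) (DualNumber k)} (h : IsLiftBy r Z R)
    (P : (Matrix (Fin 2) (Fin 2) k)ˣ) :
    IsLiftBy (conjBy P r) (fun σ => (↑P⁻¹ : Matrix (Fin 2) (Fin 2) k) * Z σ * (P : Matrix (Fin 2) (Fin 2) k))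
      (conjLift P R) := by
  intro σ i j
  have h2 : (↑P⁻¹ : Matrix (Fin 2) (Fin 2) k) * Z σ * (P : Matrix (Fin 2) (Fin 2) k) * conjBy P r σ =
      (↑P⁻¹ : Matrix (Fin 2) (Fin 2) k) * (Z σ * r σ) * (P : Matrix (Fin 2) (Fin 2) k) := by
    show _ * (_ * r σ * (P : Matrix (Fin 2) (Fin 2) k)) = _
    simp only [mul_assoc, Units.mul_inv_cancel_left]
  rw [h2]
  show (inlMat (↑P⁻¹ : Matrix (Fin 2) (Fin 2) k) * R σ * inlMat (P : Matrix (Fin 2) (Fin 2) k)) i j =
    TrivSqZeroExt.inl (((↑P⁻¹ : Matrix (Fin 2) (Fin 2) k) * r σ * (P : Matrix (Fin 2) (Fin 2) k)) i j) + _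
  ext <;> simp [inlMat, Matrix.mul_apply, Fin.sum_univ_two, h σ, mul_add, add_mul] <;> ring

theorem adCob_conjBy (P : (Matrix (Fin 2) (Fin 2) k)ˣ)
    (r : Gp p →* Matrix (Fin 2) (Fin 2) k) (X : Matrix (Fin 2) (Fin 2) k) (σ : Gp p) :
    (↑P⁻¹ : Matrix (Fin 2) (Fin 2) k) * adCob r X σ * (P : Matrix (Fin 2) (Fin 2) k) =
      adCob (conjBy P r) ((↑P⁻¹ : Matrix (Fin 2) (Fin 2) k) * X * (P : Matrix (Fin 2) (Fin 2) k)) σ := by
  show _ * (X - r σ * X * r σ⁻¹) * _ = _ - (_ * r σ * _) * _ * (_ * r σ⁻¹ * _)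
  simp only [mul_sub, sub_mul, mul_assoc, Units.mul_inv_cancel_left]

/-- Every trace-zero or arbitrary coboundary is the coboundary of a trace-zero matrix. -/
theorem adCob_mem_cobSpace (h2 : (2 : k) ≠ 0) (r : Gp p →* Matrix (Fin 2) (Fin 2) k)
    (X : Matrix (Fin 2) (Fin 2) k) : adCob r X ∈ cobSpace r := by
  refine ⟨X - (X.trace / 2) • 1, ?_, ?_⟩
  · show (X - (X.trace / 2) • (1 : Matrix (Fin 2) (Fin 2) k)).trace = 0
    rw [Matrix.trace_sub, Matrix.trace_smul, Matrix.trace_one, Fintype.card_fin, smul_eq_mul]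
    push_cast
    field_simp
    ring
  · rw [map_sub, map_smul, show adCob r 1 = 0 from funext fun σ => by
      show (1 : Matrix (Fin 2) (Fin 2) k) - r σ * 1 * r σ⁻¹ = 0
      rw [mul_one, ← map_mul, mul_inv_cancel, map_one, sub_self], smul_zero, sub_zero]

theorem trace_conj_eq_zero (P : (Matrix (Fin 2) (Fin 2) k)ˣ) {X : Matrix (Fin 2) (Fin 2) k}
    (h : X.trace = 0) :
    ((↑P⁻¹ : Matrix (Fin 2) (Fin 2) k) * X * (P : Matrix (Fin 2) (Fin 2) k)).trace = 0 := by
  rw [Matrix.trace_mul_cycle, Units.mul_inv, one_mul, h]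

theorem cocycle_conj (P : (Matrix (Fin 2) (Fin 2) k)ˣ) (r : Gp p →* Matrix (Fin 2) (Fin 2) k)
    {Z : Gp p → Matrix (Fin 2) (Fin 2) k}
    (h : ∀ σ τ, Z (σ * τ) = Z σ + r σ * Z τ * r σ⁻¹) (σ τ : Gp p) :
    (↑P⁻¹ : Matrix (Fin 2) (Fin 2) k) * Z (σ * τ) * (P : Matrix (Fin 2) (Fin 2) k) =
      (↑P⁻¹ : Matrix (Fin 2) (Fin 2) k) * Z σ * (P : Matrix (Fin 2) (Fin 2) k) +
      conjBy P r σ * ((↑P⁻¹ : Matrix (Fin 2) (Fin 2) k) * Z τ * (P : Matrix (Fin 2) (Fin 2) k)) *
        conjBy P r σ⁻¹ := by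
  rw [h, mul_add, add_mul]
  show _ = _ + (_ * r σ * _) * _ * (_ * r σ⁻¹ * _)
  simp only [mul_assoc, Units.mul_inv_cancel_left]

/-- Finitely many lifts with models, with coboundaries, span at most four dimensions. -/
theorem finrank_span_le_four [Finite k] [CharP k p] (hp2 : p ≠ 2)
    (r : Gp p →* Matrix (Fin 2) (Fin 2) k)
    (hsplit : ∀ σ, ∃ c : k, (r σ - c • (1 : Matrix (Fin 2) (Fin 2) k)).det = 0)
    (hdet : ∀ z : PadicAlgCl p, IsPrimitiveRoot z p → ∀ σ : Gp p,
      ∀ a : ℕ, σ z = z ^ a → (r σ).det = (a : k))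
    {ι : Type} [Finite ι] [Nonempty ι] (Z : ι → Gp p → Matrix (Fin 2) (Fin 2) k)
    (htr : ∀ i σ, (Z i σ).trace = 0)
    (hcoc : ∀ i σ τ, Z i (σ * τ) = Z i σ + r σ * Z i τ * r σ⁻¹)
    (R : ι → Gp p →* Matrix (Fin 2) (Fin 2) (DualNumber k))
    (hR : ∀ i, IsLiftBy r (Z i) (R i)) (hm : ∀ i, HasLocalModel p (RepMod (R i))) :
    FiniteDimensional k
        ↥(Submodule.span k (Set.range Z) ⊔ LinearMap.range (adCob r)) ∧
      Module.finrank k ↥(Submodule.span k (Set.range Z) ⊔ LinearMap.range (adCob r)) ≤ 4 := by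
  classical
  have h2 : (2 : k) ≠ 0 := fun h => hp2 <| by
    have h' : ((2 : ℕ) : k) = 0 := by exact_mod_cast h
    exact (Nat.prime_dvd_prime_iff_eq hp.out Nat.prime_two).1 ((CharP.cast_eq_zero_iff k p 2).1 h')
  have hpk : (p : DualNumber k) = 0 := by
    rw [← map_natCast (TrivSqZeroExt.inlHom k k), CharP.cast_eq_zero, map_zero]
  obtain ⟨i₀⟩ := ‹Nonempty ι›
  obtain ⟨P, hP⟩ := exists_conj_shape hp2 r (hasLocalModel_residual (hR i₀).fst (hm i₀)) hsplit hdet
  set r' := conjBy P r with hr'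
  let Φ : (Gp p → Matrix (Fin 2) (Fin 2) k) →ₗ[k] (Gp p → Matrix (Fin 2) (Fin 2) k) :=
    LinearMap.pi fun σ => ((LinearMap.mulRight k (P : Matrix (Fin 2) (Fin 2) k)).comp
      (LinearMap.mulLeft k (↑P⁻¹ : Matrix (Fin 2) (Fin 2) k))).comp (LinearMap.proj σ)
  have hΦ : ∀ f σ, Φ f σ = (↑P⁻¹ : Matrix (Fin 2) (Fin 2) k) * f σ * (P : Matrix (Fin 2) (Fin 2) k) := fun _ _ => rfl
  have hΦinj : Function.Injective Φ := fun f g h => funext fun σ => by
    have h1 := congrArg (fun A : Matrix (Fin 2) (Fin 2) k =>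
      (P : Matrix (Fin 2) (Fin 2) k) * A * (↑P⁻¹ : Matrix (Fin 2) (Fin 2) k)) (congrFun h σ)
    simpa [hΦ, mul_assoc] using h1
  let R' : ι → Gp p →* Matrix (Fin 2) (Fin 2) (DualNumber k) := fun i => conjLift P (R i)
  have hR' : ∀ i, IsLiftBy r' (Φ (Z i)) (R' i) := fun i => (hR i).conj P
  let T : ∀ i, Model p (RepMod (R' i)) := fun i =>
    ((RepMod.exists_model (R' i) hpk (hasLocalModel_conjLift P (hm i)))).some
  suffices key : ∀ U : Submodule k (Gp p → Matrix (Fin 2) (Fin 2) k), (∀ i, Φ (Z i) ∈ U) →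
      cobSpace r' ≤ U → FiniteDimensional k U ∧ Module.finrank k U ≤ 4 →
      FiniteDimensional k ↥(Submodule.span k (Set.range Z) ⊔ LinearMap.range (adCob r)) ∧
        Module.finrank k ↥(Submodule.span k (Set.range Z) ⊔ LinearMap.range (adCob r)) ≤ 4 by
    rcases hP with hord | ⟨u, hss⟩
    · obtain ⟨D, hval, hgen, hD⟩ := exists_tameField_family T (e := p - 1)
        (Nat.sub_pos_of_lt hp.out.one_lt)
        (fun h => absurd (Nat.le_of_dvd (Nat.sub_pos_of_lt hp.out.one_lt) h)
          (not_le.2 (Nat.sub_lt hp.out.pos one_pos))) dvd_rfl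
      have hfix : ∀ i, ∀ σ : Gp p, (∀ x ∈ D.F, σ x = x) → R' i σ = 1 := fun i σ hσ =>
        Matrix.toLin'.injective (LinearMap.ext fun v => by
          rw [Matrix.toLin'_one, Matrix.toLin'_apply]
          exact ((T i).smul_eq_smul_of_eq_on (σ' := 1) (m := RepMod.mk _ v)
            fun j => hσ _ (hval i j _)).trans (one_smul _ _))
      have hF : ∀ σ : Gp p, (∀ x ∈ D.F, σ x = x) → r' σ = 1 := fun σ hσ =>
        ((hR' i₀).eq_one_and_eq_zero (hfix i₀ σ hσ)).1
      refine key _ (fun i => Submodule.mem_sup_left (Submodule.subset_span ?_)) le_sup_right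
        (finrank_span_ordinary_le hp2 D rfl hD r' hF hord.upper hord.quot
          (hord.sub D.zeta D.zeta_spec))
      exact ⟨⟨fun σ => trace_conj_eq_zero P (htr i σ), fun σ τ => cocycle_conj P r (hcoc i) σ τ,
        fun σ hσ => ((hR' i).eq_one_and_eq_zero (hfix i σ hσ)).2⟩,
        isTriangularClass_of_hasLocalModel hp2 r' hord (Φ (Z i))
          (fun σ => trace_conj_eq_zero P (htr i σ)) (fun σ τ => cocycle_conj P r (hcoc i) σ τ)
          (R' i) (hR' i) (hasLocalModel_conjLift P (hm i))⟩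
    · have hsq : 0 < p ^ 2 - 1 := by
        have : 2 ^ 2 ≤ p ^ 2 := Nat.pow_le_pow_left hp.out.two_le 2
        omega
      obtain ⟨D, hval, hgen, hD⟩ := exists_tameField_family T hsq
        (Engine.not_dvd_pow_sub_one two_pos)
        (by simpa using Nat.pow_sub_one_dvd_pow_sub_one p (one_dvd 2))
      have hfix : ∀ i, ∀ σ : Gp p, (∀ x ∈ D.F, σ x = x) → R' i σ = 1 := fun i σ hσ =>
        Matrix.toLin'.injective (LinearMap.ext fun v => by
          rw [Matrix.toLin'_one, Matrix.toLin'_apply]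
          exact ((T i).smul_eq_smul_of_eq_on (σ' := 1) (m := RepMod.mk _ v)
            fun j => hσ _ (hval i j _)).trans (one_smul _ _))
      have hK : ∀ σ : Gp p, D.FixK σ → r' σ = 1 := by
        intro σ hσ
        obtain ⟨σ', hσ'I, hσ'⟩ := D.exists_inertia_eq_on fun x hx => hσ x (D.W_le_K hx)
        rw [Bound.r_congr r' (fun τ hτ => ((hR' i₀).eq_one_and_eq_zero (hfix i₀ τ hτ)).1)
          fun x hx => (hσ' x hx).symm]
        have hϖ : σ' D.ϖ = D.ϖ := (hσ' _ D.mem).trans (hσ _ D.varpi_mem_K)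
        have hu : u σ' = 1 := by
          have h1 := hss.fundamental σ' hσ'I D.ϖ D.pow_eq (Polynomial.X - 1) (by
            rw [hϖ, div_self D.varpi_ne_zero, map_sub, Polynomial.aeval_X, map_one, sub_self,
              norm_zero]
            exact zero_lt_one)
          rwa [map_sub, Polynomial.aeval_X, map_one, sub_eq_zero] at h1
        rw [hss.diag σ' hσ'I, hu, one_pow, Matrix.one_fin_two]
      refine key _ (fun i => Submodule.mem_sup_left (Submodule.subset_span ?_)) le_sup_right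
        (finrank_span_supersingular_le hp2 D rfl hD r' hK u
          (fun σ hσ Q hQ => hss.fundamental σ hσ D.ϖ D.pow_eq Q hQ) hss.diag)
      exact ⟨fun σ => trace_conj_eq_zero P (htr i σ), fun σ τ => cocycle_conj P r (hcoc i) σ τ,
        fun σ hσ => ((hR' i).eq_one_and_eq_zero (hfix i σ hσ)).2⟩
  intro U hUZ hUC hU
  have := hU.1
  have hle : (Submodule.span k (Set.range Z) ⊔ LinearMap.range (adCob r)).map Φ ≤ U := by
    rw [Submodule.map_sup, sup_le_iff]
    refine ⟨?_, ?_⟩
    · rw [Submodule.map_span, Submodule.span_le]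
      rintro _ ⟨_, ⟨i, rfl⟩, rfl⟩
      exact hUZ i
    · rintro _ ⟨_, ⟨X, rfl⟩, rfl⟩
      refine hUC ?_
      rw [show Φ (adCob r X) = adCob r' ((↑P⁻¹ : Matrix (Fin 2) (Fin 2) k) * X * (P : Matrix (Fin 2) (Fin 2) k)) from
        funext fun σ => adCob_conjBy P r X σ]
      exact adCob_mem_cobSpace h2 r' _
  let f : ↥(Submodule.span k (Set.range Z) ⊔ LinearMap.range (adCob r)) →ₗ[k] U :=
    (Φ.comp (Submodule.subtype _)).codRestrict U fun x => hle ⟨x, x.2, rfl⟩
  have hf : Function.Injective f := fun x y h => Subtype.ext (hΦinj (congrArg Subtype.val h))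
  exact ⟨FiniteDimensional.of_injective f hf, (LinearMap.finrank_le_finrank_of_injective hf).trans hU.2⟩

/-- The local classes of finitely-presented flat deformations with cyclotomic determinant. -/
theorem finrank_localClasses_flat_le [Finite k] [CharP k p] (hp2 : p ≠ 2) (rbar : Γℚ →* Mat k)
    (hsplit : ∀ g : Γℚ, ∃ c : k, (rbar g - c • (1 : Mat k)).det = 0)
    (T : Set (Γℚ → Mat k))
    (hT : ∀ Z ∈ T, (∀ g, (Z g).trace = 0) ∧
      (∀ g h, Z (g * h) = Z g + rbar g * Z h * rbar g⁻¹) ∧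
      ∃ (R : Γℚ →* Mat (DualNumber k)) (hR : Deformation.IsCont R),
        (∀ g, R g = RT.liftEntries rbar Z g) ∧ (Deformation.repOf R hR).DetIsCyclotomic p ∧
          (Deformation.repOf R hR).IsFlatAt p) :
    FiniteDimensional k (RT.localClasses rbar ((padicPlace p).decompositionSubgroup ℚ)
        (Submodule.span k T)) ∧
      Module.finrank k (RT.localClasses rbar ((padicPlace p).decompositionSubgroup ℚ)
        (Submodule.span k T)) ≤
      Module.finrank k ↥(RT.commutantSpace rbar ((padicPlace p).decompositionSubgroup ℚ) ⊓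
        RT.traceZero k) + 1 := by
  classical
  have hpk : (p : k) = 0 := CharP.cast_eq_zero k p
  have h2 : (2 : k) ≠ 0 := fun h => hp2 <| by
    have h' : ((2 : ℕ) : k) = 0 := by exact_mod_cast h
    exact (Nat.prime_dvd_prime_iff_eq hp.out Nat.prime_two).1 ((CharP.cast_eq_zero_iff k p 2).1 h')
  set H := (padicPlace p).decompositionSubgroup ℚ with hH
  let π : Gp p → H := fun σ =>
    ⟨localGaloisToGlobal p σ, localGaloisToGlobal_mem_decompositionSubgroup p σ⟩
  have hπ : Function.Surjective π := fun g => by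
    obtain ⟨σ, hσ⟩ := decompositionSubgroup_padicPlace.le g.2
    exact ⟨σ, Subtype.ext hσ⟩
  let pull : (H → Mat k) →ₗ[k] (Gp p → Mat k) := LinearMap.funLeft k (Mat k) π
  have hpull : Function.Injective pull := LinearMap.funLeft_injective_of_surjective _ _ π hπ
  set r := locRep (p := p) rbar with hr
  set cobH := (RT.resSub H).comp (RT.adCoboundary rbar) with hcobH
  have hcob : pull.comp cobH = adCob r := LinearMap.ext fun X => funext fun σ => by
    show X - rbar (localGaloisToGlobal p σ) * X * rbar (localGaloisToGlobal p σ)⁻¹ = _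
    rw [← map_inv]
    rfl
  have hgood : ∀ Z ∈ T, ∃ R : Gp p →* Matrix (Fin 2) (Fin 2) (DualNumber k),
      IsLiftBy r (pull (RT.resSub H Z)) R ∧ HasLocalModel p (RepMod R) ∧
      (∀ σ, (pull (RT.resSub H Z) σ).trace = 0) ∧
      (∀ σ τ, pull (RT.resSub H Z) (σ * τ) = pull (RT.resSub H Z) σ +
        r σ * pull (RT.resSub H Z) τ * r σ⁻¹) ∧
      ∀ z : PadicAlgCl p, IsPrimitiveRoot z p → ∀ σ : Gp p, ∀ a : ℕ, σ z = z ^ a →
        (r σ).det = (a : k) := by
    intro Z hZ
    obtain ⟨htr, hcoc, R, hR, hRZ, hdet, hflat⟩ := hT Z hZ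
    refine ⟨locRep R, fun σ i j => ?_, hasLocalModel_of_isFlatAt hR hflat, fun σ => htr _,
      fun σ τ => ?_, fun z hz σ a ha => ?_⟩
    · show R (localGaloisToGlobal p σ) i j = _
      rw [hRZ]
      rfl
    · show Z (localGaloisToGlobal p (σ * τ)) = Z (localGaloisToGlobal p σ) +
        rbar (localGaloisToGlobal p σ) * Z (localGaloisToGlobal p τ) *
          rbar (localGaloisToGlobal p σ⁻¹)
      rw [map_mul, map_inv]
      exact hcoc _ _
    · have hμ : ∀ μ : ℚ̄, μ ^ p = 1 → localGaloisToGlobal p σ μ = μ ^ a := fun μ hμ => by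
        refine (padicEmbedding p).injective ?_
        have : NeZero p := ⟨hp.out.ne_zero⟩
        obtain ⟨i, -, hi⟩ := hz.eq_pow_of_pow_eq_one (ξ := padicEmbedding p μ)
          (by rw [← map_pow, hμ, map_one])
        show padicEmbedding p _ = padicEmbedding p _
        rw [padicEmbedding_localGaloisToGlobal, map_pow, ← hi, map_pow, ha, ← pow_mul, ← pow_mul,
          mul_comm]
      have h := hdet.2 1 (localGaloisToGlobal p σ) a (by rwa [pow_one])
      rw [pow_one, show ((p : ℕ) : DualNumber k) = 0 by ext <;> simp,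
        Ideal.span_singleton_eq_bot.mpr rfl, Ideal.mem_bot, sub_eq_zero] at h
      have h' : (R (localGaloisToGlobal p σ)).det = (a : DualNumber k) := by
        rw [← h, ← DFunLike.congr_fun (Deformation.matOf_repOf R hR) _, Deformation.matOf_apply,
          LinearMap.det_toMatrix]
      have h'' := congrArg TrivSqZeroExt.fst h'
      rw [hRZ] at h''
      simpa [r, locRep_apply, RT.liftEntries, Matrix.det_fin_two] using h''
  set U := Submodule.span k ((fun Z => pull (RT.resSub H Z)) '' T) ⊔ LinearMap.range (adCob r)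
    with hU
  have hbound : FiniteDimensional k U ∧ Module.finrank k U ≤ 4 := by
    let V : Finset T → Submodule k (Gp p → Mat k) := fun s =>
      Submodule.span k ((fun Z : T => pull (RT.resSub H Z.1)) '' (s : Set T)) ⊔
        LinearMap.range (adCob r)
    have hcoblt : Module.finrank k (LinearMap.range (adCob r)) ≤ 4 :=
      (LinearMap.finrank_range_le _).trans (by simp [Module.finrank_matrix])
    have hV : ∀ s : Finset T, FiniteDimensional k (V s) ∧ Module.finrank k (V s) ≤ 4 := by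
      intro s
      rcases s.eq_empty_or_nonempty with rfl | hs
      · have heq : V ∅ = LinearMap.range (adCob r) := by
          show Submodule.span k _ ⊔ _ = _
          rw [Finset.coe_empty, Set.image_empty, Submodule.span_empty, bot_sup_eq]
        rw [heq]
        exact ⟨Module.Finite.range (adCob r), hcoblt⟩
      · have : Nonempty {Z // Z ∈ s} := hs.to_subtype
        choose R hR hm htr hcoc hdet using fun Z : {Z // Z ∈ s} => hgood Z.1.1 Z.1.2
        have h := finrank_span_le_four hp2 r (fun σ => hsplit _) (hdet (Classical.arbitrary _))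
          (fun Z : {Z // Z ∈ s} => pull (RT.resSub H Z.1.1)) htr hcoc R hR hm
        have heq : Set.range (fun Z : {Z // Z ∈ s} => pull (RT.resSub H Z.1.1)) =
            (fun Z : T => pull (RT.resSub H Z.1)) '' (s : Set T) := by
          ext x; simp
        rwa [heq] at h
    obtain ⟨n, ⟨s, hs⟩, hmax⟩ : ∃ n, (∃ s, Module.finrank k (V s) = n) ∧
        ∀ t, Module.finrank k (V t) ≤ n := by
      have hb : BddAbove (Set.range fun s => Module.finrank k (V s)) :=
        ⟨4, by rintro _ ⟨s, rfl⟩; exact (hV s).2⟩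
      exact ⟨_, Nat.sSup_mem (Set.range_nonempty _) hb, fun t => le_csSup hb ⟨t, rfl⟩⟩
    have hle : U ≤ V s := by
      refine sup_le (Submodule.span_le.2 ?_) le_sup_right
      rintro _ ⟨Z, hZ, rfl⟩
      have := (hV (insert ⟨Z, hZ⟩ s)).1
      have hmono : V s ≤ V (insert ⟨Z, hZ⟩ s) :=
        sup_le_sup_right (Submodule.span_mono (Set.image_mono (Finset.coe_subset.2
          (Finset.subset_insert _ _)))) _
      have heq : V s = V (insert ⟨Z, hZ⟩ s) :=
        Submodule.eq_of_le_of_finrank_le hmono (hs ▸ hmax _)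
      show pull (RT.resSub H Z) ∈ V s
      rw [heq]
      exact Submodule.mem_sup_left (Submodule.subset_span ⟨⟨Z, hZ⟩, Finset.mem_insert_self _ _, rfl⟩)
    have := (hV s).1
    exact ⟨Submodule.finiteDimensional_of_le hle, (Submodule.finrank_mono hle).trans (hV s).2⟩
  have := hbound.1
  -- transport to the decomposition group
  set W := (Submodule.span k T).map (RT.resSub H)
  set C₀ := LinearMap.range cobH
  have hmap : (W ⊔ C₀).map pull = U := by
    show ((Submodule.span k T).map (RT.resSub H) ⊔ LinearMap.range cobH).map pull = U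
    rw [Submodule.map_sup, hU, ← hcob, Submodule.map_span, Submodule.map_span, Set.image_image]
    congr 1
    exact (LinearMap.range_comp cobH pull).symm
  let eU : ↥(W ⊔ C₀) ≃ₗ[k] U :=
    (Submodule.equivMapOfInjective pull hpull (W ⊔ C₀)).trans (LinearEquiv.ofEq _ _ hmap)
  have : FiniteDimensional k ↥(W ⊔ C₀) := Module.Finite.equiv eU.symm
  have hsum : Module.finrank k ↥(W ⊔ C₀) ≤ 4 := eU.finrank_eq.trans_le hbound.2
  have hker : LinearMap.ker cobH = RT.commutantSpace rbar H := by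
    ext X
    refine ⟨fun hX d hd => ?_, fun hX => funext fun d => ?_⟩
    · have h := congrFun (LinearMap.mem_ker.1 hX) ⟨d, hd⟩
      change X - rbar d * X * rbar d⁻¹ = 0 at h
      conv_rhs => rw [sub_eq_zero.1 h, mul_assoc, ← map_mul, inv_mul_cancel, map_one, mul_one]
    · show X - rbar (d : Γℚ) * X * rbar (d : Γℚ)⁻¹ = 0
      rw [hX d d.2, mul_assoc, ← map_mul, mul_inv_cancel, map_one, mul_one, sub_self]
  have hrk := LinearMap.finrank_range_add_finrank_ker cobH
  rw [hker, RT.finrank_commutantSpace_eq h2, Module.finrank_matrix, Fintype.card_fin,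
    Module.finrank_self] at hrk
  let q := C₀.mkQ.comp (W ⊔ C₀).subtype
  have hrange : LinearMap.range q =
      RT.localClasses rbar H (Submodule.span k T) := by
    rw [LinearMap.range_comp, Submodule.range_subtype, Submodule.map_sup, C₀.mkQ_map_self,
      sup_bot_eq]
    rfl
  have hq := LinearMap.finrank_range_add_finrank_ker q
  have hkq : Module.finrank k (LinearMap.ker q) = Module.finrank k C₀ := by
    rw [LinearMap.ker_comp, Submodule.ker_mkQ]
    exact (Submodule.comapSubtypeEquivOfLe le_sup_right).finrank_eq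
  have hfin : FiniteDimensional k (LinearMap.range q) := Module.Finite.range q
  refine ⟨hrange ▸ hfin, ?_⟩
  have hC : Module.finrank k C₀ = Module.finrank k (LinearMap.range cobH) := rfl
  have hle : Module.finrank k (LinearMap.range q) ≤ Module.finrank k
      ↥(RT.commutantSpace rbar H ⊓ RT.traceZero k) + 1 := by omega
  exact hrange ▸ hle

section Bound

variable {𝒪 : Type} [CommRing 𝒪] [IsLocalRing 𝒪]

/-- The bound `dim L_p ≤ 1 + h⁰(D_p, ad⁰)` for conditions implying the flat condition with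
cyclotomic determinant. -/
theorem localBoundAtP_flat [Finite (ResidueField 𝒪)] (hp2 : p ≠ 2)
    (hp𝒪 : (p : 𝒪) ∈ maximalIdeal 𝒪) (rbar : Γℚ →* Mat (ResidueField 𝒪))
    (hsplit : ∀ g : Γℚ, ∃ c : ResidueField 𝒪,
      (rbar g - c • (1 : Mat (ResidueField 𝒪))).det = 0)
    (𝒟 : Finset ℕ → ∀ ⦃A : Type⦄ [CommRing A] [IsLocalRing A] [Algebra 𝒪 A],
      GaloisRepAdic A → Prop)
    (h𝒟 : ∀ (Q : Finset ℕ) (ρ : GaloisRepAdic (DualNumber (ResidueField 𝒪))), 𝒟 Q ρ →
      ρ.DetIsCyclotomic p ∧ ρ.IsFlatAt p) :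
    RT.LocalBoundAtP rbar 𝒟 (padicPlace p) := by
  intro Q
  have hpk : (p : ResidueField 𝒪) = 0 := by
    rw [← map_natCast (residue 𝒪), residue_eq_zero_iff]; exact hp𝒪
  have : CharP (ResidueField 𝒪) p := (CharP.charP_iff_prime_eq_zero hp.out).mpr hpk
  refine finrank_localClasses_flat_le hp2 rbar hsplit _ fun Z hZ => ?_
  obtain ⟨htr, hcoc, R, hR, hRZ, hD⟩ := hZ
  exact ⟨htr, hcoc, R, hR, hRZ, h𝒟 Q _ hD⟩

end Bound

end Fermat.Agent.FlatLocal
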