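import Fermat.Agent.FlatLocal.Defs
import Fermat.Prelude.Def_GaloisRep_CompletionBridge
import Fermat.Agent.TwoAdic.Selmer.Decomposition

/-!
# The decomposition group of the `p`-adic place is the image of the local Galois group
-/

set_option autoImplicit false

noncomputable section

namespace Fermat.Agent.FlatLocal

variable {p : ℕ} [Fact p.Prime]

/-- The decomposition group of the place of `padicEmbedding` is the local Galois group. -/
theorem decompositionSubgroup_padicPlace :
    (padicPlace p).decompositionSubgroup ℚ = (localGaloisToGlobal p).range := by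
  refine le_antisymm (fun σ hσ => ?_) ?_
  · obtain ⟨τ, hτ⟩ := TwoAdic.Selmer.exists_toGlobal_eq ⟨p, Fact.out⟩ hσ
    exact ⟨τ, hτ⟩
  · rintro _ ⟨τ, rfl⟩
    exact localGaloisToGlobal_mem_decompositionSubgroup p τ

end Fermat.Agent.FlatLocal
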