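import Fermat.Agent.FlatLocal.Characters

/-!
# Approximate points of a model lift uniquely

A vector which satisfies the equations of a model modulo a ball of radius `r`, with
`(r / ‖p‖) ^ (p - 1) < ‖p‖`, is within `r / ‖p‖` of exactly one point. This replaces the lifting
lemma of Fontaine; it is proved by pairing with characters.
-/

set_option autoImplicit false

noncomputable section

open Finset

namespace Fermat.Agent.FlatLocal

variable {p : ℕ} [hp : Fact p.Prime]
variable {M : Type} [AddCommGroup M] [DistribMulAction (Gp p) M]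

local notation "C" => PadicAlgCl p

section Radius

theorem IsSmallRadius.div_pow_lt {r : ℝ} (hr : IsSmallRadius p r) :
    (r / ‖(p : C)‖) ^ (p - 1) < ‖(p : C)‖ := hr.2

theorem IsSmallRadius.div_nonneg {r : ℝ} (hr : IsSmallRadius p r) : 0 ≤ r / ‖(p : C)‖ :=
  _root_.div_nonneg hr.1 (norm_nonneg _)

theorem IsSmallRadius.div_lt_one {r : ℝ} (hr : IsSmallRadius p r) : r / ‖(p : C)‖ < 1 := by
  by_contra! h
  exact absurd ((one_le_pow₀ h).trans_lt hr.2) (not_lt.mpr norm_p_lt_one.le)

theorem IsSmallRadius.le_div {r : ℝ} (hr : IsSmallRadius p r) : r ≤ r / ‖(p : C)‖ :=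
  le_div_self hr.1 norm_p_pos norm_p_lt_one.le

theorem norm_sub_le_of {x y z : C} {s : ℝ} (h1 : ‖x - y‖ ≤ s) (h2 : ‖y - z‖ ≤ s) :
    ‖x - z‖ ≤ s := by
  rw [show x - z = (x - y) + (y - z) by ring]
  exact (IsUltrametricDist.norm_add_le_max _ _).trans (max_le h1 h2)

theorem norm_mul_le_right {a x : C} {s : ℝ} (ha : ‖a‖ ≤ 1) (hx : ‖x‖ ≤ s) : ‖a * x‖ ≤ s := by
  rw [norm_mul]
  exact (mul_le_of_le_one_left (norm_nonneg _) ha).trans hx

theorem exists_binom (p : ℕ) [Fact p.Prime] : ∃ q : Polynomial ℤ, (1 + Polynomial.X) ^ p - 1 =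
    Polynomial.X ^ p + (p : Polynomial ℤ) * Polynomial.X * (1 + Polynomial.X * q) := by
  obtain ⟨r, hr⟩ := exists_add_pow_prime_eq (Fact.out : p.Prime) (Polynomial.X : Polynomial ℤ) 1
  have h0 : r.coeff 0 = 1 := by
    have h := congrArg (fun P : Polynomial ℤ => P.coeff 1) hr
    simp only [Polynomial.coeff_X_add_one_pow, Nat.choose_one_right, one_pow, mul_one,
      Polynomial.coeff_add, Polynomial.coeff_X_pow, Polynomial.coeff_one] at h
    rw [if_neg (Fact.out : p.Prime).one_lt.ne, if_neg one_ne_zero, zero_add, zero_add,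
      mul_assoc, Polynomial.coeff_natCast_mul, Polynomial.coeff_X_mul] at h
    exact mul_left_cancel₀ (Int.natCast_ne_zero.mpr (Fact.out : p.Prime).ne_zero)
      ((mul_one _).trans h).symm
  obtain ⟨q, hq⟩ : Polynomial.X ∣ r - 1 := by
    rw [Polynomial.X_dvd_iff, Polynomial.coeff_sub, h0, Polynomial.coeff_one_zero, sub_self]
  refine ⟨q, ?_⟩
  rw [add_comm 1, hr, one_pow, show r = 1 + Polynomial.X * q by rw [← hq]; ring]
  ring

theorem sum_swap₃ {n : ℕ} (F : Fin n → Fin n → Fin n → C) (z : Fin n → C) :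
    ∑ t, (∑ a, ∑ b, F a b t) * z t = ∑ a, ∑ b, ∑ t, F a b t * z t := by
  simp only [Finset.sum_mul]
  exact Finset.sum_comm.trans (Finset.sum_congr rfl fun a _ => Finset.sum_comm)

end Radius

namespace Model

variable {T : Model p M}

variable (T) in
/-- A point modulo the ball of radius `r`. -/
structure IsApproxPoint (r : ℝ) (y : Fin T.n → C) : Prop where
  norm_le : ∀ i, ‖y i‖ ≤ 1
  one : ‖∑ i, cst (T.oneCoeff i) * y i - 1‖ ≤ r
  mul : ∀ i j, ‖y i * y j - ∑ l, cst (T.mulCoeff i j l) * y l‖ ≤ r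

variable (T) in
/-- Powers for the convolution. -/
def cpow (y : Fin T.n → C) : ℕ → Fin T.n → C
  | 0 => fun i => T.b i 0
  | j + 1 => T.conv (cpow y j) y

theorem ev_cpow (y : Fin T.n → C) (j : ℕ) (f : M →+ ZMod p) :
    T.ev (T.cpow y j) f = T.ev y f ^ j := by
  induction j with
  | zero => rw [cpow, ev_b, char_zero, pow_zero]
  | succ j ih => rw [cpow, ev_conv, ih, pow_succ]

theorem exists_cpow_approx {r : ℝ} (hr : 0 ≤ r) {y : Fin T.n → C} (hy : T.IsApproxPoint r y)
    (j : ℕ) : ∃ P : Fin T.n → Fin T.n → C, (∀ i l, ‖P i l‖ ≤ 1) ∧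
      (∀ i x, T.b i (j • x) = ∑ l, P i l * T.b l x) ∧
      ∀ i, ‖T.cpow y j i - ∑ l, P i l * y l‖ ≤ r := by
  induction j with
  | zero =>
    refine ⟨fun i l => T.b i 0 * cst (T.oneCoeff l), fun i l => ?_, fun i x => ?_, fun i => ?_⟩
    · exact norm_mul_le_right (T.norm_le i 0) (norm_cst_le _)
    · simp only [mul_assoc, ← Finset.mul_sum, T.one_eq, mul_one, zero_smul]
    · simp only [mul_assoc, ← Finset.mul_sum, cpow]
      rw [show T.b i 0 - T.b i 0 * ∑ l, cst (T.oneCoeff l) * y l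
        = T.b i 0 * -(∑ l, cst (T.oneCoeff l) * y l - 1) by ring]
      exact norm_mul_le_right (T.norm_le i 0) (by rw [norm_neg]; exact hy.one)
  | succ j ih =>
    obtain ⟨P, hP1, hP2, hP3⟩ := ih
    have e1 : ∀ (i : Fin T.n) (z : Fin T.n → C),
        ∑ t, (∑ a, ∑ l, ∑ s, cst (T.addCoeff i a l) * P a s * cst (T.mulCoeff s l t)) * z t
          = ∑ a, ∑ l, ∑ s, cst (T.addCoeff i a l) * P a s * ∑ t, cst (T.mulCoeff s l t) * z t := by
      intro i z
      rw [sum_swap₃]
      refine Finset.sum_congr rfl fun a _ => Finset.sum_congr rfl fun l _ => ?_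
      simp only [Finset.sum_mul, Finset.mul_sum, mul_assoc]
      exact Finset.sum_comm
    refine ⟨fun i t => ∑ a, ∑ l, ∑ s, cst (T.addCoeff i a l) * P a s * cst (T.mulCoeff s l t),
      fun i t => ?_, fun i x => ?_, fun i => ?_⟩
    · refine IsUltrametricDist.norm_sum_le_of_forall_le_of_nonneg zero_le_one fun a _ => ?_
      refine IsUltrametricDist.norm_sum_le_of_forall_le_of_nonneg zero_le_one fun l _ => ?_
      refine IsUltrametricDist.norm_sum_le_of_forall_le_of_nonneg zero_le_one fun s _ => ?_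
      exact norm_mul_le_right (norm_mul_le_right (norm_cst_le _) (hP1 a s)) (norm_cst_le _)
    · rw [succ_nsmul, T.add_eq, e1]
      refine Finset.sum_congr rfl fun a _ => Finset.sum_congr rfl fun l _ => ?_
      rw [hP2, Finset.sum_mul, Finset.mul_sum]
      refine Finset.sum_congr rfl fun s _ => ?_
      rw [← T.mul_eq]
      ring
    · rw [cpow, conv, e1, ← Finset.sum_sub_distrib]
      refine IsUltrametricDist.norm_sum_le_of_forall_le_of_nonneg hr fun a _ => ?_
      rw [← Finset.sum_sub_distrib]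
      refine IsUltrametricDist.norm_sum_le_of_forall_le_of_nonneg hr fun l _ => ?_
      refine norm_sub_le_of (y := cst (T.addCoeff i a l) * ((∑ s, P a s * y s) * y l)) ?_ ?_
      · rw [← mul_sub, ← sub_mul]
        exact norm_mul_le_right (norm_cst_le _) (by
          rw [mul_comm]; exact norm_mul_le_right (hy.norm_le l) (hP3 a))
      · rw [Finset.sum_mul, Finset.mul_sum, ← Finset.sum_sub_distrib]
        refine IsUltrametricDist.norm_sum_le_of_forall_le_of_nonneg hr fun s _ => ?_
        rw [mul_assoc (P a s), ← mul_assoc (cst (T.addCoeff i a l)), ← mul_sub]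
        exact norm_mul_le_right (norm_mul_le_right (norm_cst_le _) (hP1 a s)) (hy.mul s l)

/-- The `p`-th power of an approximate point is approximately the origin. -/
theorem norm_cpow_sub_le {r : ℝ} (hr : 0 ≤ r) {y : Fin T.n → C} (hy : T.IsApproxPoint r y)
    (i : Fin T.n) : ‖T.cpow y p i - T.b i 0‖ ≤ r := by
  obtain ⟨P, -, hP2, hP3⟩ := exists_cpow_approx hr hy p
  have hP : P i = fun l => T.b i 0 * cst (T.oneCoeff l) := T.coeff_unique fun x => by
    rw [← hP2, T.exponent]
    simp only [mul_assoc, ← Finset.mul_sum, T.one_eq, mul_one]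
  refine norm_sub_le_of (hP3 i) ?_
  simp only [hP, mul_assoc, ← Finset.mul_sum]
  rw [show T.b i 0 * (∑ l, cst (T.oneCoeff l) * y l) - T.b i 0
    = T.b i 0 * (∑ l, cst (T.oneCoeff l) * y l - 1) by ring]
  exact norm_mul_le_right (T.norm_le i 0) hy.one

theorem norm_ev_le {a : Fin T.n → C} {s : ℝ} (hs : 0 ≤ s) (h : ∀ i, ‖a i‖ ≤ s)
    (f : M →+ ZMod p) : ‖T.ev a f‖ ≤ s := by
  rw [ev_apply]
  exact IsUltrametricDist.norm_sum_le_of_forall_le_of_nonneg hs fun i _ =>
    norm_mul_le_right (T.norm_cCoeff_le f i) (h i)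

theorem norm_ev_pow_sub_one {r : ℝ} (hr : 0 ≤ r) {y : Fin T.n → C} (hy : T.IsApproxPoint r y)
    (f : M →+ ZMod p) : ‖T.ev y f ^ p - 1‖ ≤ r := by
  rw [← ev_cpow, ← char_zero f, ← T.ev_b 0 f, ← Pi.sub_apply, ← map_sub]
  exact norm_ev_le hr (fun i => norm_cpow_sub_le hr hy i) f

theorem cCoeff_add (f g : M →+ ZMod p) : T.cCoeff (f + g) =
    fun l => ∑ i, ∑ j, T.cCoeff f i * T.cCoeff g j * cst (T.mulCoeff i j l) := by
  refine T.coeff_unique fun m => ?_
  rw [sum_cCoeff, char_add_left, ← T.sum_cCoeff f m, ← T.sum_cCoeff g m, Finset.sum_mul_sum,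
    sum_swap₃]
  refine Finset.sum_congr rfl fun i _ => Finset.sum_congr rfl fun j _ => ?_
  rw [mul_mul_mul_comm, T.mul_eq, Finset.mul_sum]
  simp only [mul_assoc]

theorem norm_ev_add {r : ℝ} (hr : 0 ≤ r) {y : Fin T.n → C} (hy : T.IsApproxPoint r y)
    (f g : M →+ ZMod p) : ‖T.ev y (f + g) - T.ev y f * T.ev y g‖ ≤ r := by
  rw [ev_apply, ev_apply, ev_apply, cCoeff_add, Finset.sum_mul_sum, sum_swap₃,
    ← Finset.sum_sub_distrib]
  refine IsUltrametricDist.norm_sum_le_of_forall_le_of_nonneg hr fun i _ => ?_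
  rw [← Finset.sum_sub_distrib]
  refine IsUltrametricDist.norm_sum_le_of_forall_le_of_nonneg hr fun j _ => ?_
  rw [mul_mul_mul_comm, Finset.sum_congr rfl fun l _ => mul_assoc (T.cCoeff f i * T.cCoeff g j)
    (cst (T.mulCoeff i j l)) (y l), ← Finset.mul_sum, ← mul_sub]
  exact norm_mul_le_right (norm_mul_le_right (T.norm_cCoeff_le f i) (T.norm_cCoeff_le g j))
    (by rw [norm_sub_rev]; exact hy.mul i j)

variable (T) in
/-- The functions on the dual group with coefficient vector in the ball of radius `s`. -/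
def InBall (s : ℝ) (h : (M →+ ZMod p) → C) : Prop :=
  ∃ a : Fin T.n → C, (∀ i, ‖a i‖ ≤ s) ∧ T.ev a = h

theorem InBall.mono {s t : ℝ} (hst : s ≤ t) {h : (M →+ ZMod p) → C} (hh : T.InBall s h) :
    T.InBall t h :=
  let ⟨a, ha, he⟩ := hh
  ⟨a, fun i => (ha i).trans hst, he⟩

theorem InBall.zero {s : ℝ} (hs : 0 ≤ s) : T.InBall s 0 :=
  ⟨0, fun i => by simpa using hs, map_zero _⟩

theorem InBall.one : T.InBall 1 1 :=
  ⟨fun i => T.b i 0, fun i => T.norm_le i 0, funext fun f => by rw [ev_b, char_zero, Pi.one_apply]⟩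

theorem InBall.add {s : ℝ} {g h : (M →+ ZMod p) → C} (hg : T.InBall s g) (hh : T.InBall s h) :
    T.InBall s (g + h) := by
  obtain ⟨a, ha, rfl⟩ := hg
  obtain ⟨a', ha', rfl⟩ := hh
  exact ⟨a + a', fun i => (IsUltrametricDist.norm_add_le_max _ _).trans (max_le (ha i) (ha' i)),
    map_add _ _ _⟩

theorem InBall.smul {s : ℝ} (c : C) {h : (M →+ ZMod p) → C} (hh : T.InBall s h) :
    T.InBall (‖c‖ * s) (c • h) := by
  obtain ⟨a, ha, rfl⟩ := hh
  refine ⟨c • a, fun i => ?_, map_smul _ _ _⟩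
  rw [Pi.smul_apply, smul_eq_mul, norm_mul]
  exact mul_le_mul_of_nonneg_left (ha i) (norm_nonneg _)

theorem InBall.neg {s : ℝ} {h : (M →+ ZMod p) → C} (hh : T.InBall s h) : T.InBall s (-h) := by
  obtain ⟨a, ha, rfl⟩ := hh
  exact ⟨-a, fun i => by simpa using ha i, map_neg _ _⟩

theorem InBall.mul {s t : ℝ} (hs : 0 ≤ s) (ht : 0 ≤ t) {g h : (M →+ ZMod p) → C}
    (hg : T.InBall s g) (hh : T.InBall t h) : T.InBall (s * t) (g * h) := by
  obtain ⟨a, ha, rfl⟩ := hg
  obtain ⟨a', ha', rfl⟩ := hh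
  refine ⟨T.conv a a', fun i => ?_, funext fun f => by rw [ev_conv, Pi.mul_apply]⟩
  refine IsUltrametricDist.norm_sum_le_of_forall_le_of_nonneg (mul_nonneg hs ht) fun j _ => ?_
  refine IsUltrametricDist.norm_sum_le_of_forall_le_of_nonneg (mul_nonneg hs ht) fun l _ => ?_
  refine norm_mul_le_right (norm_cst_le _) ?_
  rw [norm_mul]
  exact mul_le_mul (ha j) (ha' l) (norm_nonneg _) hs

theorem InBall.mul_one_left {s : ℝ} (hs : 0 ≤ s) {g h : (M →+ ZMod p) → C} (hg : T.InBall 1 g)
    (hh : T.InBall s h) : T.InBall s (g * h) :=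
  (InBall.mul zero_le_one hs hg hh).mono (one_mul s).le

theorem InBall.pow {s : ℝ} (hs : 0 ≤ s) {h : (M →+ ZMod p) → C} (hh : T.InBall s h) :
    ∀ n : ℕ, T.InBall (s ^ n) (h ^ n)
  | 0 => by simpa using InBall.one
  | n + 1 => by
    rw [pow_succ, pow_succ]
    exact InBall.mul (pow_nonneg hs n) hs (InBall.pow hs hh n) hh

theorem InBall.aeval {h : (M →+ ZMod p) → C} (hh : T.InBall 1 h) (q : Polynomial ℤ) :
    T.InBall 1 (Polynomial.aeval h q) := by
  induction q using Polynomial.induction_on' with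
  | add a b ha hb => rw [map_add]; exact ha.add hb
  | monomial n c =>
    rw [Polynomial.aeval_monomial]
    have h1 := ((InBall.pow zero_le_one hh n).mono (one_pow n).le).smul (c : C)
    have h2 : algebraMap ℤ ((M →+ ZMod p) → C) c * h ^ n = (c : C) • h ^ n := by
      funext f; simp
    rw [h2]
    refine h1.mono ?_
    rw [mul_one, ← map_intCast (algebraMap ℚ_[p] C), norm_algebraMap']
    exact Padic.norm_int_le_one c

theorem InBall.norm_apply_le {s : ℝ} (hs : 0 ≤ s) {h : (M →+ ZMod p) → C} (hh : T.InBall s h)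
    (f : M →+ ZMod p) : ‖h f‖ ≤ s := by
  obtain ⟨a, ha, rfl⟩ := hh
  exact norm_ev_le hs ha f

/-- Powers of `1 + h * v` are again of this form. -/
theorem exists_pow_one_add {h v : (M →+ ZMod p) → C} (h1 : T.InBall 1 h) (hv : T.InBall 1 v) :
    ∃ v' : (M →+ ZMod p) → C, T.InBall 1 v' ∧ (1 + h * v) ^ p = 1 + h * v' := by
  obtain ⟨q, hq⟩ := exists_binom p
  have hhv : T.InBall 1 (h * v) := InBall.mul_one_left zero_le_one h1 hv
  have hpow' : T.InBall 1 ((h * v) ^ (p - 1)) :=
    (InBall.pow zero_le_one hhv _).mono (one_pow _).le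
  have hin : T.InBall 1 ((p : C) • (1 + h * v * Polynomial.aeval (h * v) q)) :=
    ((InBall.one.add (InBall.mul_one_left zero_le_one hhv (InBall.aeval hhv q))).smul _).mono
      ((mul_one _).le.trans norm_p_lt_one.le)
  refine ⟨v * ((h * v) ^ (p - 1) + (p : C) • (1 + h * v * Polynomial.aeval (h * v) q)),
    InBall.mul_one_left zero_le_one hv (hpow'.add hin), ?_⟩
  have := congrArg (Polynomial.aeval (h * v)) hq
  simp only [map_sub, map_pow, map_add, map_one, map_mul, map_natCast, Polynomial.aeval_X] at this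
  rw [sub_eq_iff_eq_add.mp this]
  rw [← pow_sub_one_mul hp.out.ne_zero (h * v)]
  funext f
  simp only [Pi.add_apply, Pi.mul_apply, Pi.pow_apply, Pi.one_apply, Pi.smul_apply, smul_eq_mul,
    Pi.natCast_apply]
  ring

/-- The binomial theorem for a sum with a small summand. -/
theorem exists_add_pow {δ : ℝ} (hδ0 : 0 ≤ δ) (hδ1 : δ ≤ 1) {X e : (M →+ ZMod p) → C}
    (hX : T.InBall 1 X) (he : T.InBall δ e) :
    ∃ c : (M →+ ZMod p) → C, T.InBall δ c ∧ (X + e) ^ p = X ^ p + e ^ p + (p : C) • c := by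
  have hsum : ∀ s : Finset ℕ, T.InBall δ (∑ j ∈ s,
      (((p.choose j / p : ℕ) : C)) • (X ^ j * e ^ (p - j - 1) * e)) := by
    intro s
    induction s using Finset.induction_on with
    | empty => simpa using InBall.zero hδ0
    | insert a s ha ih =>
      rw [Finset.sum_insert ha]
      refine InBall.add ?_ ih
      refine ((InBall.mul_one_left hδ0 (InBall.mul_one_left zero_le_one
        ((InBall.pow zero_le_one hX a).mono (one_pow a).le)
        ((InBall.pow zero_le_one (he.mono hδ1) _).mono (one_pow _).le)) he).smul _).mono ?_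
      refine mul_le_of_le_one_left hδ0 ?_
      exact IsUltrametricDist.norm_natCast_le_one C _
  refine ⟨_, hsum (Finset.Ioo 0 p), ?_⟩
  funext f
  simp only [Pi.add_apply, Pi.pow_apply, Pi.smul_apply, Finset.sum_apply, Pi.mul_apply,
    smul_eq_mul, Finset.mul_sum]
  rw [add_pow_prime_eq hp.out (X f) (e f), Finset.mul_sum]
  refine congrArg _ (Finset.sum_congr rfl fun j hj => ?_)
  have hj' := Finset.mem_Ioo.mp hj
  rw [← pow_sub_one_mul (show j ≠ 0 by omega) (X f)]
  ring

/-- One step of the iteration. -/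
theorem exists_step {r : ℝ} (hr : IsSmallRadius p r) {h v e : (M →+ ZMod p) → C}
    (h1 : T.InBall 1 h) (hv : T.InBall 1 v) (he : T.InBall (r / ‖(p : C)‖) e)
    (hpow : T.InBall r ((1 + h) ^ p - 1)) :
    ∃ v' e' : (M →+ ZMod p) → C, T.InBall 1 v' ∧ T.InBall (r / ‖(p : C)‖) e' ∧
      (h * (1 + h * v) + e) ^ p = (-(p : C)) • (h * (1 + h * v') + e') := by
  set δ := r / ‖(p : C)‖ with hδdef
  have hδ0 : 0 ≤ δ := hr.div_nonneg
  have hpn := norm_p_pos (p := p)
  have hp0 : (p : C) ≠ 0 := Nat.cast_ne_zero.mpr hp.out.ne_zero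
  obtain ⟨q, hq⟩ := exists_binom p
  obtain ⟨v₁, hv₁, hu⟩ := exists_pow_one_add h1 hv
  have hhv : T.InBall 1 (h * v) := InBall.mul_one_left zero_le_one h1 hv
  obtain ⟨c, hc, hXe⟩ := exists_add_pow hδ0 hr.div_lt_one.le
    (InBall.mul_one_left zero_le_one h1 (InBall.one.add hhv)) he
  set w := Polynomial.aeval h q with hwdef
  have hw : T.InBall 1 w := InBall.aeval h1 q
  refine ⟨w + v₁ + h * w * v₁,
    (-(p : C))⁻¹ • (((1 + h) ^ p - 1) * (1 + h * v) ^ p + e ^ p) + -c, ?_, ?_, ?_⟩
  · exact (hw.add hv₁).add (InBall.mul_one_left zero_le_one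
      (InBall.mul_one_left zero_le_one h1 hw) hv₁)
  · have hep : δ ^ p ≤ r := by
      rw [← pow_sub_one_mul hp.out.ne_zero δ]
      refine (mul_le_mul_of_nonneg_right hr.2.le hδ0).trans ?_
      rw [hδdef, mul_div_cancel₀ _ hpn.ne']
    have hsum : T.InBall r (((1 + h) ^ p - 1) * (1 + h * v) ^ p + e ^ p) := by
      refine InBall.add ?_ ((InBall.pow hδ0 he p).mono hep)
      rw [mul_comm]
      exact InBall.mul_one_left hr.1
        ((InBall.pow zero_le_one (InBall.one.add hhv) p).mono (one_pow p).le) hpow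
    refine ((hsum.smul _).mono ?_).add hc.neg
    rw [norm_inv, norm_neg, inv_mul_eq_div]
  · have hbin := congrArg (Polynomial.aeval h) hq
    simp only [map_sub, map_pow, map_add, map_one, map_mul, map_natCast, Polynomial.aeval_X]
      at hbin
    rw [hXe]
    funext f
    have hbin' := congrFun hbin f
    have hu' := congrFun hu f
    simp only [Pi.add_apply, Pi.sub_apply, Pi.mul_apply, Pi.pow_apply, Pi.one_apply,
      Pi.natCast_apply, Pi.smul_apply, Pi.neg_apply, smul_eq_mul, ← hwdef, mul_pow] at hbin' hu' ⊢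
    field_simp
    linear_combination (-((1 + h f * v f) ^ p)) * hbin' +
      (-(p : C) * h f * (1 + h f * w f)) * hu'

variable [Finite M]

theorem exists_inBall_of_norm_le : ∃ D : ℝ, 0 < D ∧
    ∀ (s : ℝ) (h : (M →+ ZMod p) → C), 0 ≤ s → (∀ f, ‖h f‖ ≤ s) → T.InBall 1 h →
      T.InBall (D * s) h := by
  obtain ⟨D, hD, hb⟩ := T.exists_ev_bound
  refine ⟨D, hD, fun s h hs hh ⟨a, _, ha⟩ => ⟨a, hb a s hs fun f => by rw [ha]; exact hh f, ha⟩⟩

/-- The key estimate: a function whose values are small and whose `p`-th power shifted by one is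
`1` to precision `r` has small coefficients. -/
theorem inBall_of_pow {r : ℝ} (hr : IsSmallRadius p r) {h : (M →+ ZMod p) → C}
    (h1 : T.InBall 1 h) (hval : ∀ f, ‖h f‖ ≤ r / ‖(p : C)‖)
    (hpow : T.InBall r ((1 + h) ^ p - 1)) : T.InBall (r / ‖(p : C)‖) h := by
  obtain ⟨D, hD, hDb⟩ := exists_inBall_of_norm_le (T := T)
  set δ := r / ‖(p : C)‖ with hδdef
  have hδ0 : 0 ≤ δ := hr.div_nonneg
  have hδ1 : δ < 1 := hr.div_lt_one
  have hpn := norm_p_pos (p := p)
  have key : ∀ k : ℕ, ∃ (N : ℕ) (v e : (M →+ ZMod p) → C), k ≤ N ∧ p ^ k = (p - 1) * N + 1 ∧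
      T.InBall 1 v ∧ T.InBall δ e ∧
      h ^ p ^ k = (-(p : C)) ^ N • (h * (1 + h * v) + e) := by
    intro k
    induction k with
    | zero => exact ⟨0, 0, 0, le_rfl, by simp, InBall.zero zero_le_one, InBall.zero hδ0, by simp⟩
    | succ k ih =>
      obtain ⟨N, v, e, hN, hpk, hv, he, heq⟩ := ih
      obtain ⟨v', e', hv', he', hst⟩ := exists_step hr h1 hv he hpow
      have h2 := hp.out.two_le
      refine ⟨p * N + 1, v', e', ?_, ?_, hv', he', ?_⟩
      · have : N ≤ p * N := Nat.le_mul_of_pos_left N (by omega)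
        omega
      · rw [pow_succ, hpk]
        calc ((p - 1) * N + 1) * p = (p - 1) * (p * N) + p := by ring
          _ = (p - 1) * (p * N) + (p - 1) + 1 := by omega
          _ = (p - 1) * (p * N + 1) + 1 := by ring
      · rw [pow_succ, pow_mul, heq, smul_pow, hst, smul_smul, ← pow_mul, ← pow_succ,
          mul_comm N p]
  set qq := δ ^ (p - 1) / ‖(p : C)‖ with hqq
  have hqq1 : qq < 1 := (div_lt_one hpn).mpr hr.2
  have hqq0 : 0 ≤ qq := div_nonneg (pow_nonneg hδ0 _) hpn.le
  obtain ⟨k, hk⟩ := exists_pow_lt_of_lt_one (inv_pos.mpr hD) hqq1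
  obtain ⟨N, v, e, hN, hpk, hv, he, heq⟩ := key k
  set g := h * (1 + h * v) + e with hg
  have hgb : T.InBall δ g := by
    have hgv : ∀ f, ‖g f‖ ≤ δ * qq ^ k := fun f => by
      refine le_trans ?_ (mul_le_mul_of_nonneg_left (pow_le_pow_of_le_one hqq0 hqq1.le hN) hδ0)
      rw [hqq, div_pow, mul_div_assoc', ← pow_mul, ← pow_succ', ← hpk,
        le_div_iff₀ (pow_pos hpn N)]
      have h2 := congrFun heq f
      simp only [Pi.pow_apply, Pi.smul_apply, smul_eq_mul] at h2
      calc ‖g f‖ * ‖(p : C)‖ ^ N = ‖h f ^ p ^ k‖ := by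
            rw [h2, norm_mul, norm_pow, norm_neg, mul_comm]
        _ ≤ δ ^ p ^ k := by rw [norm_pow]; exact pow_le_pow_left₀ (norm_nonneg _) (hval f) _
    refine (hDb _ g (mul_nonneg hδ0 (pow_nonneg hqq0 k)) hgv ?_).mono ?_
    · exact (InBall.mul_one_left zero_le_one h1 (InBall.one.add
        (InBall.mul_one_left zero_le_one h1 hv))).add (he.mono hδ1.le)
    · calc D * (δ * qq ^ k) = δ * (D * qq ^ k) := by ring
        _ ≤ δ * (D * D⁻¹) := by gcongr
        _ = δ := by rw [mul_inv_cancel₀ hD.ne', mul_one]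
  have hd : T.InBall δ (h + h * h * v) := by
    have : h + h * h * v = g + -e := by rw [hg]; ring
    rw [this]
    exact hgb.add he.neg
  have hiter : ∀ J : ℕ, T.InBall δ (h - (-v) ^ J * h ^ (J + 1)) := by
    intro J
    induction J with
    | zero => simpa using InBall.zero hδ0
    | succ J ih =>
      have h3 : T.InBall δ ((-v * h) ^ J * (h + h * h * v)) :=
        InBall.mul_one_left hδ0 ((InBall.pow zero_le_one
          (InBall.mul_one_left zero_le_one hv.neg h1) J).mono (one_pow J).le) hd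
      convert ih.add h3 using 1
      rw [mul_pow]
      ring
  obtain ⟨J, hJ⟩ := exists_pow_lt_of_lt_one (inv_pos.mpr hD) hδ1
  have htail : T.InBall δ ((-v) ^ J * h ^ (J + 1)) := by
    refine (hDb (δ ^ (J + 1)) _ (pow_nonneg hδ0 _) (fun f => ?_)
      (InBall.mul_one_left zero_le_one ((InBall.pow zero_le_one hv.neg J).mono (one_pow J).le)
        ((InBall.pow zero_le_one h1 _).mono (one_pow _).le))).mono ?_
    · rw [Pi.mul_apply, Pi.pow_apply, Pi.pow_apply, norm_mul, norm_pow, norm_pow]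
      refine (mul_le_of_le_one_left (pow_nonneg (norm_nonneg _) _) ?_).trans
        (pow_le_pow_left₀ (norm_nonneg _) (hval f) _)
      exact pow_le_one₀ (norm_nonneg _) (hv.neg.norm_apply_le zero_le_one f)
    · calc D * δ ^ (J + 1) = δ * (D * δ ^ J) := by rw [pow_succ]; ring
        _ ≤ δ * (D * D⁻¹) := by gcongr
        _ = δ := by rw [mul_inv_cancel₀ hD.ne', mul_one]
  convert (hiter J).add htail using 1
  ring

variable (T) in
include T in
theorem eval_surjective (G : (M →+ ZMod p) →+ ZMod p) : ∃ m : M, ∀ f, f m = G f := by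
  classical
  let : Module (ZMod p) M := zmodModule T
  have : Finite (M →+ ZMod p) := Finite.of_injective _ (DFunLike.coe_injective)
  have : Finite ((M →+ ZMod p) →+ ZMod p) := Finite.of_injective _ (DFunLike.coe_injective)
  have hinj : Function.Injective (fun m : M => (AddMonoidHom.eval m :
      (M →+ ZMod p) →+ ZMod p)) := by
    intro m m' hmm
    have h : ∀ g : M → C, g m = g m' := fun g => by
      have hg : g ∈ Submodule.span C (Set.range (char : (M →+ ZMod p) → (M → C))) := by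
        rw [span_char T]; trivial
      induction hg using Submodule.span_induction with
      | mem x hx =>
        obtain ⟨f, rfl⟩ := hx
        simp only [char]
        exact congrArg (fun t : ZMod p => zetaC p ^ t.val) (DFunLike.congr_fun hmm f)
      | zero => rfl
      | add x y _ _ hx hy => simp [hx, hy]
      | smul c x _ hx => simp [hx]
    by_contra hne
    simpa [Ne.symm hne] using h (fun x => if x = m then 1 else 0)
  have hbij := Function.Injective.bijective_of_nat_card_le hinj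
    (by rw [natCard_addHom_zmod (p := p) (M →+ ZMod p), natCard_addHom_zmod (p := p) M])
  obtain ⟨m, hm⟩ := hbij.2 G
  exact ⟨m, fun f => DFunLike.congr_fun hm f⟩

variable (T) in
/-- Points closer than the distance between `p`-th roots of unity are equal. -/
theorem eq_of_norm_sub_le {r : ℝ} (hr : IsSmallRadius p r) {m m' : M}
    (h : ∀ i, ‖T.b i m - T.b i m'‖ ≤ r / ‖(p : C)‖) : m = m' := by
  refine ?_
  have hchar : ∀ f, (char f m : C) = char f m' := fun f => by
    refine eq_of_norm_sub_pow_lt (char_pow f m) (char_pow f m')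
      (lt_of_le_of_lt (pow_le_pow_left₀ (norm_nonneg _) ?_ _) hr.2)
    rw [← T.ev_b m f, ← T.ev_b m' f, ← Pi.sub_apply, ← map_sub]
    exact norm_ev_le hr.div_nonneg h f
  have : (fun i => T.b i m) = fun i => T.b i m' :=
    T.ev_injective (funext fun f => by rw [ev_b, ev_b, hchar])
  classical
  by_contra hne
  have hg : ∀ g : M → C, g m = g m' := fun g => by
    have := T.basis.sum_repr g
    rw [← this]
    simp only [Finset.sum_apply, Pi.smul_apply, basis_apply]
    exact Finset.sum_congr rfl fun i _ => by rw [congrFun ‹(fun i => T.b i m) = _› i]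
  simpa [Ne.symm hne] using hg (fun x => if x = m then 1 else 0)

variable (T) in
/-- Approximate points lift. -/
theorem exists_point {r : ℝ} (hr : IsSmallRadius p r) {y : Fin T.n → C}
    (hy : T.IsApproxPoint r y) : ∃ m, ∀ i, ‖y i - T.b i m‖ ≤ r / ‖(p : C)‖ := by
  classical
  set δ := r / ‖(p : C)‖ with hδ
  have hδ0 : 0 ≤ δ := hr.div_nonneg
  have hy1 : ∀ f, ‖T.ev y f‖ ≤ 1 := fun f => norm_ev_le zero_le_one hy.norm_le f
  choose z hz hzy using fun f => exists_root_near hr (norm_ev_pow_sub_one hr.1 hy f)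
  have hz1 : ∀ f, ‖z f‖ ≤ 1 := fun f => (norm_eq_one_of_root hp.out.ne_zero (hz f)).le
  have hzadd : ∀ f g, z (f + g) = z f * z g := by
    intro f g
    refine eq_of_norm_sub_pow_lt (hz _) (by rw [mul_pow, hz, hz, one_mul])
      (lt_of_le_of_lt (pow_le_pow_left₀ (norm_nonneg _) ?_ _) hr.2)
    refine norm_sub_le_of (y := T.ev y (f + g)) (by rw [norm_sub_rev]; exact hzy _) ?_
    refine norm_sub_le_of (y := T.ev y f * T.ev y g) ((norm_ev_add hr.1 hy f g).trans hr.le_div) ?_
    refine norm_sub_le_of (y := z f * T.ev y g) ?_ ?_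
    · rw [← sub_mul, mul_comm]; exact norm_mul_le_right (hy1 g) (hzy f)
    · rw [← mul_sub]; exact norm_mul_le_right (hz1 f) (hzy g)
  choose G hGlt hG using fun f => (zetaC_spec (p := p)).eq_pow_of_pow_eq_one (hz f)
  let G' : (M →+ ZMod p) →+ ZMod p := AddMonoidHom.mk' (fun f => (G f : ZMod p)) fun f g => by
    refine ZMod.val_injective p (zetaC_spec.pow_inj (ZMod.val_lt _) (ZMod.val_lt _) ?_)
    rw [zetaC_pow_val_add, zetaC_pow_natCast, zetaC_pow_natCast, zetaC_pow_natCast, hG, hG, hG,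
      hzadd]
  obtain ⟨m, hm⟩ := eval_surjective T G'
  have hzm : ∀ f, z f = char f m := fun f => by
    rw [char, hm f]
    exact (hG f).symm.trans (zetaC_pow_natCast (G f)).symm
  refine ⟨m, ?_⟩
  set a := T.conv y (fun i => T.b i (-m)) with ha
  have hev : ∀ f, T.ev a f = T.ev y f * char f (-m) := fun f => by rw [ha, ev_conv, ev_b]
  have hcm : ∀ f, char f m * char f (-m) = (1 : C) := fun f => by
    rw [← char_add, add_neg_cancel, char_zero]
  have hyb : T.InBall 1 (T.ev y) := ⟨y, hy.norm_le, rfl⟩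
  have hcb : ∀ m' : M, T.InBall 1 (fun f => char f m') := fun m' =>
    ⟨fun i => T.b i m', fun i => T.norm_le i m', funext fun f => T.ev_b m' f⟩
  have hhval : ∀ f, ‖T.ev a f - 1‖ ≤ δ := fun f => by
    rw [hev, ← hcm f, ← sub_mul, mul_comm, ← hzm]
    exact norm_mul_le_right (norm_eq_one_of_root hp.out.ne_zero (char_pow f _)).le (hzy f)
  have hhpow : T.InBall r ((1 + (T.ev a - 1)) ^ p - 1) := by
    refine ⟨fun i => T.cpow y p i - T.b i 0, fun i => norm_cpow_sub_le hr.1 hy i, funext fun f => ?_⟩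
    rw [show (fun i => T.cpow y p i - T.b i 0) = T.cpow y p - fun i => T.b i 0 from rfl, map_sub,
      Pi.sub_apply, ev_cpow, ev_b, char_zero]
    simp [hev, mul_pow, char_pow]
  have hb1 : T.InBall 1 (T.ev a - 1) := by
    rw [sub_eq_add_neg]
    refine InBall.add ?_ InBall.one.neg
    rw [show T.ev a = T.ev y * fun f => char f (-m) from funext hev]
    exact InBall.mul_one_left zero_le_one hyb (hcb _)
  obtain ⟨η, hη, hηe⟩ := inBall_of_pow hr hb1 (fun f => hhval f) hhpow
  have hy' : y = (fun i => T.b i m) + T.conv η (fun i => T.b i m) := by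
    refine T.ev_injective (funext fun f => ?_)
    rw [map_add, Pi.add_apply, ev_b, ev_conv, ev_b, congrFun hηe f, Pi.sub_apply, Pi.one_apply,
      hev]
    linear_combination (T.ev y f) * (hcm f).symm
  intro i
  rw [congrFun hy' i, Pi.add_apply, add_sub_cancel_left]
  refine IsUltrametricDist.norm_sum_le_of_forall_le_of_nonneg hδ0 fun j _ => ?_
  refine IsUltrametricDist.norm_sum_le_of_forall_le_of_nonneg hδ0 fun l _ => ?_
  refine norm_mul_le_right (norm_cst_le _) ?_
  rw [mul_comm]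
  exact norm_mul_le_right (T.norm_le l m) (hη j)

end Model

end Fermat.Agent.FlatLocal
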