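import Fermat.Agent.FlatLocal.Criterion
import Fermat.Agent.FlatLocal.Lifting

/-!
# The field of points of a model has the point property
-/

set_option autoImplicit false
set_option maxHeartbeats 1000000

noncomputable section

open Finset

namespace Fermat.Agent.FlatLocal

variable {p : ℕ} [hp : Fact p.Prime] {e : ℕ}

local notation "C" => PadicAlgCl p

/-- An element fixed by the local Galois group is a constant. -/
theorem exists_cst_eq {x : C} (hx : ‖x‖ ≤ 1) (h : ∀ σ : Gp p, σ x = x) : ∃ c : ℤ_[p], cst c = x := by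
  have : IsGalois ℚ_[p] C := inferInstance
  obtain ⟨a, rfl⟩ := (InfiniteGalois.mem_range_algebraMap_iff_fixed x).2 h
  rw [norm_algebraMap'] at hx
  exact ⟨⟨a, hx⟩, rfl⟩

theorem cst_mem_field (F : IntermediateField ℚ_[p] C) (c : ℤ_[p]) : cst c ∈ F := F.algebraMap_mem _

namespace IsApproxHom

variable {F : IntermediateField ℚ_[p] (PadicAlgCl p)} {r : ℝ} {φ : PadicAlgCl p → PadicAlgCl p}

theorem map_zero' (hr : 0 ≤ r) (hφ : IsApproxHom F r φ) : ‖φ 0‖ ≤ r := by
  have := hφ.map_add 0 F.zero_mem 0 F.zero_mem (by simp) (by simp)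
  rwa [add_zero, show φ 0 - (φ 0 + φ 0) = -φ 0 by ring, norm_neg] at this

theorem map_cst_mul (hφ : IsApproxHom F r φ) {x : C} (hx : x ∈ F) (hx1 : ‖x‖ ≤ 1) (c : ℤ_[p]) :
    ‖φ (cst c * x) - cst c * φ x‖ ≤ r := by
  refine norm_sub_le_of (hφ.map_mul _ (cst_mem_field F c) _ hx (norm_cst_le c) hx1) ?_
  rw [← sub_mul, mul_comm]
  exact norm_mul_le_right (hφ.norm_le x hx hx1) (hφ.map_cst c)

theorem map_sum_mem {ι : Type} (hr : 0 ≤ r) (hφ : IsApproxHom F r φ) (s : Finset ι) (x : ι → C)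
    (hx : ∀ i, x i ∈ F) (hx1 : ∀ i, ‖x i‖ ≤ 1) :
    ‖φ (∑ i ∈ s, x i) - ∑ i ∈ s, φ (x i)‖ ≤ r := by
  classical
  induction s using Finset.induction_on with
  | empty => simpa using hφ.map_zero' hr
  | insert a s ha ih =>
    rw [Finset.sum_insert ha, Finset.sum_insert ha]
    refine norm_sub_le_of (hφ.map_add _ (hx a) _ (sum_mem fun i _ => hx i) (hx1 a)
      (IsUltrametricDist.norm_sum_le_of_forall_le_of_nonneg zero_le_one fun i _ => hx1 i)) ?_
    rwa [add_sub_add_left_eq_sub]

theorem map_comb {ι : Type} (hr : 0 ≤ r) (hφ : IsApproxHom F r φ) (s : Finset ι) (c : ι → ℤ_[p])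
    (x : ι → C) (hx : ∀ i, x i ∈ F) (hx1 : ∀ i, ‖x i‖ ≤ 1) :
    ‖φ (∑ i ∈ s, cst (c i) * x i) - ∑ i ∈ s, cst (c i) * φ (x i)‖ ≤ r := by
  refine norm_sub_le_of (hφ.map_sum_mem hr s _ (fun i => F.mul_mem (cst_mem_field F _) (hx i))
    (fun i => norm_mul_le_right (norm_cst_le _) (hx1 i))) ?_
  rw [← Finset.sum_sub_distrib]
  exact IsUltrametricDist.norm_sum_le_of_forall_le_of_nonneg hr fun i _ =>
    hφ.map_cst_mul (hx i) (hx1 i) (c i)

theorem map_pow' (hr : 0 ≤ r) (hφ : IsApproxHom F r φ) {x : C} (hx : x ∈ F) (hx1 : ‖x‖ ≤ 1)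
    (n : ℕ) : ‖φ (x ^ n) - φ x ^ n‖ ≤ r := by
  induction n with
  | zero => simpa [cst] using hφ.map_cst 1
  | succ n ih =>
    rw [pow_succ, pow_succ]
    refine norm_sub_le_of (hφ.map_mul _ (pow_mem hx n) _ hx
      (by rw [norm_pow]; exact pow_le_one₀ (norm_nonneg _) hx1) hx1) ?_
    rw [← sub_mul, mul_comm]
    exact norm_mul_le_right (hφ.norm_le x hx hx1) ih

end IsApproxHom

namespace Model

variable {M : Type} [AddCommGroup M] [DistribMulAction (Gp p) M] [Finite M]

/-- Approximate homomorphisms on a field containing the values of the model can only be fixed by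
automorphisms fixing all the points. -/
theorem smul_eq_of_fixed (T : Model p M) {F : IntermediateField ℚ_[p] C}
    (hval : ∀ i m, T.b i m ∈ F) {r : ℝ} {φ : C → C} (hr : IsSmallRadius p r)
    (hφ : IsApproxHom F r φ) {σ : Gp p} (hσ : ∀ x ∈ F, ‖x‖ ≤ 1 → ‖σ (φ x) - φ x‖ ≤ r) (m : M) :
    σ • m = m := by
  classical
  set δ := r / ‖(p : C)‖ with hδ
  have hrδ : r ≤ δ := hr.le_div
  have happ : ∀ m, T.IsApproxPoint r (fun i => φ (T.b i m)) := fun m => by
    refine ⟨fun i => hφ.norm_le _ (hval i m) (T.norm_le i m), ?_, fun i j => ?_⟩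
    · refine norm_sub_le_of (y := φ (∑ i, cst (T.oneCoeff i) * T.b i m)) ?_ ?_
      · rw [norm_sub_rev]
        exact hφ.map_comb hr.1 _ _ _ (fun i => hval i m) fun i => T.norm_le i m
      · rw [T.one_eq]
        simpa [cst] using hφ.map_cst 1
    · refine norm_sub_le_of (y := φ (T.b i m * T.b j m)) ?_ ?_
      · rw [norm_sub_rev]
        exact hφ.map_mul _ (hval i m) _ (hval j m) (T.norm_le i m) (T.norm_le j m)
      · rw [T.mul_eq]
        exact hφ.map_comb hr.1 _ _ _ (fun l => hval l m) fun l => T.norm_le l m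
  choose z hz using fun m => T.exists_point hr (happ m)
  have hzadd : ∀ x y, z (x + y) = z x + z y := by
    intro x y
    refine T.eq_of_norm_sub_le hr fun i => ?_
    refine norm_sub_le_of (y := φ (T.b i (x + y))) (by rw [norm_sub_rev]; exact hz _ i) ?_
    rw [T.add_eq i x y, T.add_eq i (z x) (z y)]
    refine norm_sub_le_of (y := ∑ j, ∑ l, cst (T.addCoeff i j l) * φ (T.b j x * T.b l y))
      (le_trans ?_ hrδ) ?_
    · rw [← Finset.sum_product', ← Finset.sum_product']
      exact hφ.map_comb hr.1 (Finset.univ ×ˢ Finset.univ) (fun jl => T.addCoeff i jl.1 jl.2)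
        (fun jl => T.b jl.1 x * T.b jl.2 y) (fun jl => F.mul_mem (hval _ _) (hval _ _))
        fun jl => norm_mul_le_right (T.norm_le _ _) (T.norm_le _ _)
    · rw [← Finset.sum_sub_distrib]
      refine IsUltrametricDist.norm_sum_le_of_forall_le_of_nonneg hr.div_nonneg fun j _ => ?_
      rw [← Finset.sum_sub_distrib]
      refine IsUltrametricDist.norm_sum_le_of_forall_le_of_nonneg hr.div_nonneg fun l _ => ?_
      rw [← mul_sub]
      refine norm_mul_le_right (norm_cst_le _) ?_
      refine norm_sub_le_of (y := φ (T.b j x) * φ (T.b l y))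
        ((hφ.map_mul _ (hval j x) _ (hval l y) (T.norm_le j x) (T.norm_le l y)).trans hrδ) ?_
      refine norm_sub_le_of (y := T.b j (z x) * φ (T.b l y)) ?_ ?_
      · rw [← sub_mul, mul_comm]
        exact norm_mul_le_right (hφ.norm_le _ (hval l y) (T.norm_le l y)) (hz x j)
      · rw [← mul_sub]
        exact norm_mul_le_right (T.norm_le j (z x)) (hz y l)
  let Z : M →+ M := AddMonoidHom.mk' z hzadd
  have hinj : Function.Injective Z := by
    rw [injective_iff_map_eq_zero]
    intro d hd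
    by_contra hd0
    have hp1 : p - 1 ≠ 0 := by have := hp.out.two_le; omega
    have hpn := norm_p_pos (p := p)
    obtain ⟨i, hi⟩ : ∃ i, ‖(p : C)‖ ≤ ‖T.b i d - T.b i 0‖ ^ (p - 1) := by
      by_contra! hall
      rcases isEmpty_or_nonempty (Fin T.n) with hemp | hne
      · exact hd0 (T.eq_of_norm_sub_le hr fun i => hemp.elim i)
      obtain ⟨j, -, hj⟩ := Finset.exists_max_image (Finset.univ : Finset (Fin T.n))
        (fun i => ‖T.b i d - T.b i 0‖) Finset.univ_nonempty
      have hr' : IsSmallRadius p (‖T.b j d - T.b j 0‖ * ‖(p : C)‖) := by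
        refine ⟨mul_nonneg (norm_nonneg _) hpn.le, ?_⟩
        rw [mul_div_cancel_right₀ _ hpn.ne']
        exact hall j
      exact hd0 (T.eq_of_norm_sub_le hr' fun i => by
        rw [mul_div_cancel_right₀ _ hpn.ne']
        exact hj i (Finset.mem_univ i))
    set x := T.b i d - T.b i 0 with hx
    have hx0 : x ≠ 0 := by
      intro h0
      rw [h0, norm_zero, zero_pow hp1] at hi
      exact absurd hi (not_le.mpr hpn)
    have hxF : x ∈ F := F.sub_mem (hval i d) (hval i 0)
    have hx1 : ‖x‖ ≤ 1 := by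
      rw [hx, sub_eq_add_neg]
      exact (IsUltrametricDist.norm_add_le_max _ _).trans
        (max_le (T.norm_le i d) (by rw [norm_neg]; exact T.norm_le i 0))
    obtain ⟨c, hc⟩ := exists_cst_eq (T.norm_le i 0) fun τ => by rw [← T.equivariant, smul_zero]
    have hφx : ‖φ x‖ ≤ δ := by
      have h1 : ‖φ (T.b i d) - T.b i 0‖ ≤ δ := by simpa [Z, hd] using (show ‖φ (T.b i d) -
        T.b i (Z d)‖ ≤ δ from hz d i)
      have h2 := hφ.map_add x hxF (T.b i 0) (hval i 0) hx1 (T.norm_le i 0)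
      rw [hx, sub_add_cancel, ← hx] at h2
      have h3 : ‖φ (T.b i 0) - T.b i 0‖ ≤ r := by rw [← hc]; exact hφ.map_cst c
      rw [show φ x = (φ (T.b i d) - T.b i 0) - (φ (T.b i d) - (φ x + φ (T.b i 0))) -
        (φ (T.b i 0) - T.b i 0) by ring, sub_eq_add_neg, sub_eq_add_neg (φ (T.b i d) - T.b i 0)]
      refine (IsUltrametricDist.norm_add_le_max _ _).trans (max_le
        ((IsUltrametricDist.norm_add_le_max _ _).trans (max_le h1 ?_)) ?_)
      · rw [norm_neg]; exact h2.trans hrδ
      · rw [norm_neg]; exact h3.trans hrδ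
    set w := (p : C) / x ^ (p - 1) with hw
    have hwF : w ∈ F := F.div_mem (natCast_mem F p) (pow_mem hxF _)
    have hw1 : ‖w‖ ≤ 1 := by
      rw [hw, norm_div, norm_pow, div_le_one (pow_pos (norm_pos_iff.mpr hx0) _)]
      exact hi
    have hxw : x ^ (p - 1) * w = (p : C) := by
      rw [hw, mul_div_cancel₀ _ (pow_ne_zero _ hx0)]
    have hpc : (cst (p : ℤ_[p]) : C) = (p : C) := by simp [cst]
    have h4 : ‖φ x ^ (p - 1) * φ w - (p : C)‖ ≤ r := by
      refine norm_sub_le_of (y := φ (x ^ (p - 1) * w)) ?_ (by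
        rw [hxw, ← hpc]; exact hφ.map_cst _)
      refine norm_sub_le_of (y := φ (x ^ (p - 1)) * φ w) ?_ ?_
      · rw [← sub_mul, mul_comm]
        exact norm_mul_le_right (hφ.norm_le w hwF hw1)
          (by rw [norm_sub_rev]; exact hφ.map_pow' hr.1 hxF hx1 _)
      · rw [norm_sub_rev]
        exact hφ.map_mul _ (pow_mem hxF _) _ hwF
          (by rw [norm_pow]; exact pow_le_one₀ (norm_nonneg _) hx1) hw1
    have h5 : ‖φ x ^ (p - 1) * φ w‖ < ‖(p : C)‖ := by
      rw [norm_mul, norm_pow]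
      exact lt_of_le_of_lt ((mul_le_of_le_one_right (pow_nonneg (norm_nonneg _) _)
        (hφ.norm_le w hwF hw1)).trans (pow_le_pow_left₀ (norm_nonneg _) hφx _)) hr.2
    have h6 : r < ‖(p : C)‖ := by
      have := mul_lt_mul_of_pos_right hr.div_lt_one hpn
      rwa [div_mul_cancel₀ _ hpn.ne', one_mul] at this
    rw [← neg_sub, norm_neg] at h4
    have h7 := IsUltrametricDist.norm_add_le_max ((p : C) - φ x ^ (p - 1) * φ w)
      (φ x ^ (p - 1) * φ w)
    rw [sub_add_cancel] at h7
    exact absurd h7 (not_le.mpr (max_lt (h4.trans_lt h6) h5))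
  obtain ⟨m', rfl⟩ := (Finite.injective_iff_surjective.mp hinj) m
  show σ • z m' = z m'
  refine T.eq_of_norm_sub_le hr fun i => ?_
  rw [T.equivariant]
  refine norm_sub_le_of (y := σ (φ (T.b i m'))) ?_ (norm_sub_le_of (y := φ (T.b i m'))
    ((hσ _ (hval i m') (T.norm_le i m')).trans hrδ) (hz m' i))
  rw [← map_sub, norm_algEquiv, norm_sub_rev]
  exact hz m' i

end Model

/-- The field generated by the points of a model has the point property. -/
theorem hasPointProperty_of_model {M : Type} [AddCommGroup M] [DistribMulAction (Gp p) M]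
    [Finite M] (T : Model p M) (D : TameField p e) (hval : ∀ i m, T.b i m ∈ D.F)
    (hgen : ∀ σ : Gp p, D.FixK σ → (∀ m : M, σ • m = m) → ∀ x ∈ D.F, σ x = x) :
    HasPointProperty D := fun _ _ hr hφ σ hK hσ =>
  hgen σ hK fun m => T.smul_eq_of_fixed hval hr hφ hσ m

end Fermat.Agent.FlatLocal
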