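import Fermat.Agent.FlatLocal.Defs
import Fermat.Agent.FiniteFlat.Closure
import Fermat.Agent.Igusa.LocalRat
import Fermat.Prelude.Def_GaloisRep_CompletionBridge

/-!
# Local models from models by functions

* `HasLocalModel p M`: `M` has a model by functions over `ℤ_p` with values in `C`; it passes to
  stable subgroups, quotients and products (`FiniteFlat.HasFunctionModel`).
* `hasLocalModel_of_hasFunctionModel`: localisation of models over `ℤ_(p)`.
* `HasLocalModel.exists_model`: the basis form `Model p M`.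
-/

set_option autoImplicit false

noncomputable section

open Module (Basis)
open scoped TensorProduct

namespace Fermat.Agent.FlatLocal

variable {p : ℕ} [hp : Fact p.Prime]

local notation "C" => PadicAlgCl p
local notation "ℚ̄" => AlgebraicClosure ℚ
local notation "Γℚ" => (AlgebraicClosure ℚ ≃ₐ[ℚ] AlgebraicClosure ℚ)

local instance : IsGalois ℚ ℚ̄ :=
  have : IsAlgClosure ℚ ℚ̄ := AlgebraicClosure.instIsAlgClosure ℚ
  IsAlgClosure.isGalois ℚ ℚ̄

theorem norm_ratCast_le_one (r : GaloisRep.ratLocalizedAt p) : ‖((r : ℚ) : ℚ_[p])‖ ≤ 1 :=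
  Padic.norm_rat_le_one fun h => by
    have h1 := Nat.Coprime.coprime_dvd_left h (r.2 : (r : ℚ).den.Coprime p)
    rw [Nat.coprime_self] at h1
    exact hp.out.one_lt.ne' h1

/-- An element of `ℤ_(p)` as a `p`-adic integer. -/
def ratLocalToInt (r : GaloisRep.ratLocalizedAt p) : ℤ_[p] := ⟨_, norm_ratCast_le_one r⟩

theorem cst_ratLocalToInt (r : GaloisRep.ratLocalizedAt p) :
    cst (ratLocalToInt r) = padicEmbedding p (algebraMap (GaloisRep.ratLocalizedAt p) ℚ̄ r) := by
  show algebraMap ℚ_[p] C ((r : ℚ) : ℚ_[p]) =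
    padicEmbedding p (algebraMap (GaloisRep.ratLocalizedAt p) ℚ̄ r)
  rw [map_ratCast, IsScalarTower.algebraMap_apply (GaloisRep.ratLocalizedAt p) ℚ ℚ̄,
    AlgHom.commutes, eq_ratCast]
  rfl

theorem norm_padicEmbedding_le_one {x : ℚ̄} (hx : IsIntegral (GaloisRep.ratLocalizedAt p) x) :
    ‖padicEmbedding p x‖ ≤ 1 := by
  let φ : GaloisRep.ratLocalizedAt p →+* padicPlace p :=
    (algebraMap (GaloisRep.ratLocalizedAt p) ℚ̄).codRestrict (padicPlace p).toSubring fun r => by
      show algebraMap _ ℚ̄ r ∈ padicPlace p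
      rw [mem_padicPlace_iff, ← cst_ratLocalToInt, ← NNReal.coe_le_coe, coe_nnnorm, cst,
        norm_algebraMap']
      exact norm_ratCast_le_one r
  obtain ⟨f, hf, hf0⟩ := hx
  have hint : IsIntegral (padicPlace p) x :=
    ⟨f.map φ, hf.map φ, by rw [Polynomial.eval₂_map]; exact hf0⟩
  obtain ⟨y, rfl⟩ := IsIntegrallyClosed.isIntegral_iff.1 hint
  have := (mem_padicPlace_iff p).1 y.2
  rwa [← NNReal.coe_le_coe, coe_nnnorm] at this

variable (p) in
/-- `M` has a model by functions over `ℤ_p`. -/
abbrev HasLocalModel (M : Type) [AddCommGroup M] [DistribMulAction (Gp p) M] : Prop :=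
  FiniteFlat.HasFunctionModel ℤ_[p] ℚ_[p] (PadicAlgCl p) M

theorem cst_eq_algebraMap (c : ℤ_[p]) : (cst c : C) = algebraMap ℤ_[p] C c :=
  (IsScalarTower.algebraMap_apply ℤ_[p] ℚ_[p] C c).symm

theorem algebraMap_padicInt_injective : Function.Injective (algebraMap ℤ_[p] C) := by
  rw [IsScalarTower.algebraMap_eq ℤ_[p] ℚ_[p] C]
  exact (algebraMap ℚ_[p] C).injective.comp (IsFractionRing.injective _ _)

theorem norm_le_one_of_isIntegral_padicInt {x : C} (hx : IsIntegral ℤ_[p] x) : ‖x‖ ≤ 1 := by
  let φ : ℤ_[p] →+* padicIntegers p :=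
    (algebraMap ℤ_[p] C).codRestrict (padicIntegers p).toSubring fun c => by
      show algebraMap _ C c ∈ padicIntegers p
      rw [mem_padicIntegers_iff, ← cst_eq_algebraMap, ← NNReal.coe_le_coe, coe_nnnorm, cst,
        norm_algebraMap']
      exact c.norm_le_one
  obtain ⟨f, hf, hf0⟩ := hx
  have hint : IsIntegral (padicIntegers p) x :=
    ⟨f.map φ, hf.map φ, by rw [Polynomial.eval₂_map]; exact hf0⟩
  obtain ⟨y, rfl⟩ := IsIntegrallyClosed.isIntegral_iff.1 hint
  have := (mem_padicIntegers_iff p).1 y.2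
  rwa [← NNReal.coe_le_coe, coe_nnnorm] at this

/-- A module with a model by functions over `ℤ_(p)` has a local model. -/
theorem hasLocalModel_of_hasFunctionModel {M : Type} [AddCommGroup M]
    [DistribMulAction Γℚ M] [DistribMulAction (Gp p) M]
    (hloc : ∀ (σ : Gp p) (m : M), σ • m = localGaloisToGlobal p σ • m)
    (h : FiniteFlat.HasFunctionModel (GaloisRep.ratLocalizedAt p) ℚ ℚ̄ M) :
    HasLocalModel p M := by
  classical
  obtain ⟨H, hfin, hequiv, hsep, hadd, hneg⟩ := h
  let push : (M → ℚ̄) → (M → C) := fun f m => padicEmbedding p (f m)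
  have hint : ∀ f ∈ H, IsIntegral ℤ_[p] (push f) := by
    intro f hf
    have h1 : IsIntegral (GaloisRep.ratLocalizedAt p) f :=
      (Algebra.IsIntegral.isIntegral (⟨f, hf⟩ : H)).map H.val
    obtain ⟨P, hP, hP0⟩ := h1
    let ψ : GaloisRep.ratLocalizedAt p →+* ℤ_[p] :=
      { toFun := ratLocalToInt
        map_one' := Subtype.ext (by simp [ratLocalToInt])
        map_mul' := fun x y => Subtype.ext ((congrArg _ (Subring.coe_mul _ x y)).trans (Rat.cast_mul _ _))
        map_zero' := Subtype.ext (by simp [ratLocalToInt])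
        map_add' := fun x y => Subtype.ext ((congrArg _ (Subring.coe_add _ x y)).trans (Rat.cast_add _ _)) }
    let Φ : (M → ℚ̄) →+* (M → C) := (padicEmbedding p).toRingHom.compLeft M
    refine ⟨P.map ψ, hP.map ψ, ?_⟩
    rw [Polynomial.eval₂_map, show push f = Φ f from rfl,
      show (algebraMap ℤ_[p] (M → C)).comp ψ = Φ.comp (algebraMap _ (M → ℚ̄)) from
        RingHom.ext fun r => funext fun m => ?_,
      ← Polynomial.hom_eval₂, hP0, map_zero]
    show algebraMap ℤ_[p] C (ψ r) = padicEmbedding p (algebraMap _ ℚ̄ r)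
    rw [← cst_eq_algebraMap, ← cst_ratLocalToInt]
    rfl
  obtain ⟨s, hs⟩ := hfin.fg_top
  let S : Set (M → C) := (fun f : H => push f) '' (s : Set H)
  have hmemS : ∀ f ∈ H, push f ∈ Algebra.adjoin ℤ_[p] S := by
    intro f hf
    have hmem : (⟨f, hf⟩ : H) ∈ Submodule.span (GaloisRep.ratLocalizedAt p) (s : Set H) :=
      hs ▸ Submodule.mem_top
    suffices hgen : ∀ g : H, g ∈ Submodule.span (GaloisRep.ratLocalizedAt p) (s : Set H) →
        push g ∈ Algebra.adjoin ℤ_[p] S from hgen _ hmem
    intro g hg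
    induction hg using Submodule.span_induction with
    | mem x hx => exact Algebra.subset_adjoin ⟨x, hx, rfl⟩
    | zero =>
      rw [show push ((0 : H) : M → ℚ̄) = 0 from funext fun m => by simp [push]]
      exact zero_mem _
    | add x y _ _ hx hy =>
      rw [show push ((x + y : H) : M → ℚ̄) = push x + push y from funext fun m => by simp [push]]
      exact add_mem hx hy
    | smul r x _ hx =>
      rw [show push ((r • x : H) : M → ℚ̄) = ratLocalToInt r • push x from funext fun m => by
        show padicEmbedding p (r • (x : M → ℚ̄) m) = ratLocalToInt r • padicEmbedding p ((x : M → ℚ̄) m)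
        rw [Algebra.smul_def, Algebra.smul_def, map_mul, ← cst_eq_algebraMap, cst_ratLocalToInt]]
      exact Subalgebra.smul_mem _ hx _
  refine ⟨Algebra.adjoin ℤ_[p] S, ?_, ?_, ?_, ?_, ?_⟩
  · show Module.Finite ℤ_[p] ↥(Algebra.adjoin ℤ_[p] S).toSubmodule
    refine Module.Finite.iff_fg.2 ?_
    exact fg_adjoin_of_finite (s.finite_toSet.image _) (by
      rintro _ ⟨g, -, rfl⟩
      exact hint _ g.2)
  · intro f hf σ m
    induction hf using Algebra.adjoin_induction with
    | mem x hx =>
      obtain ⟨g, -, rfl⟩ := hx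
      show padicEmbedding p _ = σ (padicEmbedding p _)
      rw [hloc, hequiv _ g.2]
      exact padicEmbedding_localGaloisToGlobal p σ _
    | algebraMap r =>
      show algebraMap ℤ_[p] C r = σ (algebraMap ℤ_[p] C r)
      rw [IsScalarTower.algebraMap_apply ℤ_[p] ℚ_[p] C, AlgEquiv.commutes]
    | add x y _ _ hx hy => simp [hx, hy]
    | mul x y _ _ hx hy => simp [hx, hy]
  · intro m m' hne
    obtain ⟨f, hf, hfne⟩ := hsep m m' hne
    exact ⟨push f, hmemS f hf, fun h => hfne ((padicEmbedding p).injective h)⟩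
  · intro f hf
    let P : Subalgebra ℤ_[p] (M × M → C) :=
      (Algebra.adjoin ℤ_[p] S).map (FiniteFlat.funPullback ℤ_[p] Prod.fst) ⊔
        (Algebra.adjoin ℤ_[p] S).map (FiniteFlat.funPullback ℤ_[p] Prod.snd)
    suffices hle : Algebra.adjoin ℤ_[p] S ≤
        P.comap (FiniteFlat.funPullback ℤ_[p] fun q : M × M => q.1 + q.2) from hle hf
    refine Algebra.adjoin_le ?_
    rintro _ ⟨g, -, rfl⟩
    have h1 := hadd _ g.2
    rw [← FiniteFlat.range_tensorEval_eq_sup] at h1
    obtain ⟨z, hz⟩ := h1
    change FiniteFlat.funPullback ℤ_[p] (fun q : M × M => q.1 + q.2) (push g) ∈ P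
    have h2 : FiniteFlat.funPullback ℤ_[p] (fun q : M × M => q.1 + q.2) (push g) =
        fun q => padicEmbedding p (FiniteFlat.tensorEval H.val H.val z q) := funext fun q =>
      congrArg (padicEmbedding p) (congrFun hz q).symm
    rw [h2]
    clear hz h2
    induction z using TensorProduct.induction_on with
    | zero => convert zero_mem P using 1; funext q; simp
    | tmul u v =>
      convert mul_mem
        ((le_sup_left : _ ≤ P) ⟨push u, hmemS _ u.2, rfl⟩)
        ((le_sup_right : _ ≤ P) ⟨push v, hmemS _ v.2, rfl⟩) using 1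
      funext q
      simp [push]
    | add u v hu hv => convert add_mem hu hv using 1; funext q; simp
  · intro f hf
    suffices hle : Algebra.adjoin ℤ_[p] S ≤ (Algebra.adjoin ℤ_[p] S).comap
        (FiniteFlat.funPullback ℤ_[p] fun m : M => -m) from hle hf
    refine Algebra.adjoin_le ?_
    rintro _ ⟨g, -, rfl⟩
    exact hmemS _ (hneg _ g.2)

/-- A model in basis form with functions in a given algebra of functions. -/
theorem exists_model_mem {M : Type} [AddCommGroup M] [Finite M]
    [DistribMulAction (Gp p) M] (hexp : ∀ m : M, p • m = 0)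
    {H : Subalgebra ℤ_[p] (M → PadicAlgCl p)}
    (h : FiniteFlat.IsFunctionModel ℚ_[p] H) :
    ∃ T : Model p M, ∀ i, T.b i ∈ H := by
  classical
  obtain ⟨hfin, hequiv, hsep, hadd, -⟩ := h
  have := hfin
  have := Fintype.ofFinite M
  have : Module.IsTorsionFree ℤ_[p] C :=
    Module.isTorsionFree_iff_algebraMap_injective.2 algebraMap_padicInt_injective
  have : Module.IsTorsionFree ℤ_[p] H :=
    Function.Injective.moduleIsTorsionFree (Subtype.val : H → (M → C)) Subtype.val_injective
      fun _ _ => rfl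
  have : Module.Free ℤ_[p] H := Module.free_of_finite_type_torsion_free'
  let b := Module.finBasis ℤ_[p] H
  have hindk : LinearIndependent ℚ_[p] fun i => (b i : M → C) :=
    (LinearIndependent.iff_fractionRing ℤ_[p] ℚ_[p]).1
      (b.linearIndependent.map' H.val.toLinearMap (LinearMap.ker_eq_bot.2 Subtype.val_injective))
  have hind : LinearIndependent C fun i => (b i : M → C) :=
    FiniteFlat.linearIndependent_of_equivariant (k := ℚ_[p]) hindk fun i σ m =>
      hequiv _ (b i).2 σ m
  have hexpand : ∀ (f : H) (m : M), ∑ i, cst (b.repr f i) * (b i : M → C) m = (f : M → C) m := by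
    intro f m
    conv_rhs => rw [← b.sum_repr f]
    simp [cst_eq_algebraMap, Algebra.smul_def]
  have hadd' : ∀ i, ∃ z : H ⊗[ℤ_[p]] H, ∀ x y,
      FiniteFlat.tensorEval H.val H.val z (x, y) = (b i : M → C) (x + y) := fun i => by
    have h1 := hadd _ (b i).2
    rw [← FiniteFlat.range_tensorEval_eq_sup] at h1
    obtain ⟨z, hz⟩ := h1
    exact ⟨z, fun x y => congrFun hz (x, y)⟩
  choose z hz using hadd'
  refine ⟨{
    n := _
    b := fun i m => (b i : M → C) m
    norm_le := fun i m => norm_le_one_of_isIntegral_padicInt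
      ((Algebra.IsIntegral.isIntegral (b i)).map
        ((Pi.evalAlgHom ℤ_[p] (fun _ : M => C) m).comp H.val))
    equivariant := fun i σ m => hequiv _ (b i).2 σ m
    linearIndependent := hind
    span_eq_top := FiniteFlat.span_eq_top b hsep
    oneCoeff := fun i => b.repr 1 i
    one_eq := fun m => hexpand 1 m
    mulCoeff := fun i j l => b.repr (b i * b j) l
    mul_eq := fun i j m => (hexpand (b i * b j) m).symm
    addCoeff := fun i j l => (b.tensorProduct b).repr (z i) (j, l)
    add_eq := fun i x y => by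
      rw [← hz i x y]
      conv_lhs => rw [← (b.tensorProduct b).sum_repr (z i)]
      simp only [map_sum, Finset.sum_apply, Fintype.sum_prod_type, map_smul,
        Basis.tensorProduct_apply]
      refine Finset.sum_congr rfl fun j _ => Finset.sum_congr rfl fun l _ => ?_
      rw [cst_eq_algebraMap, Pi.smul_apply, Algebra.smul_def, FiniteFlat.tensorEval_tmul]
      rfl
    exponent := hexp }, fun i => (b i).2⟩

/-- A finite module killed by `p` with a local model has a model in basis form. -/
theorem HasLocalModel.exists_model {M : Type} [AddCommGroup M] [Finite M]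
    [DistribMulAction (Gp p) M] (hexp : ∀ m : M, p • m = 0) (h : HasLocalModel p M) :
    Nonempty (Model p M) :=
  let ⟨_, hH⟩ := h
  let ⟨T, _⟩ := exists_model_mem hexp hH
  ⟨T⟩

/-- A finite module killed by `p` with a model by functions over `ℤ_(p)` has a local model. -/
theorem exists_model_of_hasFunctionModel {M : Type} [AddCommGroup M] [Finite M]
    [DistribMulAction Γℚ M] [DistribMulAction (Gp p) M]
    (hloc : ∀ (σ : Gp p) (m : M), σ • m = localGaloisToGlobal p σ • m)
    (hexp : ∀ m : M, p • m = 0)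
    (h : FiniteFlat.HasFunctionModel (GaloisRep.ratLocalizedAt p) ℚ ℚ̄ M) :
    Nonempty (Model p M) :=
  (hasLocalModel_of_hasFunctionModel hloc h).exists_model hexp

end Fermat.Agent.FlatLocal
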