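import Fermat.Agent.FlatLocal.LocalBound
import Fermat.Agent.RT.LocalAtP.TangentBound

/-!
# Cyclotomic cocycles of local models

A cyclotomic cocycle on the local Galois group which is trivial where finitely many modules with
local models are trivial is, on `Gal(C/K)`, an allowed eigen homomorphism: two of them are
dependent modulo coboundaries.
-/

set_option autoImplicit false

noncomputable section

namespace Fermat.Agent.FlatLocal

open Engine

variable {p : ℕ} [hp : Fact p.Prime] {k : Type} [Field k] [CharP k p]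

local notation "C" => PadicAlgCl p

/-- A cocycle for the character `χ`. -/
def IsChiCocycle (χ c : Gp p → k) : Prop := ∀ σ τ, c (σ * τ) = c σ + χ σ * c τ

omit [CharP k p] in
theorem exists_primitiveRoot_padic : ∃ r : ℚ_[p], IsPrimitiveRoot r (p - 1) := by
  obtain ⟨g, hg⟩ := IsCyclic.exists_generator (α := (ZMod p)ˣ)
  have hord : orderOf g = p - 1 := by
    rw [orderOf_eq_card_of_forall_mem_zpowers hg, Nat.card_eq_fintype_card, ZMod.card_units]
  obtain ⟨a, ha⟩ := ZMod.ringHom_surjective (PadicInt.toZMod (p := p)) (g : ZMod p)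
  have he : ¬ p ∣ p - 1 := fun h => absurd (Nat.le_of_dvd (Nat.sub_pos_of_lt hp.out.one_lt) h)
    (not_le.2 (Nat.sub_lt hp.out.pos one_pos))
  have hmem : ∀ x : ℤ_[p], x ∈ IsLocalRing.maximalIdeal ℤ_[p] ↔ PadicInt.toZMod x = 0 := fun x => by
    rw [← PadicInt.ker_toZMod, RingHom.mem_ker]
  obtain ⟨r, hr, hra⟩ := HenselianRing.is_henselian (I := IsLocalRing.maximalIdeal ℤ_[p])
    (Polynomial.X ^ (p - 1) - Polynomial.C 1)
    (Polynomial.monic_X_pow_sub_C 1 (Nat.sub_pos_of_lt hp.out.one_lt).ne') a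
    (by
      rw [hmem]
      simp [ha, ZMod.pow_card_sub_one_eq_one g.ne_zero])
    (by
      refine IsUnit.map _ ?_
      rw [← not_not (a := IsUnit _), ← mem_nonunits_iff, ← IsLocalRing.mem_maximalIdeal, hmem]
      simp [Polynomial.derivative_X_pow, ha, g.ne_zero]
      exact fun h => he ((CharP.cast_eq_zero_iff (ZMod p) p _).1 h))
  rw [hmem, map_sub, sub_eq_zero, ha] at hra
  simp [Polynomial.IsRoot, sub_eq_zero] at hr
  refine ⟨r, (IsPrimitiveRoot.iff_def _ _).2 ⟨by rw [← PadicInt.coe_pow, hr, PadicInt.coe_one],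
    fun l hl => ?_⟩⟩
  rw [← PadicInt.coe_pow, ← PadicInt.coe_one] at hl
  have hl' := congrArg PadicInt.toZMod (PadicInt.ext hl)
  rw [map_pow, hra, map_one] at hl'
  exact hord ▸ orderOf_dvd_of_pow_eq_one (Units.ext (by simpa using hl'))

omit [CharP k p] in
theorem commutator_fixK {e : ℕ} (D : TameField p e) (he : e = p - 1) (σ τ : Gp p) :
    ∀ x ∈ D.K, σ (τ x) = τ (σ x) := by
  intro x hx
  suffices h : D.K ≤ (AlgHom.equalizer
      ((σ : C →ₐ[ℚ_[p]] C).comp (τ : C →ₐ[ℚ_[p]] C))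
      ((τ : C →ₐ[ℚ_[p]] C).comp (σ : C →ₐ[ℚ_[p]] C))).toIntermediateField
        (fun a (ha : σ (τ a) = τ (σ a)) => show σ (τ a⁻¹) = τ (σ a⁻¹) by
          rw [map_inv₀, map_inv₀, map_inv₀, map_inv₀, ha]) from h hx
  refine sup_le (IntermediateField.adjoin_le_iff.2 ?_)
    (IntermediateField.adjoin_simple_le_iff.2 ?_)
  · rintro z ⟨-, N, hN, hz⟩
    show σ (τ z) = τ (σ z)
    have hN0 : N ≠ 0 := fun h => hN (h ▸ dvd_zero p)
    have hord : orderOf z ≠ 0 := fun h => hN0 (by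
      have := orderOf_dvd_of_pow_eq_one hz
      rwa [h, Nat.zero_dvd] at this)
    have : NeZero (orderOf z) := ⟨hord⟩
    have hroot : ∀ ρ : Gp p, ∃ i : ℕ, ρ z = z ^ i := fun ρ => by
      obtain ⟨i, -, hi⟩ := (IsPrimitiveRoot.orderOf z).eq_pow_of_pow_eq_one
        (ξ := ρ z) (by rw [← map_pow, pow_orderOf_eq_one, map_one])
      exact ⟨i, hi.symm⟩
    obtain ⟨a, ha⟩ := hroot σ
    obtain ⟨b, hb⟩ := hroot τ
    rw [hb, ha, map_pow, map_pow, ha, hb, ← pow_mul, ← pow_mul, mul_comm]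
  · show σ (τ D.ϖ) = τ (σ D.ϖ)
    have hfix : ∀ (ρ : Gp p) (ξ : C), ξ ^ e = 1 → ρ ξ = ξ := by
      intro ρ ξ hξ
      have hroot : ξ ∈ Set.range (algebraMap ℚ_[p] C) := by
        have he0 : 0 < p - 1 := Nat.sub_pos_of_lt hp.out.one_lt
        have : NeZero (p - 1) := ⟨he0.ne'⟩
        obtain ⟨ζ, hζ⟩ := exists_primitiveRoot_padic (p := p)
        obtain ⟨i, -, hi⟩ := (hζ.map_of_injective (algebraMap ℚ_[p] C).injective).eq_pow_of_pow_eq_one
          (ξ := ξ) (by rw [← he]; exact hξ)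
        exact ⟨ζ ^ i, by rw [map_pow, hi]⟩
      obtain ⟨q, rfl⟩ := hroot
      exact ρ.commutes q
    have hdiv : ∀ ρ : Gp p, ∃ ξ : C, ξ ^ e = 1 ∧ ρ D.ϖ = ξ * D.ϖ := fun ρ =>
      ⟨ρ D.ϖ / D.ϖ, by rw [div_pow, ← map_pow, D.pow_eq, map_neg, map_natCast,
        div_self (neg_ne_zero.2 (Nat.cast_ne_zero.2 hp.out.ne_zero))],
        (div_mul_cancel₀ _ D.varpi_ne_zero).symm⟩
    obtain ⟨a, ha, hσ⟩ := hdiv σ
    obtain ⟨b, hb, hτ⟩ := hdiv τ
    rw [hτ, map_mul, hfix σ b hb, hσ, map_mul, hfix τ a ha, hτ]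
    ring

omit [CharP k p] in
/-- A cocycle vanishing on `Gal(C/K)` is a coboundary, for a character nontrivial somewhere and
trivial there. -/
theorem exists_eq_mul_of_eq_zero_fixK {e : ℕ} (D : TameField p e) (he : e = p - 1)
    {χ c : Gp p → k} (hc : IsChiCocycle χ c) (hχK : ∀ σ, D.FixK σ → χ σ = 1)
    (hχ : ∃ τ, χ τ ≠ 1) (h : ∀ σ, D.FixK σ → c σ = 0) :
    ∃ b : k, ∀ σ, c σ = b * (χ σ - 1) := by
  obtain ⟨τ, hτ⟩ := hχ
  refine ⟨c τ / (χ τ - 1), fun σ => ?_⟩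
  have hK : D.FixK (σ * τ * σ⁻¹ * τ⁻¹) := fun x hx => by
    have hinv : ∀ ρ : Gp p, ∀ y ∈ D.K, ρ y ∈ D.K := fun ρ y hy => D.map_mem_K ρ hy
    rw [AlgEquiv.mul_apply, AlgEquiv.mul_apply, AlgEquiv.mul_apply,
      commutator_fixK D he σ τ _ (hinv σ⁻¹ _ (hinv τ⁻¹ _ hx)),
      ← AlgEquiv.mul_apply σ σ⁻¹, mul_inv_cancel, AlgEquiv.one_apply,
      ← AlgEquiv.mul_apply, mul_inv_cancel, AlgEquiv.one_apply]
  have hcomm : c (σ * τ) = c (τ * σ) := by
    rw [show σ * τ = σ * τ * σ⁻¹ * τ⁻¹ * (τ * σ) by group, hc, h _ hK, hχK _ hK, zero_add, one_mul]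
  rw [hc, hc] at hcomm
  rw [div_mul_eq_mul_div, eq_div_iff (sub_ne_zero.2 hτ)]
  linear_combination (-1 : k) * hcomm

/-- Two cyclotomic cocycles trivial wherever given modules with local models are trivial are
dependent modulo coboundaries. -/
theorem exists_dependent_cocycles [Finite k] (hp2 : p ≠ 2) {ι : Type} [Finite ι]
    (R : ι → Gp p →* Matrix (Fin 2) (Fin 2) (DualNumber k))
    (hm : ∀ i, HasLocalModel p (RepMod (R i))) {χ c₁ c₂ : Gp p → k}
    (hχ : ∀ z : C, IsPrimitiveRoot z p → ∀ σ : Gp p, ∀ a : ℕ, σ z = z ^ a → χ σ = (a : k))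
    (hc₁ : IsChiCocycle χ c₁) (hc₂ : IsChiCocycle χ c₂)
    (h₁ : ∀ σ : Gp p, (∀ i, R i σ = 1) → c₁ σ = 0)
    (h₂ : ∀ σ : Gp p, (∀ i, R i σ = 1) → c₂ σ = 0) :
    ∃ a b t : k, (a ≠ 0 ∨ b ≠ 0) ∧ ∀ σ, a * c₁ σ + b * c₂ σ = t * (χ σ - 1) := by
  have hpk : (p : DualNumber k) = 0 := by
    rw [← map_natCast (TrivSqZeroExt.inlHom k k), CharP.cast_eq_zero, map_zero]
  let T : ∀ i, Model p (RepMod (R i)) := fun i => ((RepMod.exists_model (R i) hpk (hm i))).some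
  obtain ⟨D, hval, -, hD⟩ := exists_tameField_family T (e := p - 1)
    (Nat.sub_pos_of_lt hp.out.one_lt)
    (fun h => absurd (Nat.le_of_dvd (Nat.sub_pos_of_lt hp.out.one_lt) h)
      (not_le.2 (Nat.sub_lt hp.out.pos one_pos))) dvd_rfl
  have hfix : ∀ σ : Gp p, (∀ x ∈ D.F, σ x = x) → ∀ i, R i σ = 1 := fun σ hσ i =>
    Matrix.toLin'.injective (LinearMap.ext fun v => by
      rw [Matrix.toLin'_one, Matrix.toLin'_apply]
      exact ((T i).smul_eq_smul_of_eq_on (σ' := 1) (m := RepMod.mk _ v)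
        fun j => hσ _ (hval i j _)).trans (one_smul _ _))
  have hχK : ∀ σ, D.FixK σ → χ σ = 1 := fun σ hσ => by
    rw [hχ D.zeta D.zeta_spec σ 1 (by rw [pow_one]; exact hσ _ D.zeta_mem_K), Nat.cast_one]
  have hχI : ∀ σ : Gp p, IsInertia σ → ∀ a : ℕ, σ D.zeta = D.zeta ^ a → χ σ = (a : k) :=
    fun σ _ a ha => hχ D.zeta D.zeta_spec σ a ha
  have hχne : ∃ τ, χ τ ≠ 1 := by
    obtain ⟨τ, hτ, hprim⟩ := D.exists_inertia_generator
    obtain ⟨a, -, ha⟩ := exists_zeta_image D τ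
    refine ⟨τ, fun h1 => ?_⟩
    rw [hχI τ hτ a.val ha] at h1
    have h2 : ((a.val : ℕ) : ZMod p) = ((1 : ℕ) : ZMod p) := by
      rw [ZMod.natCast_eq_natCast_iff, ← CharP.natCast_eq_natCast k p, h1, Nat.cast_one]
    have h3 : 3 ≤ p := by have := hp.out.two_le; omega
    have htop : top D = 1 := by
      refine Nat.eq_of_mul_eq_mul_right (show 0 < p - 1 by omega) ?_
      rw [top_mul, one_mul]
    have h4 := res_xi_pow_top D hτ ha
    rw [htop, pow_one, ← map_natCast (algebraMap (ZMod p) (Engine.Res p)), h2, Nat.cast_one,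
      map_one] at h4
    exact (isPrimitiveRoot_res_xi D hprim).ne_one (by omega) h4
  -- on `Gal(C/K)` they are allowed eigen homomorphisms
  have hom : ∀ c : Gp p → k, IsChiCocycle χ c → (∀ σ : Gp p, (∀ i, R i σ = 1) → c σ = 0) →
      IsEigenHom D 1 χ c ∧ IsAllowed D c := by
    intro c hc hv
    have hadd : ∀ σ τ, D.FixK σ → D.FixK τ → c (σ * τ) = c σ + c τ := fun σ τ hσ _ => by
      rw [hc, hχK σ hσ, one_mul]
    refine ⟨⟨hadd, fun g _ σ hσ => ?_⟩,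
      isAllowed_of_hom hp2 D hD _ hadd fun σ hσ => hv σ (hfix σ hσ)⟩
    have hK := fixK_conj D g hσ
    have h1 := hc (g * σ * g⁻¹) g
    rw [hχK _ hK, one_mul, inv_mul_cancel_right, hc] at h1
    linear_combination (-1 : k) * h1
  obtain ⟨a, b, hab, h⟩ := exists_dependent_of_allowed_one hp2 D rfl hχI
    (hom c₁ hc₁ h₁).1 (hom c₁ hc₁ h₁).2 (hom c₂ hc₂ h₂).1 (hom c₂ hc₂ h₂).2
  obtain ⟨t, ht⟩ := exists_eq_mul_of_eq_zero_fixK D rfl (c := fun σ => a * c₁ σ + b * c₂ σ)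
    (fun σ τ => by
      show a * c₁ (σ * τ) + b * c₂ (σ * τ) = _
      rw [hc₁, hc₂]
      ring)
    hχK hχne h
  exact ⟨a, b, t, hab, ht⟩

end Fermat.Agent.FlatLocal
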