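import Fermat.Agent.FlatLocal.Expansion

/-!
# Extending approximate homomorphisms to a totally ramified extension

An approximate homomorphism on `B` extends to `B(Π)` by `Π ↦ Π'` as soon as `Π'` approximately
satisfies the transformed equation of `Π`.
-/

set_option autoImplicit false

noncomputable section

namespace Fermat.Agent.FlatLocal

variable {p : ℕ} [Fact p.Prime]

local notation "C" => PadicAlgCl p

theorem close_trans {a b c : PadicAlgCl p} {r : ℝ} (h1 : ‖a - b‖ ≤ r) (h2 : ‖b - c‖ ≤ r) :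
    ‖a - c‖ ≤ r := by
  rw [← sub_add_sub_cancel a b c]
  exact (IsUltrametricDist.norm_add_le_max _ _).trans (max_le h1 h2)

theorem close_mul_left {a b b' : PadicAlgCl p} {r : ℝ} (ha : ‖a‖ ≤ 1) (h : ‖b - b'‖ ≤ r) :
    ‖a * b - a * b'‖ ≤ r := by
  rw [← mul_sub, norm_mul]
  exact (mul_le_of_le_one_left (norm_nonneg _) ha).trans h

theorem close_sum {ι : Type*} (s : Finset ι) {f g : ι → PadicAlgCl p} {r : ℝ} (hr : 0 ≤ r)
    (h : ∀ i ∈ s, ‖f i - g i‖ ≤ r) : ‖∑ i ∈ s, f i - ∑ i ∈ s, g i‖ ≤ r := by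
  rw [← Finset.sum_sub_distrib]
  exact IsUltrametricDist.norm_sum_le_of_forall_le_of_nonneg hr h

theorem cst_one : cst (1 : ℤ_[p]) = (1 : PadicAlgCl p) := by simp [cst]

theorem cst_mem (B : IntermediateField ℚ_[p] C) (c : ℤ_[p]) : cst c ∈ B :=
  B.algebraMap_mem _

theorem norm_cst_le_one (c : ℤ_[p]) : ‖(cst c : C)‖ ≤ 1 := by
  rw [cst, norm_algebraMap']
  exact c.2

theorem IsApproxHom.norm_zero_le {B : IntermediateField ℚ_[p] C} {r : ℝ} {ψ : C → C}
    (hψ : IsApproxHom B r ψ) : ‖ψ 0‖ ≤ r := by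
  have h := hψ.map_add 0 B.zero_mem 0 B.zero_mem (by simp) (by simp)
  rwa [add_zero, sub_add_cancel_right, norm_neg] at h

theorem exists_approx_extend {B : IntermediateField ℚ_[p] C} {r : ℝ} {ψ : C → C} (hr : 0 ≤ r)
    (hψ : IsApproxHom B r ψ) {g : ℝ} (hg0 : 0 < g) (hg1 : g < 1) {m : ℕ} {u u' : C}
    (hu : ‖u‖ = g) (hB : NormsIn B g m) (hdeg : (minpoly B u).natDegree ≤ m)
    {c : Fin m → C} (hc : ∀ j, c j ∈ B) (hcu : u ^ m = ∑ j, c j * u ^ (j : ℕ))
    (hu' : ‖u'‖ ≤ 1) (hrel : ‖u' ^ m - ∑ j, ψ (c j) * u' ^ (j : ℕ)‖ ≤ r) :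
    ∃ φ : C → C, IsApproxHom (B ⊔ IntermediateField.adjoin ℚ_[p] {u}) r φ ∧
      ∀ b : Fin m → C, (∀ j, b j ∈ B) →
        φ (∑ j, b j * u ^ (j : ℕ)) = ∑ j, ψ (b j) * u' ^ (j : ℕ) := by
  classical
  set E := B ⊔ IntermediateField.adjoin ℚ_[p] {u}
  have hu1 : ‖u‖ ≤ 1 := hu ▸ hg1.le
  have hBE : B ≤ E := le_sup_left
  have huE : u ∈ E :=
    le_sup_right (a := B) (IntermediateField.mem_adjoin_simple_self ℚ_[p] u)
  have hm : 0 < m := lt_of_lt_of_le
    (minpoly.natDegree_pos (Algebra.IsAlgebraic.isAlgebraic u).isIntegral) hdeg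
  choose! co hco hx using fun x (hx : x ∈ E) => exists_expansion u hdeg hx
  let φ : C → C := fun x => ∑ j, ψ (co x j) * u' ^ (j : ℕ)
  have hmemE : ∀ b : Fin m → C, (∀ j, b j ∈ B) → ∑ j, b j * u ^ (j : ℕ) ∈ E := fun b hb =>
    sum_mem fun j _ => mul_mem (hBE (hb j)) (pow_mem huE _)
  -- coordinates are unique
  have huniq : ∀ b : Fin m → C, (∀ j, b j ∈ B) → co (∑ j, b j * u ^ (j : ℕ)) = b := by
    intro b hb
    have hxE := hmemE b hb
    funext k
    by_contra hne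
    have h := (norm_term_le hg0 hg1 hu hB
      (b := fun j => co (∑ j, b j * u ^ (j : ℕ)) j - b j)
      (fun j => sub_mem (hco _ hxE j) (hb j)) k).1
    simp only [sub_mul, Finset.sum_sub_distrib] at h
    rw [← hx _ hxE, sub_self, norm_zero, norm_le_zero_iff] at h
    rw [← sub_mul, mul_eq_zero] at h
    exact h.elim (fun h => hne (sub_eq_zero.1 h))
      (pow_ne_zero _ (norm_pos_iff.1 (hu ▸ hg0)))
  have hφ : ∀ b : Fin m → C, (∀ j, b j ∈ B) →
      φ (∑ j, b j * u ^ (j : ℕ)) = ∑ j, ψ (b j) * u' ^ (j : ℕ) := fun b hb => by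
    simp only [φ, huniq b hb]
  have hco1 : ∀ x ∈ E, ‖x‖ ≤ 1 → ∀ j, ‖co x j‖ ≤ 1 := fun x hxE h j =>
    coeff_norm_le_one hg0 hg1 hu hB (hco x hxE) ((hx x hxE) ▸ h) j
  have hc1 : ∀ j, ‖c j‖ ≤ 1 :=
    coeff_norm_le_one hg0 hg1 hu hB hc (by
      rw [← hcu, norm_pow]; exact pow_le_one₀ (norm_nonneg _) hu1)
  have hterm : ∀ a : C, ‖a‖ ≤ 1 → ∀ j : ℕ, ‖a * u' ^ j‖ ≤ 1 := fun a ha j => by
    rw [norm_mul, norm_pow]
    exact mul_le_one₀ ha (pow_nonneg (norm_nonneg _) _) (pow_le_one₀ (norm_nonneg _) hu')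
  have hpow : ∀ {a a' : C}, ‖a - a'‖ ≤ r → ∀ j : ℕ, ‖a * u' ^ j - a' * u' ^ j‖ ≤ r :=
    fun {a a'} h j => by
    rw [mul_comm a, mul_comm a']
    exact close_mul_left (by rw [norm_pow]; exact pow_le_one₀ (norm_nonneg _) hu') h
  have hnorm : ∀ x ∈ E, ‖x‖ ≤ 1 → ‖φ x‖ ≤ 1 := fun x hxE h =>
    IsUltrametricDist.norm_sum_le_of_forall_le_of_nonneg zero_le_one fun j _ =>
      hterm _ (hψ.norm_le _ (hco x hxE j) (hco1 x hxE h j)) _
  have hadd : ∀ x ∈ E, ∀ y ∈ E, ‖x‖ ≤ 1 → ‖y‖ ≤ 1 → ‖φ (x + y) - (φ x + φ y)‖ ≤ r := by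
    intro x hxE y hyE h1 h2
    have hxy : x + y = ∑ j, (co x j + co y j) * u ^ (j : ℕ) := by
      simp only [add_mul, Finset.sum_add_distrib, ← hx x hxE, ← hx y hyE]
    rw [hxy, hφ (fun j => co x j + co y j) fun j => add_mem (hco x hxE j) (hco y hyE j)]
    simp only [φ, ← Finset.sum_add_distrib, ← add_mul]
    exact close_sum _ hr fun j _ => hpow (hψ.map_add _ (hco x hxE j) _ (hco y hyE j)
      (hco1 x hxE h1 j) (hco1 y hyE h2 j)) _
  have hzero : ‖φ 0‖ ≤ r := by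
    have h := hφ (fun _ => 0) fun _ => B.zero_mem
    rw [Finset.sum_eq_zero (by simp)] at h
    rw [h]
    refine IsUltrametricDist.norm_sum_le_of_forall_le_of_nonneg hr fun j _ => ?_
    rw [norm_mul, norm_pow]
    exact (mul_le_of_le_one_right (norm_nonneg _) (pow_le_one₀ (norm_nonneg _) hu')).trans
      hψ.norm_zero_le
  have hsum : ∀ (s : Finset (Fin m)) (f : Fin m → C), (∀ j, f j ∈ E) → (∀ j, ‖f j‖ ≤ 1) →
      ‖φ (∑ j ∈ s, f j) - ∑ j ∈ s, φ (f j)‖ ≤ r := by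
    intro s f hf hf1
    induction s using Finset.induction_on with
    | empty => simpa using hzero
    | insert a s ha ih =>
      rw [Finset.sum_insert ha, Finset.sum_insert ha]
      refine close_trans (hadd _ (hf a) _ (sum_mem fun j _ => hf j) (hf1 a)
        (IsUltrametricDist.norm_sum_le_of_forall_le_of_nonneg zero_le_one fun j _ => hf1 j)) ?_
      rw [add_sub_add_left_eq_sub]
      exact ih
  have hbase : ∀ b ∈ B, ‖b‖ ≤ 1 → ‖φ b - ψ b‖ ≤ r := by
    intro b hb _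
    set d : Fin m → C := Pi.single ⟨0, hm⟩ b with hd
    have hdB : ∀ j, d j ∈ B := fun j => by
      rw [hd, Pi.single_apply]
      split_ifs
      exacts [hb, B.zero_mem]
    have hsumd : ∑ j, d j * u ^ (j : ℕ) = b := by
      rw [Finset.sum_eq_single ⟨0, hm⟩ (fun j _ hj => by rw [hd, Pi.single_eq_of_ne hj, zero_mul])
        (by simp)]
      simp [d]
    conv_lhs => rw [← hsumd, hφ d hdB]
    rw [← Finset.add_sum_erase _ _ (Finset.mem_univ ⟨0, hm⟩), hsumd]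
    simp only [hd, Pi.single_eq_same, pow_zero, mul_one, add_sub_cancel_left]
    refine IsUltrametricDist.norm_sum_le_of_forall_le_of_nonneg hr fun j hj => ?_
    rw [Pi.single_eq_of_ne (Finset.ne_of_mem_erase hj), norm_mul, norm_pow]
    exact (mul_le_of_le_one_right (norm_nonneg _) (pow_le_one₀ (norm_nonneg _) hu')).trans
      hψ.norm_zero_le
  have hscal : ∀ b ∈ B, ‖b‖ ≤ 1 → ∀ x ∈ E, ‖x‖ ≤ 1 → ‖φ (b * x) - ψ b * φ x‖ ≤ r := by
    intro b hb hb1 x hxE h1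
    have hbx : b * x = ∑ j, (b * co x j) * u ^ (j : ℕ) := by
      simp only [mul_assoc, ← Finset.mul_sum, ← hx x hxE]
    rw [hbx, hφ (fun j => b * co x j) fun j => mul_mem hb (hco x hxE j)]
    simp only [φ, Finset.mul_sum, ← mul_assoc]
    exact close_sum _ hr fun j _ =>
      hpow (hψ.map_mul _ hb _ (hco x hxE j) hb1 (hco1 x hxE h1 j)) _
  have hshift : ∀ x ∈ E, ‖x‖ ≤ 1 → ‖φ (u * x) - u' * φ x‖ ≤ r := by
    intro x hxE h1
    obtain ⟨k, rfl⟩ : ∃ k, m = k + 1 := ⟨m - 1, by omega⟩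
    set b := co x with hb
    set sh : Fin (k + 1) → C := Fin.cons 0 (fun i => b i.castSucc) with hsh
    have hshB : ∀ j, sh j ∈ B := fun j => by
      induction j using Fin.cases with
      | zero => simp [hsh]
      | succ i => simp only [hsh, Fin.cons_succ]; exact hco x hxE _
    have hb1 := hco1 x hxE h1
    have hsh1 : ∀ j, ‖sh j‖ ≤ 1 := fun j => by
      induction j using Fin.cases with
      | zero => simp [hsh]
      | succ i => simp only [hsh, Fin.cons_succ]; exact hb1 _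
    have hlE : b (Fin.last k) ∈ B := hco x hxE _
    have hsplit : u * x = ∑ j, sh j * u ^ (j : ℕ) + b (Fin.last k) * u ^ (k + 1) := by
      conv_lhs => rw [hx x hxE, ← hb, Fin.sum_univ_castSucc, mul_add, Finset.mul_sum]
      rw [Fin.sum_univ_succ]
      simp only [hsh, Fin.cons_zero, Fin.cons_succ, zero_mul, zero_add, Fin.val_succ,
        Fin.val_castSucc, Fin.val_last, pow_succ]
      congr 1
      · exact Finset.sum_congr rfl fun i _ => by ring
      · ring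
    have hS : ∑ j, sh j * u ^ (j : ℕ) ∈ E := hmemE sh hshB
    have hS1 : ‖∑ j, sh j * u ^ (j : ℕ)‖ ≤ 1 :=
      IsUltrametricDist.norm_sum_le_of_forall_le_of_nonneg zero_le_one fun j _ => by
        rw [norm_mul, norm_pow]
        exact mul_le_one₀ (hsh1 j) (pow_nonneg (norm_nonneg _) _)
          (pow_le_one₀ (norm_nonneg _) hu1)
    have hum : ‖u ^ (k + 1)‖ ≤ 1 := by
      rw [norm_pow]; exact pow_le_one₀ (norm_nonneg _) hu1
    have hbu : ‖b (Fin.last k) * u ^ (k + 1)‖ ≤ 1 := by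
      rw [norm_mul]; exact mul_le_one₀ (hb1 _) (norm_nonneg _) hum
    rw [hsplit]
    refine close_trans (hadd _ hS _ (mul_mem (hBE hlE) (pow_mem huE _)) hS1 hbu) ?_
    have hφm : φ (u ^ (k + 1)) = ∑ j, ψ (c j) * u' ^ (j : ℕ) := by
      conv_lhs => rw [hcu]
      exact hφ c hc
    have hlast : ‖φ (b (Fin.last k) * u ^ (k + 1)) - ψ (b (Fin.last k)) * u' ^ (k + 1)‖ ≤ r :=
      close_trans (hscal _ hlE (hb1 _) _ (pow_mem huE _) hum)
        (close_mul_left (hψ.norm_le _ hlE (hb1 _)) (by rw [hφm, norm_sub_rev]; exact hrel))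
    rw [hφ sh hshB, Fin.sum_univ_succ]
    have hexp : u' * φ x = ∑ i : Fin k, ψ (b i.castSucc) * u' ^ ((i : ℕ) + 1) +
        ψ (b (Fin.last k)) * u' ^ (k + 1) := by
      show u' * ∑ j, ψ (b j) * u' ^ (j : ℕ) = _
      rw [Fin.sum_univ_castSucc, mul_add, Finset.mul_sum]
      simp only [Fin.val_castSucc, Fin.val_last, pow_succ]
      congr 1
      · exact Finset.sum_congr rfl fun i _ => by ring
      · ring
    rw [hexp]
    simp only [hsh, Fin.cons_zero, Fin.cons_succ, Fin.val_succ, Fin.val_zero, pow_zero, mul_one]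
    rw [add_sub_add_comm, add_sub_cancel_right]
    exact (IsUltrametricDist.norm_add_le_max _ _).trans (max_le hψ.norm_zero_le hlast)
  have hupow : ∀ (j : ℕ), ∀ y ∈ E, ‖y‖ ≤ 1 → ‖φ (u ^ j * y) - u' ^ j * φ y‖ ≤ r := by
    intro j
    induction j with
    | zero => intro y _ _; simpa using hr
    | succ j ih =>
      intro y hyE hy1
      have hyy : ‖u ^ j * y‖ ≤ 1 := by
        rw [norm_mul, norm_pow]
        exact mul_le_one₀ (pow_le_one₀ (norm_nonneg _) hu1) (norm_nonneg _) hy1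
      rw [pow_succ', mul_assoc, pow_succ', mul_assoc]
      exact close_trans (hshift _ (mul_mem (pow_mem huE _) hyE) hyy)
        (close_mul_left hu' (ih y hyE hy1))
  have hmul : ∀ x ∈ E, ∀ y ∈ E, ‖x‖ ≤ 1 → ‖y‖ ≤ 1 → ‖φ (x * y) - φ x * φ y‖ ≤ r := by
    intro x hxE y hyE h1 h2
    have hxy : x * y = ∑ j, co x j * (u ^ (j : ℕ) * y) := by
      simp only [← mul_assoc, ← Finset.sum_mul, ← hx x hxE]
    have hn : ∀ j : Fin m, ‖u ^ (j : ℕ) * y‖ ≤ 1 := fun j => by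
      rw [norm_mul, norm_pow]
      exact mul_le_one₀ (pow_le_one₀ (norm_nonneg _) hu1) (norm_nonneg _) h2
    have hmem : ∀ j : Fin m, u ^ (j : ℕ) * y ∈ E := fun j => mul_mem (pow_mem huE _) hyE
    rw [hxy]
    refine close_trans (hsum _ (fun j => co x j * (u ^ (j : ℕ) * y))
      (fun j => mul_mem (hBE (hco x hxE j)) (hmem j)) fun j => by
        rw [norm_mul]; exact mul_le_one₀ (hco1 x hxE h1 j) (norm_nonneg _) (hn j)) ?_
    show ‖_ - (∑ j, ψ (co x j) * u' ^ (j : ℕ)) * φ y‖ ≤ r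
    rw [Finset.sum_mul]
    refine close_sum _ hr fun j _ => ?_
    refine close_trans (hscal _ (hco x hxE j) (hco1 x hxE h1 j) _ (hmem j) (hn j)) ?_
    rw [mul_assoc]
    exact close_mul_left (hψ.norm_le _ (hco x hxE j) (hco1 x hxE h1 j)) (hupow _ y hyE h2)
  exact ⟨φ, ⟨hnorm, hadd, hmul, fun a =>
    close_trans (hbase _ (cst_mem B a) (norm_cst_le_one a)) (hψ.map_cst a)⟩, hφ⟩

end Fermat.Agent.FlatLocal
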