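import Fermat.Agent.FlatLocal.Kummer
import Mathlib.FieldTheory.Galois.Basic

/-!
# Existence and generation of tame fields
-/

set_option autoImplicit false

noncomputable section

namespace Fermat.Agent.FlatLocal

open Fermat.Agent.ClassField Polynomial

variable {p : ℕ} [Fact p.Prime] {e : ℕ}

local notation "C" => PadicAlgCl p

/-- Fixing the roots of unity of order prime to `p` is enough to be inertia. -/
theorem isInertia_of_fix_roots {τ : Gp p}
    (h : ∀ (n : ℕ) (z : C), z ^ (p ^ n.factorial - 1) = 1 → τ z = z) : IsInertia τ := by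
  intro x hx
  rcases hx.lt_or_eq with hlt | heq
  · exact (norm_sub_le_max _ _).trans_lt (by rwa [norm_apply, max_self])
  · obtain ⟨z, n, hn, hz, hzlt⟩ := exists_root_norm_sub_lt' heq
    obtain ⟨k, hk⟩ := exists_pow_factorial (PadicFields.not_dvd_pow_sub_one hn) hz
    rw [show τ x - x = (τ x - τ z) - (x - z) by rw [h k z (hk k le_rfl)]; ring, ← map_sub]
    refine (norm_sub_le_max _ _).trans_lt ?_
    rwa [norm_apply, max_self]

/-- An element congruent to `1` after raising to the `p ^ a`-th power is congruent to `1`. -/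
theorem norm_sub_one_lt_of_pow {x : C} (hx : ‖x‖ ≤ 1) :
    ∀ a : ℕ, ‖x ^ p ^ a - 1‖ < 1 → ‖x - 1‖ < 1 := by
  intro a
  induction a with
  | zero => simp
  | succ a ih =>
    intro h
    refine ih ?_
    rw [pow_succ, pow_mul] at h
    set y := x ^ p ^ a with hy
    have hy1 : ‖y‖ ≤ 1 := by rw [hy, norm_pow]; exact pow_le_one₀ (norm_nonneg _) hx
    have ht : ‖y - 1‖ ≤ 1 := (norm_sub_le_max y 1).trans (max_le hy1 norm_one.le)
    obtain ⟨S, hS, -, hS1⟩ := exists_add_one_pow ht
    rw [sub_add_cancel] at hS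
    have hlt : ‖(y - 1) ^ p‖ < 1 := by
      rw [show (y - 1) ^ p = (y ^ p - 1) - (p : C) * (y - 1) * S by rw [hS]; ring]
      refine (norm_sub_le_max _ _).trans_lt (max_lt h ?_)
      rw [mul_assoc, norm_mul]
      exact (mul_le_of_le_one_right (norm_nonneg _)
        (by rw [norm_mul]; exact mul_le_one₀ ht (norm_nonneg _) hS1)).trans_lt norm_natCast_p_lt_one
    rw [norm_pow] at hlt
    exact (pow_lt_one_iff_of_nonneg (norm_nonneg _) (Fact.out : p.Prime).ne_zero).1 hlt

/-- Tame fields generated by a finite Galois-stable set exist. -/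
theorem exists_tameField (he : 0 < e) (hpe : ¬ p ∣ e) (hdvd : p - 1 ∣ e) (S : Finset C)
    (hS : ∀ σ : Gp p, ∀ x ∈ S, σ x ∈ S) :
    ∃ D : TameField p e, (∀ x ∈ S, x ∈ D.F) ∧
      ∀ σ : Gp p, D.FixK σ → (∀ x ∈ S, σ x = x) → ∀ x ∈ D.F, σ x = x := by
  classical
  obtain ⟨π, hπ⟩ := IsAlgClosed.exists_pow_nat_eq (-(p : C)) he
  have : NeZero (p : C) := ⟨Nat.cast_ne_zero.2 (Fact.out : p.Prime).ne_zero⟩
  obtain ⟨ζ, hζ⟩ := HasEnoughRootsOfUnity.exists_primitiveRoot (PadicAlgCl p) p
  set T : Finset C := S ∪ nthRootsFinset e (1 : C) ∪ {π} with hT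
  set F := IntermediateField.adjoin ℚ_[p] (T : Set C)
  have hsub : ∀ x ∈ T, x ∈ F := fun x hx => IntermediateField.subset_adjoin ℚ_[p] _ hx
  have hroots : ∀ z : C, z ^ e = 1 → z ∈ T := fun z hz => by
    simp [hT, mem_nthRootsFinset he, hz]
  have hπ0 : π ≠ 0 := fun h => by
    rw [h, zero_pow he.ne'] at hπ
    exact neg_ne_zero.2 (norm_pos_iff.1 norm_natCast_p_pos) hπ.symm
  have hfin : FiniteDimensional ℚ_[p] F :=
    IntermediateField.finiteDimensional_adjoin fun x _ =>
      (Algebra.IsAlgebraic.isAlgebraic x).isIntegral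
  have hnormal : ∀ σ : Gp p, ∀ x ∈ F, σ x ∈ F := fun σ x hx => by
    refine apply_mem_of_mem_adjoin (fun y hy => ?_) hx
    simp only [hT, Finset.coe_union, Set.mem_union, Finset.mem_coe, mem_nthRootsFinset he,
      Finset.mem_singleton] at hy
    rcases hy with (hy | hy) | rfl
    · exact hsub _ (by simp [hT, hS σ y hy])
    · exact hsub _ (hroots _ (by rw [← map_pow, hy, map_one]))
    · rw [← div_mul_cancel₀ (σ y) hπ0]
      refine mul_mem (hsub _ (hroots _ ?_)) (hsub _ (by simp [hT]))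
      rw [div_pow, ← map_pow, hπ, map_neg, map_natCast, div_self]
      exact neg_ne_zero.2 (norm_pos_iff.1 norm_natCast_p_pos)
  let D : TameField p e :=
    { F := F
      finite := hfin
      normal := hnormal
      ϖ := π
      mem := hsub π (by simp [hT])
      pow_eq := hπ
      roots_mem := fun z hz => hsub z (hroots z hz)
      e_pos := he
      not_dvd := hpe
      sub_one_dvd := hdvd
      zeta := ζ
      zeta_spec := hζ }
  refine ⟨D, fun x hx => hsub x (by simp [hT, hx]), fun σ hσ hσS x hx => ?_⟩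
  refine apply_eq_of_mem_adjoin (fun y hy => ?_) hx
  simp only [hT, Finset.coe_union, Set.mem_union, Finset.mem_coe, mem_nthRootsFinset he,
    Finset.mem_singleton] at hy
  rcases hy with (hy | hy) | rfl
  · exact hσS y hy
  · exact hσ y (D.W_le_K (D.roots_mem_W hy))
  · exact hσ _ D.varpi_mem_K

namespace TameField

variable (D : TameField p e)

/-- An automorphism fixing `W` agrees on `F` with an inertia element. -/
theorem exists_inertia_eq_on {σ : Gp p} (hσ : ∀ x ∈ D.W, σ x = x) :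
    ∃ σ' : Gp p, IsInertia σ' ∧ ∀ x ∈ D.F, σ' x = σ x := by
  have := D.finite
  have : Normal ℚ_[p] D.F := by
    refine IntermediateField.normal_iff_forall_map_le'.2 fun σ => ?_
    rintro _ ⟨x, hx, rfl⟩
    exact D.normal σ x hx
  have : IsGalois ℚ_[p] D.F := ⟨⟩
  let P : ℕ → Gp p → Prop := fun n g =>
    (∀ z : C, z ^ (p ^ n.factorial - 1) = 1 → g z = z) ∧ ∀ x : C, x ∈ D.F → g x = σ x
  have hne : ∀ n, ∃ g, P n g := by
    intro n
    obtain ⟨z, hz⟩ := exists_primitiveRoot_pow_sub_one p n.factorial_pos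
    set E := IntermediateField.adjoin ℚ_[p] {z}
    -- `E ∩ F` is unramified, so contained in `W`
    have hXW : E ⊓ D.F ≤ D.W := by
      have hle : E ⊓ D.F ≤ D.F := inf_le_right
      have : FiniteDimensional ℚ_[p] (E ⊓ D.F : IntermediateField ℚ_[p] C) :=
        Module.Finite.of_injective (IntermediateField.inclusion hle).toLinearMap
          (IntermediateField.inclusion hle).toRingHom.injective
      set X := E ⊓ D.F with hX
      obtain ⟨w, hw, hwp⟩ := exists_primitiveRoot_mem X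
      have hram : PadicFields.ramIdx X = 1 := by
        obtain ⟨i, hi⟩ := (unramified_adjoin_root n.factorial_pos hz).2.1
          (PadicFields.uniformizer X : C) (inf_le_left (b := D.F) (PadicFields.uniformizer X).2)
          (fun h => PadicFields.uniformizer_ne_zero X (Subtype.ext h))
        have h1 := PadicFields.norm_q_eq X
        have hc : ‖(p : X)‖ = ‖(p : C)‖ := by rw [PadicFields.norm_def]; rfl
        rw [hc, PadicFields.norm_def, hi, ← zpow_natCast, ← zpow_mul] at h1
        have h2 := zpow_right_injective₀ norm_natCast_p_pos norm_natCast_p_lt_one.ne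
          ((zpow_one _).trans h1)
        have h3 := Int.eq_one_or_neg_one_of_mul_eq_one' h2.symm
        omega
      have hdeg : Module.finrank ℚ_[p] X = PadicFields.resDeg X := by
        rw [← PadicFields.ramIdx_mul_resDeg, hram, one_mul]
      have heq : IntermediateField.adjoin ℚ_[p] {w} = X := by
        refine IntermediateField.eq_of_le_of_finrank_eq
          (IntermediateField.adjoin_simple_le_iff.2 hw) ?_
        rw [(unramified_adjoin_root (PadicFields.resDeg_pos X) hwp).1, hdeg]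
      rw [← heq, IntermediateField.adjoin_simple_le_iff]
      exact IntermediateField.subset_adjoin ℚ_[p] _
        ⟨hle hw, _, PadicFields.not_dvd_pow_sub_one (PadicFields.resDeg_pos X), hwp.pow_eq_one⟩
    set res := AlgEquiv.restrictNormalHom (F := ℚ_[p]) (K₁ := C) D.F
    set H := E.fixingSubgroup.map res with hH
    have hmem : res σ ∈ H := by
      rw [← IntermediateField.fixingSubgroup_fixedField H,
        IntermediateField.mem_fixingSubgroup_iff]
      intro x hx
      refine Subtype.ext ((AlgEquiv.restrictNormalHom_apply D.F σ x).trans ?_)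
      refine hσ _ (hXW ⟨mem_of_forall_fixed E fun g hg => ?_, x.2⟩)
      have h := hx ⟨res g, Subgroup.mem_map_of_mem res
        ((IntermediateField.mem_fixingSubgroup_iff _ _).2 hg)⟩
      exact (AlgEquiv.restrictNormalHom_apply D.F g x).symm.trans (congrArg Subtype.val h)
    obtain ⟨g, hg, hgσ⟩ := Subgroup.mem_map.1 hmem
    refine ⟨g, fun y hy => ?_, fun x hx => ?_⟩
    · have : NeZero (p ^ n.factorial - 1) := ⟨fun h0 =>
        PadicFields.not_dvd_pow_sub_one (q := p) n.factorial_pos (h0 ▸ dvd_zero p)⟩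
      obtain ⟨i, -, rfl⟩ := hz.eq_pow_of_pow_eq_one hy
      exact (IntermediateField.mem_fixingSubgroup_iff _ _).1 hg _
        (pow_mem (IntermediateField.mem_adjoin_simple_self ℚ_[p] z) i)
    · exact (AlgEquiv.restrictNormalHom_apply D.F g ⟨x, hx⟩).symm.trans
        ((congrArg (fun f => ((f ⟨x, hx⟩ : D.F) : C)) hgσ).trans
          (AlgEquiv.restrictNormalHom_apply D.F σ ⟨x, hx⟩))
  have hanti : ∀ n g, P (n + 1) g → P n g := fun n g h => ⟨fun z hz => h.1 z (by
    obtain ⟨c, hc⟩ := Nat.pow_sub_one_dvd_pow_sub_one p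
      (Nat.factorial_dvd_factorial n.le_succ)
    rw [hc, pow_mul, hz, one_pow]), h.2⟩
  have hclosed : ∀ n, IsClosed {g | P n g} := fun n => by
    simp only [P, Set.ofPred_and, Set.ofPred_forall]
    exact (isClosed_iInter fun z => isClosed_iInter fun _ => isClosed_setOf_apply_eq z z).inter
      (isClosed_iInter fun x => isClosed_iInter fun _ => isClosed_setOf_apply_eq x (σ x))
  obtain ⟨τ, hτ⟩ := exists_of_forall_level P hanti hne hclosed
  exact ⟨τ, isInertia_of_fix_roots fun k => (hτ k).1, (hτ 0).2⟩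

/-- Modulo the automorphisms fixing `W`, a Frobenius generates. -/
theorem exists_pow_fix_W {g : Gp p}
    (hg : ∀ (z : C) (N : ℕ), ¬ p ∣ N → z ^ N = 1 → g z = z ^ p) (h : Gp p) :
    ∃ j : ℕ, ∀ x ∈ D.W, ((g ^ j)⁻¹ * h) x = x := by
  classical
  obtain ⟨n, hn, z, hz, hW, hfin, -⟩ := D.exists_W_eq_adjoin
  have hint : IsIntegral ℚ_[p] z := (Algebra.IsAlgebraic.isAlgebraic z).isIntegral
  have hNp := PadicFields.not_dvd_pow_sub_one (q := p) hn
  have hgj : ∀ j : ℕ, (g ^ j) z = z ^ p ^ j := fun j => by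
    induction j with
    | zero => simp
    | succ j ih =>
      rw [pow_succ', AlgEquiv.mul_apply, ih, map_pow, hg z _ hNp hz.pow_eq_one, ← pow_mul,
        ← pow_succ']
  set T := (Finset.range n).image fun j => z ^ p ^ j with hT
  have hcard : T.card = n := by
    rw [hT, Finset.card_image_of_injOn, Finset.card_range]
    intro i hi j hj hij
    rcases Nat.lt_or_ge 1 n with h1 | h1
    · have hlt : ∀ k < n, p ^ k < p ^ n - 1 := fun k hk => by
        have h2 : p ^ k ≤ p ^ (n - 1) := Nat.pow_le_pow_right (Fact.out : p.Prime).pos (by omega)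
        have h3 : p ^ n = p ^ (n - 1) * p := by rw [← pow_succ, Nat.sub_add_cancel hn]
        have h4 : p ≤ p ^ (n - 1) := Nat.le_self_pow (by omega) p
        have h5 := (Fact.out : p.Prime).two_le
        have h6 : p ^ (n - 1) * 2 ≤ p ^ n := h3 ▸ Nat.mul_le_mul_left _ h5
        omega
      exact Nat.pow_right_injective (Fact.out : p.Prime).two_le
        (hz.pow_inj (hlt i (Finset.mem_range.1 hi)) (hlt j (Finset.mem_range.1 hj)) hij)
    · have := Finset.mem_range.1 hi
      have := Finset.mem_range.1 hj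
      omega
  have hdeg : (minpoly ℚ_[p] z).natDegree = n := by
    rw [← IntermediateField.adjoin.finrank hint, ← hW, hfin]
  have hsub : T ⊆ ((minpoly ℚ_[p] z).aroots C).toFinset := fun y hy => by
    obtain ⟨j, -, rfl⟩ := Finset.mem_image.1 hy
    rw [Multiset.mem_toFinset, mem_aroots, ← hgj]
    refine ⟨minpoly.ne_zero hint, ?_⟩
    show aeval ((g ^ j : Gp p) z) _ = 0
    rw [aeval_algHom_apply, minpoly.aeval, map_zero]
  have heq := Finset.eq_of_subset_of_card_le hsub
    ((Multiset.toFinset_card_le _).trans (by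
      rw [hcard, ← hdeg]
      exact (card_roots' _).trans (natDegree_map_le ..)))
  have hmem : h z ∈ T := by
    rw [heq, Multiset.mem_toFinset, mem_aroots, aeval_algHom_apply, minpoly.aeval, map_zero]
    exact ⟨minpoly.ne_zero hint, rfl⟩
  obtain ⟨j, -, hj⟩ := Finset.mem_image.1 hmem
  refine ⟨j, fun x hx => apply_eq_of_mem_adjoin (fun y hy => ?_) (hW ▸ hx)⟩
  rw [Set.mem_singleton_iff.1 hy, AlgEquiv.mul_apply, ← hj, ← hgj]
  exact (g ^ j).symm_apply_apply z

/-- Modulo `Gal(C/K)`, an inertia generator generates the automorphisms fixing `W`. -/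
theorem exists_pow_fixK {τ : Gp p} (hτ : IsInertia τ) (hprim : IsPrimitiveRoot (τ D.ϖ / D.ϖ) e)
    {σ : Gp p} (hσ : ∀ x ∈ D.W, σ x = x) : ∃ i : ℕ, D.FixK ((τ ^ i)⁻¹ * σ) := by
  set ξ := τ D.ϖ / D.ϖ with hξ
  have hξW : ξ ∈ D.W := D.roots_mem_W hprim.pow_eq_one
  have hτi : ∀ i : ℕ, (∀ x ∈ D.W, (τ ^ i) x = x) ∧ (τ ^ i) D.ϖ = ξ ^ i * D.ϖ := fun i => by
    induction i with
    | zero => simp
    | succ i ih =>
      refine ⟨fun x hx => ?_, ?_⟩
      · rw [pow_succ', AlgEquiv.mul_apply, ih.1 x hx, D.inertia_fix_W hτ hx]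
      · rw [pow_succ', AlgEquiv.mul_apply, ih.2, map_mul, map_pow, D.inertia_fix_W hτ hξW,
          pow_succ, mul_assoc, hξ, div_mul_cancel₀ _ D.varpi_ne_zero]
  have : NeZero e := ⟨D.e_pos.ne'⟩
  obtain ⟨i, -, hi⟩ := hprim.eq_pow_of_pow_eq_one (show (σ D.ϖ / D.ϖ) ^ e = 1 by
    rw [div_pow, ← map_pow, D.pow_eq, map_neg, map_natCast, div_self]
    exact neg_ne_zero.2 (norm_pos_iff.1 norm_natCast_p_pos))
  refine ⟨i, fun x hx => ?_⟩
  have hle : D.K ≤ IntermediateField.adjoin ℚ_[p] ((D.W : Set C) ∪ {D.ϖ}) := by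
    rw [K, IntermediateField.adjoin_union, IntermediateField.adjoin_self]
  refine apply_eq_of_mem_adjoin (fun y hy => ?_) (hle hx)
  rw [AlgEquiv.mul_apply]
  rcases hy with hy | hy
  · rw [hσ y hy]
    conv_lhs => rw [← (hτi i).1 y hy]
    exact (τ ^ i).symm_apply_apply y
  · rw [Set.mem_singleton_iff.1 hy, ← div_mul_cancel₀ (σ D.ϖ) D.varpi_ne_zero, ← hi,
      ← (hτi i).2]
    exact (τ ^ i).symm_apply_apply D.ϖ

/-- If the possible degrees divide `e` away from `p`, `Gal(C/K)` moves the elements of a field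
by less than their norm. -/
theorem norm_sub_lt_of_fixK {N : ℕ} (hN : ∀ d : ℕ, 0 < d → d ≤ N → ¬ p ∣ d → d ∣ e)
    {σ : Gp p} (hσ : D.FixK σ) {y : C} (hy : y ∈ D.F) (hdeg : (minpoly ℚ_[p] y).natDegree ≤ N)
    (h0 : y ≠ 0) : ‖σ y - y‖ < ‖y‖ := by
  have hp : p.Prime := Fact.out
  have := D.finite
  set f := minpoly ℚ_[p] y with hf
  have hint : IsIntegral ℚ_[p] y := (Algebra.IsAlgebraic.isAlgebraic y).isIntegral
  set d := f.natDegree with hd
  -- `‖y‖ ^ d` is a power of `‖p‖`
  have hsplit : (f.map (algebraMap ℚ_[p] C)).Splits := IsAlgClosed.splits _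
  have hcard : (f.aroots C).card = d := by
    rw [hd, ← natDegree_map (algebraMap ℚ_[p] C) (p := f)]
    exact hsplit.natDegree_eq_card_roots.symm
  have h0eval := congrArg norm
    (hsplit.aeval_eq_prod_aroots_of_monic (minpoly.monic hint) (0 : C))
  have hprod : ∀ R : Multiset C, (∀ x ∈ R, ‖x‖ = ‖y‖) →
      ‖(R.map ((0 : C) - ·)).prod‖ = ‖y‖ ^ R.card := by
    intro R
    induction R using Multiset.induction_on with
    | empty => simp
    | cons a R ih =>
      intro hR
      rw [Multiset.map_cons, Multiset.prod_cons, norm_mul, zero_sub, norm_neg,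
        hR a (Multiset.mem_cons_self a R), ih fun b hb => hR b (Multiset.mem_cons_of_mem hb),
        Multiset.card_cons, pow_succ']
  rw [hprod _ fun x hx => by
      obtain ⟨σ', hσ'⟩ := minpoly.exists_algEquiv_of_root' hint.isAlgebraic (mem_aroots.1 hx).2
      rw [← hσ', norm_apply],
    hcard, ← coeff_zero_eq_aeval_zero', norm_algebraMap'] at h0eval
  have hc0 : f.coeff 0 ≠ 0 := minpoly.coeff_zero_ne_zero hint h0
  have hd0 : 0 < d := minpoly.natDegree_pos hint
  -- split off the `p`-part of `d`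
  obtain ⟨a, d', hd', hdd⟩ := Nat.exists_eq_pow_mul_and_not_dvd hd0.ne' p hp.ne_one
  have hd'0 : 0 < d' := Nat.pos_of_ne_zero fun h => hd' (h ▸ dvd_zero p)
  obtain ⟨c, hc⟩ := hN d' hd'0
    ((Nat.le_mul_of_pos_left d' (pow_pos hp.pos a)).trans (hdd ▸ hdeg)) hd'
  set k := (f.coeff 0).valuation * (c : ℤ) with hk
  have hYnorm : ‖y ^ p ^ a‖ = ‖D.ϖ‖ ^ k := by
    have h1 : ‖f.coeff 0‖ = ‖(p : C)‖ ^ (f.coeff 0).valuation := by
      rw [Padic.norm_eq_zpow_neg_valuation hc0, zpow_neg, ← inv_zpow, norm_natCast_p]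
    refine (pow_left_inj₀ (norm_nonneg _) (zpow_nonneg (norm_nonneg _) _) hd'0.ne').1 ?_
    rw [norm_pow, ← pow_mul, ← hdd, ← h0eval, h1, ← D.norm_varpi_pow, ← zpow_natCast ‖D.ϖ‖ e,
      ← zpow_natCast (‖D.ϖ‖ ^ k) d', ← zpow_mul, ← zpow_mul]
    congr 1
    have hcz : (e : ℤ) = (d' : ℤ) * (c : ℤ) := by exact_mod_cast hc
    rw [hk, hcz]
    ring
  set Y := y ^ p ^ a / D.ϖ ^ k with hY
  have hYF : Y ∈ D.F := div_mem (pow_mem hy _) (zpow_mem D.mem k)
  have hY1 : ‖Y‖ = 1 := by
    rw [hY, norm_div, hYnorm, norm_zpow, div_self (zpow_ne_zero _ D.norm_varpi_pos.ne')]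
  obtain ⟨w, hwW, hwY⟩ := D.exists_mem_W_norm_sub_lt hYF hY1.le
  have hσY : ‖σ Y - Y‖ < 1 := by
    rw [show σ Y - Y = (σ Y - σ w) - (Y - w) by rw [hσ w (D.W_le_K hwW)]; ring, ← map_sub]
    refine (norm_sub_le_max _ _).trans_lt ?_
    rwa [norm_apply, max_self]
  set q := σ y / y with hq
  have hy0 : 0 < ‖y‖ := norm_pos_iff.2 h0
  have hq1 : ‖q‖ = 1 := by rw [hq, norm_div, norm_apply, div_self hy0.ne']
  have hY0 : Y ≠ 0 := norm_ne_zero_iff.1 (hY1.trans_ne one_ne_zero)
  have hqY : q ^ p ^ a - 1 = (σ Y - Y) / Y := by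
    rw [hY, map_div₀, map_pow, map_zpow₀, hσ _ D.varpi_mem_K, hq, div_pow, ← sub_div,
      div_div_div_cancel_right₀ (zpow_ne_zero _ D.varpi_ne_zero),
      div_sub_one (pow_ne_zero _ h0)]
  have hlt : ‖q - 1‖ < 1 := norm_sub_one_lt_of_pow hq1.le a (by
    rw [hqY, norm_div, hY1, div_one]; exact hσY)
  rw [show σ y - y = y * (q - 1) by rw [hq, mul_sub, mul_div_cancel₀ _ h0, mul_one], norm_mul]
  exact mul_lt_of_lt_one_right hy0 hlt

end TameField

end Fermat.Agent.FlatLocal
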