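import Fermat.Agent.FlatLocal.Roots
import Mathlib.LinearAlgebra.Dual.Lemmas
import Mathlib.FieldTheory.Finiteness
import Mathlib.Algebra.Module.ZMod

/-!
# Characters of a module with an integral model

The coefficients of a character in the basis of a model are integral (this is Cartier duality),
and the space of coefficient vectors maps injectively, multiplicatively, into the functions on
the dual group.
-/

set_option autoImplicit false

noncomputable section

open Finset

namespace Fermat.Agent.FlatLocal

variable {p : ℕ} [hp : Fact p.Prime]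
variable {M : Type} [AddCommGroup M] [DistribMulAction (Gp p) M]

local notation "C" => PadicAlgCl p

variable (p) in
/-- A fixed primitive `p`-th root of unity in `C`. -/
def zetaC : C := (HasEnoughRootsOfUnity.exists_primitiveRoot C p).choose

theorem zetaC_spec : IsPrimitiveRoot (zetaC p) p :=
  (HasEnoughRootsOfUnity.exists_primitiveRoot C p).choose_spec

/-- An elementary abelian group has as many homomorphisms to `ZMod p` as elements. -/
theorem natCard_addHom_zmod (V : Type) [AddCommGroup V] [Module (ZMod p) V] [Finite V] :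
    Nat.card (V →+ ZMod p) = Nat.card V := by
  obtain ⟨ι, ⟨β⟩⟩ : ∃ ι : Type, Nonempty (Module.Basis ι (ZMod p) V) :=
    ⟨_, ⟨Module.Basis.ofVectorSpace (ZMod p) V⟩⟩
  have : Finite ι := Finite.of_injective (fun i => β i) β.injective
  let : Fintype ι := Fintype.ofFinite ι
  have h1 : Nat.card (V →+ ZMod p) = Nat.card (ι → ZMod p) := by
    refine Nat.card_congr (Equiv.ofBijective (fun f i => f (β i)) ⟨fun f g h => ?_, fun g => ?_⟩)
    · have h2 : f.toZModLinearMap p = g.toZModLinearMap p := β.ext fun i => congrFun h i
      exact AddMonoidHom.toZModLinearMap_injective p h2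
    · exact ⟨(β.constr ℕ g).toAddMonoidHom, funext fun i => β.constr_basis ℕ g i⟩
  rw [h1, Nat.card_congr β.equivFun.toEquiv]

namespace Model

variable (T : Model p M)

/-- The `𝔽_p`-vector space structure of a module killed by `p`. -/
@[reducible] def zmodModule : Module (ZMod p) M := AddCommGroup.zmodModule T.exponent

/-- The dual group. -/
abbrev Dual : Type := M →+ ZMod p

variable {T}

omit T in
/-- The character attached to an element of the dual group. -/
def char (f : M →+ ZMod p) (m : M) : C := zetaC p ^ (f m).val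

omit T in
omit [DistribMulAction (Gp p) M] in
theorem char_pow (f : M →+ ZMod p) (m : M) : (char f m : C) ^ p = 1 := by
  rw [char, ← pow_mul, mul_comm, pow_mul, zetaC_spec.pow_eq_one, one_pow]

omit [DistribMulAction (Gp p) M] in
theorem zetaC_pow_natCast (n : ℕ) : zetaC p ^ ((n : ZMod p)).val = zetaC p ^ n := by
  rw [ZMod.val_natCast, ← pow_eq_pow_mod n zetaC_spec.pow_eq_one]

omit [DistribMulAction (Gp p) M] in
theorem char_zero (f : M →+ ZMod p) : (char f 0 : C) = 1 := by
  rw [char, map_zero, ZMod.val_zero, pow_zero]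

omit [DistribMulAction (Gp p) M] in
theorem zetaC_pow_val_add (a b : ZMod p) :
    zetaC p ^ (a + b).val = zetaC p ^ a.val * zetaC p ^ b.val := by
  rw [← pow_add, ← zetaC_pow_natCast (a.val + b.val), Nat.cast_add, ZMod.natCast_val,
    ZMod.natCast_val, ZMod.cast_id, ZMod.cast_id]

omit [DistribMulAction (Gp p) M] in
theorem char_add (f : M →+ ZMod p) (x y : M) : (char f (x + y) : C) = char f x * char f y := by
  rw [char, map_add, zetaC_pow_val_add, char, char]

omit [DistribMulAction (Gp p) M] in
theorem char_add_left (f g : M →+ ZMod p) (m : M) :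
    (char (f + g) m : C) = char f m * char g m := by
  rw [char, AddMonoidHom.add_apply, zetaC_pow_val_add, char, char]

omit [DistribMulAction (Gp p) M] in
theorem char_injective : Function.Injective (char : (M →+ ZMod p) → (M → C)) := by
  intro f g h
  ext m
  exact ZMod.val_injective p
    (zetaC_spec.pow_inj (ZMod.val_lt _) (ZMod.val_lt _) (congrFun h m))

variable (T)

/-- The basis given by the model. -/
def basis : Module.Basis (Fin T.n) C (M → C) :=
  Module.Basis.mk T.linearIndependent (le_of_eq T.span_eq_top.symm)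

theorem basis_apply (i : Fin T.n) : T.basis i = T.b i := Module.Basis.mk_apply _ _ i

/-- Uniqueness of coefficients. -/
theorem coeff_unique {a a' : Fin T.n → C} (h : ∀ m, ∑ i, a i * T.b i m = ∑ i, a' i * T.b i m) :
    a = a' := by
  have h0 : ∑ i, (a i - a' i) • T.b i = 0 := by
    funext m
    simp [Finset.sum_apply, sub_mul, Finset.sum_sub_distrib, h m]
  funext i
  exact sub_eq_zero.mp (Fintype.linearIndependent_iff.mp T.linearIndependent _ h0 i)

/-- The coefficients of a character. -/
def cCoeff (f : M →+ ZMod p) (i : Fin T.n) : C := T.basis.repr (char f) i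

theorem sum_cCoeff (f : M →+ ZMod p) (m : M) :
    ∑ i, T.cCoeff f i * T.b i m = char f m := by
  have h := congrFun (T.basis.sum_repr (char f)) m
  simp only [Finset.sum_apply, Pi.smul_apply, smul_eq_mul, basis_apply] at h
  exact h

/-- Coefficient vectors of functions of two variables are unique. -/
theorem coeff_unique₂ {a a' : Fin T.n → Fin T.n → C}
    (h : ∀ x y, ∑ j, ∑ l, a j l * (T.b j x * T.b l y) = ∑ j, ∑ l, a' j l * (T.b j x * T.b l y)) :
    a = a' := by
  have key : ∀ y, (fun j => ∑ l, a j l * T.b l y) = fun j => ∑ l, a' j l * T.b l y :=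
    fun y => T.coeff_unique fun x => by
      refine Eq.trans ?_ ((h x y).trans ?_) <;>
        refine Finset.sum_congr rfl fun j _ => ?_ <;> rw [Finset.sum_mul] <;>
        refine Finset.sum_congr rfl fun l _ => ?_ <;> ring
  funext j l
  exact congrFun (T.coeff_unique fun y => congrFun (key y) j) l

theorem cCoeff_mul (f : M →+ ZMod p) (j l : Fin T.n) :
    ∑ i, T.cCoeff f i * cst (T.addCoeff i j l) = T.cCoeff f j * T.cCoeff f l := by
  refine congrFun (congrFun (T.coeff_unique₂ (a := fun j l => ∑ i, T.cCoeff f i * cst (T.addCoeff i j l))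
    (a' := fun j l => T.cCoeff f j * T.cCoeff f l) fun x y => ?_) j) l
  calc ∑ j, ∑ l, (∑ i, T.cCoeff f i * cst (T.addCoeff i j l)) * (T.b j x * T.b l y)
      = ∑ i, T.cCoeff f i * T.b i (x + y) := by
        simp only [T.add_eq, Finset.mul_sum, Finset.sum_mul, mul_assoc]
        exact (Finset.sum_congr rfl fun j _ => Finset.sum_comm).trans Finset.sum_comm
    _ = (∑ j, T.cCoeff f j * T.b j x) * ∑ l, T.cCoeff f l * T.b l y := by
        rw [sum_cCoeff, sum_cCoeff, sum_cCoeff, char_add]
    _ = ∑ j, ∑ l, (T.cCoeff f j * T.cCoeff f l) * (T.b j x * T.b l y) := by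
        rw [Finset.sum_mul_sum]
        refine Finset.sum_congr rfl fun j _ => Finset.sum_congr rfl fun l _ => ?_
        ring

theorem norm_cCoeff_le (f : M →+ ZMod p) (i : Fin T.n) : ‖T.cCoeff f i‖ ≤ 1 := by
  obtain ⟨j, -, hj⟩ := Finset.exists_max_image (Finset.univ : Finset (Fin T.n))
    (fun i => ‖T.cCoeff f i‖) ⟨i, mem_univ i⟩
  refine (hj i (mem_univ i)).trans ?_
  by_contra! hlt
  have hle : ‖T.cCoeff f j * T.cCoeff f j‖ ≤ ‖T.cCoeff f j‖ := by
    rw [← T.cCoeff_mul f j j]
    refine IsUltrametricDist.norm_sum_le_of_forall_le_of_nonneg (norm_nonneg _) fun i' hi' => ?_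
    rw [norm_mul]
    exact (mul_le_of_le_one_right (norm_nonneg _) (norm_cst_le _)).trans (hj i' hi')
  rw [norm_mul] at hle
  nlinarith

variable [Finite M]

include T in
theorem span_char : Submodule.span C (Set.range (char : (M →+ ZMod p) → (M → C))) = ⊤ := by
  classical
  have hM : Fintype M := Fintype.ofFinite M
  let : Module (ZMod p) M := zmodModule T
  have : Finite (M →+ ZMod p) := Finite.of_injective _ (DFunLike.coe_injective)
  let : Fintype (M →+ ZMod p) := Fintype.ofFinite _
  have hind : LinearIndependent C (char : (M →+ ZMod p) → (M → C)) := by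
    let Φ : (M →+ ZMod p) → (Multiplicative M →* C) := fun f =>
      { toFun := fun m => char f m.toAdd
        map_one' := char_zero f
        map_mul' := fun x y => char_add f x.toAdd y.toAdd }
    have hΦ : Function.Injective Φ := fun f g h => char_injective (by
      funext m; exact DFunLike.congr_fun h (Multiplicative.ofAdd m))
    exact (linearIndependent_monoidHom (Multiplicative M) C).comp Φ hΦ
  refine hind.span_eq_top_of_card_eq_finrank' ?_
  have hcard : Nat.card (M →+ ZMod p) = Nat.card M := by
    exact natCard_addHom_zmod (p := p) M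
  rw [Module.finrank_fintype_fun_eq_card, ← Nat.card_eq_fintype_card, hcard,
    Nat.card_eq_fintype_card]

/-- The coefficient vector as a function on the dual group. -/
def ev : (Fin T.n → C) →ₗ[C] ((M →+ ZMod p) → C) where
  toFun a f := ∑ i, T.cCoeff f i * a i
  map_add' a a' := by funext f; simp [mul_add, Finset.sum_add_distrib]
  map_smul' c a := by funext f; simp [Finset.mul_sum, mul_left_comm]

omit [Finite M] in
theorem ev_apply (a : Fin T.n → C) (f : M →+ ZMod p) : T.ev a f = ∑ i, T.cCoeff f i * a i := rfl

omit [Finite M] in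
theorem ev_b (m : M) (f : M →+ ZMod p) : T.ev (fun i => T.b i m) f = char f m := T.sum_cCoeff f m

theorem ev_injective : Function.Injective T.ev := by
  rw [← LinearMap.ker_eq_bot, LinearMap.ker_eq_bot']
  intro a ha
  let L : (M → C) →ₗ[C] C := T.basis.constr C a
  have hL : L = 0 := LinearMap.ext_on_range (span_char T) fun f => by
    rw [LinearMap.zero_apply, Module.Basis.constr_apply_fintype]
    simpa [Module.Basis.equivFun_apply, cCoeff, ev_apply] using congrFun ha f
  funext i
  have := DFunLike.congr_fun hL (T.basis i)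
  rwa [Module.Basis.constr_basis, LinearMap.zero_apply] at this

/-- A bound for the inverse of `ev`. -/
theorem exists_ev_bound : ∃ D : ℝ, 0 < D ∧ ∀ (a : Fin T.n → C) (s : ℝ), 0 ≤ s →
    (∀ f, ‖T.ev a f‖ ≤ s) → ∀ i, ‖a i‖ ≤ D * s := by
  classical
  have : Finite (M →+ ZMod p) := Finite.of_injective _ (DFunLike.coe_injective)
  let : Fintype (M →+ ZMod p) := Fintype.ofFinite _
  obtain ⟨G, hG⟩ := T.ev.exists_leftInverse_of_injective (LinearMap.ker_eq_bot.mpr T.ev_injective)
  refine ⟨1 + ∑ i, ∑ f, ‖G (Pi.single f 1) i‖, by positivity, fun a s hs h i => ?_⟩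
  have ha : a i = ∑ f, T.ev a f * G (Pi.single f 1) i := by
    conv_lhs => rw [show a = G (T.ev a) from (DFunLike.congr_fun hG a).symm,
      pi_eq_sum_univ' (T.ev a)]
    simp [map_sum]
  rw [ha]
  refine IsUltrametricDist.norm_sum_le_of_forall_le_of_nonneg (by positivity) fun f _ => ?_
  rw [norm_mul, mul_comm (1 + _) s]
  refine mul_le_mul (h f) ?_ (norm_nonneg _) hs
  have h1 : ‖G (Pi.single f 1) i‖ ≤ ∑ i, ∑ f, ‖G (Pi.single f 1) i‖ :=
    (Finset.single_le_sum (f := fun f => ‖G (Pi.single f 1) i‖) (fun _ _ => norm_nonneg _)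
      (mem_univ f)).trans (Finset.single_le_sum (f := fun i => ∑ f, ‖G (Pi.single f 1) i‖)
      (fun _ _ => sum_nonneg fun _ _ => norm_nonneg _) (mem_univ i))
  linarith

omit [Finite M] in
/-- The convolution of coefficient vectors. -/
def conv (a a' : Fin T.n → C) (i : Fin T.n) : C :=
  ∑ j, ∑ l, cst (T.addCoeff i j l) * (a j * a' l)

omit [Finite M] in
theorem ev_conv (a a' : Fin T.n → C) (f : M →+ ZMod p) :
    T.ev (T.conv a a') f = T.ev a f * T.ev a' f := by
  calc T.ev (T.conv a a') f
      = ∑ j, ∑ l, (∑ i, T.cCoeff f i * cst (T.addCoeff i j l)) * (a j * a' l) := by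
        simp only [ev_apply, conv, Finset.mul_sum, Finset.sum_mul, mul_assoc]
        exact Finset.sum_comm.trans (Finset.sum_congr rfl fun j _ => Finset.sum_comm)
    _ = T.ev a f * T.ev a' f := by
        simp only [cCoeff_mul, ev_apply, Finset.sum_mul_sum]
        refine Finset.sum_congr rfl fun j _ => Finset.sum_congr rfl fun l _ => ?_
        ring

end Model

end Fermat.Agent.FlatLocal
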