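import Fermat.Agent.FlatLocal.Lifting
import Fermat.Agent.FlatLocal.Engine.Field

/-!
# The connected part of a model and the tame inertia exponents

`connected T`: the points congruent to the origin. Tame inertia acts on a nonzero stable group
of connected points fixed by `Gal(C/K)` through a power `θ ^ l` with `1 ≤ l ≤ e / (p - 1)`.
-/

set_option autoImplicit false

noncomputable section

open Finset

namespace Fermat.Agent.FlatLocal

open Engine

variable {p : ℕ} [hp : Fact p.Prime] {e : ℕ}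

local notation "C" => PadicAlgCl p

theorem norm_sum_lt_one {ι : Type} (s : Finset ι) {f : ι → C} (h : ∀ i, ‖f i‖ < 1) :
    ‖∑ i ∈ s, f i‖ < 1 := by
  classical
  induction s using Finset.induction_on with
  | empty => simp
  | insert a t ha ih =>
    rw [Finset.sum_insert ha]
    exact (IsUltrametricDist.norm_add_le_max _ _).trans_lt (max_lt (h a) ih)

variable {M : Type} [AddCommGroup M] [DistribMulAction (Gp p) M]

namespace Model

variable (T : Model p M)

/-- The difference of a function from its value at the origin. -/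
def coord (i : Fin T.n) (m : M) : C := T.b i m - T.b i 0

theorem coord_zero (i : Fin T.n) : T.coord i 0 = 0 := sub_self _

theorem norm_coord_le (i : Fin T.n) (m : M) : ‖T.coord i m‖ ≤ 1 := by
  rw [coord, sub_eq_add_neg]
  exact (IsUltrametricDist.norm_add_le_max _ _).trans
    (max_le (T.norm_le i m) (by rw [norm_neg]; exact T.norm_le i 0))

theorem coord_smul (i : Fin T.n) (σ : Gp p) (m : M) : T.coord i (σ • m) = σ (T.coord i m) := by
  rw [coord, coord, map_sub, T.equivariant, ← T.equivariant i σ 0, smul_zero]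

theorem coord_add (i : Fin T.n) (x y : M) : T.coord i (x + y) = T.coord i x + T.coord i y +
    ∑ j, ∑ l, cst (T.addCoeff i j l) * (T.coord j x * T.coord l y) := by
  have hx := T.add_eq i x 0
  have hy := T.add_eq i 0 y
  have h0 := T.add_eq i 0 0
  rw [add_zero] at hx h0
  rw [zero_add] at hy
  have hsum : (∑ j, ∑ l, cst (T.addCoeff i j l) * (T.coord j x * T.coord l y)) =
      ((∑ j, ∑ l, cst (T.addCoeff i j l) * (T.b j x * T.b l y)) -
        ∑ j, ∑ l, cst (T.addCoeff i j l) * (T.b j x * T.b l 0)) -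
      ((∑ j, ∑ l, cst (T.addCoeff i j l) * (T.b j 0 * T.b l y)) -
        ∑ j, ∑ l, cst (T.addCoeff i j l) * (T.b j 0 * T.b l 0)) := by
    simp only [← Finset.sum_sub_distrib]
    refine Finset.sum_congr rfl fun j _ => Finset.sum_congr rfl fun l _ => ?_
    rw [coord, coord]
    ring
  rw [hsum, ← hx, ← hy, ← h0, ← T.add_eq i x y, coord, coord, coord]
  ring

theorem norm_correction_le {x y : M} {s t : ℝ} (hs : 0 ≤ s) (ht : 0 ≤ t)
    (hx : ∀ i, ‖T.coord i x‖ ≤ s) (hy : ∀ i, ‖T.coord i y‖ ≤ t) (i : Fin T.n) :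
    ‖∑ j, ∑ l, cst (T.addCoeff i j l) * (T.coord j x * T.coord l y)‖ ≤ s * t :=
  IsUltrametricDist.norm_sum_le_of_forall_le_of_nonneg (mul_nonneg hs ht) fun j _ =>
    IsUltrametricDist.norm_sum_le_of_forall_le_of_nonneg (mul_nonneg hs ht) fun l _ =>
      norm_mul_le_right (norm_cst_le _) (by
        rw [norm_mul]
        exact mul_le_mul (hx j) (hy l) (norm_nonneg _) hs)

theorem norm_coord_add_le {x y : M} {s : ℝ} (hs : 0 ≤ s) (hs1 : s ≤ 1)
    (hx : ∀ i, ‖T.coord i x‖ ≤ s) (hy : ∀ i, ‖T.coord i y‖ ≤ s) (i : Fin T.n) :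
    ‖T.coord i (x + y)‖ ≤ s := by
  rw [T.coord_add]
  refine (IsUltrametricDist.norm_add_le_max _ _).trans (max_le
    ((IsUltrametricDist.norm_add_le_max _ _).trans (max_le (hx i) (hy i))) ?_)
  exact (T.norm_correction_le hs hs hx hy i).trans (mul_le_of_le_one_right hs hs1)

theorem norm_coord_add_lt {x y : M} (hx : ∀ i, ‖T.coord i x‖ < 1) (hy : ∀ i, ‖T.coord i y‖ < 1)
    (i : Fin T.n) : ‖T.coord i (x + y)‖ < 1 := by
  classical
  let S := (Finset.univ.image fun i => ‖T.coord i x‖) ∪ (Finset.univ.image fun i => ‖T.coord i y‖)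
  have hne : S.Nonempty := ⟨_, Finset.mem_union_left _ (Finset.mem_image_of_mem _ (Finset.mem_univ i))⟩
  have hlt : S.max' hne < 1 := by
    rw [Finset.max'_lt_iff]
    intro r hr
    rcases Finset.mem_union.1 hr with hr | hr <;>
      obtain ⟨j, -, rfl⟩ := Finset.mem_image.1 hr
    · exact hx j
    · exact hy j
  have h0 : 0 ≤ S.max' hne :=
    (norm_nonneg _).trans (Finset.le_max' S _ (Finset.mem_union_left _
      (Finset.mem_image_of_mem (fun i => ‖T.coord i x‖) (Finset.mem_univ i))))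
  exact (T.norm_coord_add_le h0 hlt.le
    (fun j => Finset.le_max' S _ (Finset.mem_union_left _
      (Finset.mem_image_of_mem (fun i => ‖T.coord i x‖) (Finset.mem_univ j))))
    (fun j => Finset.le_max' S _ (Finset.mem_union_right _
      (Finset.mem_image_of_mem (fun i => ‖T.coord i y‖) (Finset.mem_univ j)))) i).trans_lt hlt

theorem nsmul_pred_eq_neg (T : Model p M) (m : M) : (p - 1) • m = -m := by
  refine eq_neg_of_add_eq_zero_left ?_
  rw [← succ_nsmul, Nat.sub_add_cancel hp.out.one_le, T.exponent]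

/-- The connected part: the points congruent to the origin. -/
def connected : AddSubgroup M where
  carrier := {m | ∀ i, ‖T.coord i m‖ < 1}
  zero_mem' i := by rw [coord_zero, norm_zero]; exact zero_lt_one
  add_mem' hx hy := T.norm_coord_add_lt hx hy
  neg_mem' {m} hm := by
    rw [← T.nsmul_pred_eq_neg]
    have hmul : ∀ n : ℕ, ∀ i, ‖T.coord i (n • m)‖ < 1 := by
      intro n
      induction n with
      | zero => intro i; rw [zero_nsmul, coord_zero, norm_zero]; exact zero_lt_one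
      | succ n ih => rw [succ_nsmul]; exact T.norm_coord_add_lt ih hm
    exact hmul _

theorem mem_connected {m : M} : m ∈ T.connected ↔ ∀ i, ‖T.coord i m‖ < 1 := Iff.rfl

theorem smul_mem_connected (σ : Gp p) {m : M} (hm : m ∈ T.connected) : σ • m ∈ T.connected :=
  fun i => by rw [T.coord_smul, norm_algEquiv]; exact hm i

/-- An automorphism moving the values at `m` by less than one moves `m` inside the connected
part. -/
theorem smul_sub_mem_connected {σ : Gp p} {m : M} (h : ∀ i, ‖σ (T.b i m) - T.b i m‖ < 1) :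
    σ • m - m ∈ T.connected := by
  intro i
  rw [coord, show T.b i 0 = T.b i (m + -m) by rw [add_neg_cancel],
    show σ • m - m = σ • m + -m from sub_eq_add_neg _ _, T.add_eq,
    T.add_eq, ← Finset.sum_sub_distrib]
  refine norm_sum_lt_one _ fun j => ?_
  rw [← Finset.sum_sub_distrib]
  refine norm_sum_lt_one _ fun l => ?_
  rw [← mul_sub, ← sub_mul, norm_mul, norm_mul, T.equivariant]
  calc _ ≤ 1 * (‖σ (T.b j m) - T.b j m‖ * 1) :=
        mul_le_mul (norm_cst_le _) (mul_le_mul_of_nonneg_left (T.norm_le l _) (norm_nonneg _))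
          (mul_nonneg (norm_nonneg _) (norm_nonneg _)) zero_le_one
    _ < 1 := by rw [one_mul, mul_one]; exact h j

/-- A nonzero point is not too close to the origin. -/
theorem exists_norm_p_le_coord_pow [Finite M] {m : M} (hm : m ≠ 0) :
    ∃ i, ‖(p : C)‖ ≤ ‖T.coord i m‖ ^ (p - 1) := by
  by_contra! hall
  have hpn : 0 < ‖(p : C)‖ := FlatLocal.norm_p_pos
  rcases isEmpty_or_nonempty (Fin T.n) with hemp | hne
  · exact hm (T.eq_of_norm_sub_le (r := 0) ⟨le_rfl, by
      rw [zero_div, zero_pow (Nat.sub_ne_zero_of_lt hp.out.one_lt)]; exact hpn⟩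
      fun i => hemp.elim i)
  obtain ⟨j, -, hj⟩ := Finset.exists_max_image (Finset.univ : Finset (Fin T.n))
    (fun i => ‖T.coord i m‖) Finset.univ_nonempty
  have hr' : IsSmallRadius p (‖T.coord j m‖ * ‖(p : C)‖) := by
    refine ⟨mul_nonneg (norm_nonneg _) hpn.le, ?_⟩
    rw [mul_div_cancel_right₀ _ hpn.ne']
    exact hall j
  exact hm (T.eq_of_norm_sub_le hr' fun i => by
    rw [mul_div_cancel_right₀ _ hpn.ne']
    exact hj i (Finset.mem_univ i))

end Model

/-- The action of an element as an endomorphism. -/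
def actEnd (σ : Gp p) : AddMonoid.End M := DistribMulAction.toAddMonoidEnd (Gp p) M σ

theorem actEnd_apply (σ : Gp p) (m : M) : actEnd σ m = σ • m := rfl

/-- Tame inertia on connected points fixed by `Gal(C/K)`: an exponent `1 ≤ l ≤ e / (p - 1)`. -/
theorem Model.exists_exponent [Finite M] (T : Model p M) (D : TameField p e) {τ : Gp p}
    (hτ : IsInertia τ) (V : AddSubgroup M) (hV : ∃ m ∈ V, m ≠ 0)
    (hVτ : ∀ m ∈ V, τ • m ∈ V) (hVc : V ≤ T.connected)
    (hVK : ∀ m ∈ V, ∀ σ : Gp p, D.FixK σ → σ • m = m) :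
    ∃ l : ℕ, 1 ≤ l ∧ l ≤ top D ∧ ∀ P : Polynomial ℤ,
      (∀ m ∈ V, Polynomial.aeval (actEnd (M := M) τ) P m = 0) →
        Polynomial.aeval (res (xi D τ) ^ l) P = 0 := by
  classical
  cases nonempty_fintype M
  have hp1 : p - 1 ≠ 0 := Nat.sub_ne_zero_of_lt hp.out.one_lt
  have hcoord : ∀ m ∈ V, ∀ i, T.coord i m ∈ D.K := fun m hm i =>
    mem_K_of_fix D fun σ hσ => by rw [← T.coord_smul, hVK m hm σ hσ]
  obtain ⟨m₁, hm₁, hm₁0⟩ := hV
  have : Nonempty (Fin T.n) := ⟨(T.exists_norm_p_le_coord_pow hm₁0).choose⟩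
  let N : M → ℝ := fun m => Finset.univ.sup' Finset.univ_nonempty fun i => ‖T.coord i m‖
  have hN : ∀ m i, ‖T.coord i m‖ ≤ N m := fun m i =>
    Finset.le_sup' (fun i => ‖T.coord i m‖) (Finset.mem_univ i)
  obtain ⟨m₀, hm₀, hmin⟩ := Finset.exists_min_image
    (Finset.univ.filter fun m => m ∈ V ∧ m ≠ 0) N ⟨m₁, by simp [hm₁, hm₁0]⟩
  simp only [Finset.mem_filter, Finset.mem_univ, true_and] at hm₀ hmin
  obtain ⟨i₀, -, hi₀⟩ := Finset.exists_mem_eq_sup' (Finset.univ_nonempty (α := Fin T.n))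
    fun i => ‖T.coord i m₀‖
  set s := N m₀ with hs
  have hsi : s = ‖T.coord i₀ m₀‖ := hi₀
  obtain ⟨i₁, hi₁⟩ := T.exists_norm_p_le_coord_pow hm₀.2
  have hgap : ‖(p : C)‖ ≤ s ^ (p - 1) :=
    hi₁.trans (pow_le_pow_left₀ (norm_nonneg _) (hN m₀ i₁) _)
  have hs0 : T.coord i₀ m₀ ≠ 0 := by
    intro h0
    rw [hsi, h0, norm_zero, zero_pow hp1] at hgap
    exact absurd hgap (not_le.2 FlatLocal.norm_p_pos)
  obtain ⟨l, hl⟩ := exists_norm_eq D (hcoord m₀ hm₀.1 i₀) hs0 (T.norm_coord_le i₀ m₀)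
  rw [← hsi] at hl
  have hs1 : s < 1 := hsi ▸ hVc hm₀.1 i₀
  have hl1 : 1 ≤ l := Nat.one_le_iff_ne_zero.2 fun h => by
    rw [h, pow_zero] at hl
    exact hs1.ne hl
  have hltop : l ≤ top D := by
    rw [hl, ← pow_mul, ← D.norm_varpi_pow] at hgap
    refine Nat.le_of_mul_le_mul_right ?_ (Nat.pos_of_ne_zero hp1)
    rw [top_mul]
    exact not_lt.1 fun h => absurd hgap (not_le.2 ((varpi_pow_lt_iff D).2 h))
  have hspos : 0 < s := hl ▸ pow_pos (Engine.norm_varpi_pos D) l
  let W : Set M := {m | m ∈ V ∧ ∀ i, ‖T.coord i m‖ ≤ s}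
  have hW0 : (0 : M) ∈ W := ⟨V.zero_mem, fun i => by rw [T.coord_zero, norm_zero]; exact hspos.le⟩
  have hWadd : ∀ a ∈ W, ∀ b ∈ W, a + b ∈ W := fun a ha b hb =>
    ⟨V.add_mem ha.1 hb.1, T.norm_coord_add_le hspos.le hs1.le ha.2 hb.2⟩
  have hWτ : ∀ a ∈ W, τ • a ∈ W := fun a ha =>
    ⟨hVτ a ha.1, fun i => by rw [T.coord_smul, norm_algEquiv]; exact ha.2 i⟩
  let w : M → Res p := fun m => res (T.coord i₀ m / D.ϖ ^ l)
  have hdiv : ∀ a ∈ W, ‖T.coord i₀ a / D.ϖ ^ l‖ ≤ 1 := fun a ha => by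
    rw [norm_div, norm_pow, ← hl]
    exact div_le_one_of_le₀ (ha.2 i₀) hspos.le
  have hw0 : w 0 = 0 := by
    show res (T.coord i₀ 0 / D.ϖ ^ l) = 0
    rw [T.coord_zero, zero_div, res_zero]
  have hwadd : ∀ a ∈ W, ∀ b ∈ W, w (a + b) = w a + w b := by
    intro a ha b hb
    set E := ∑ j, ∑ l', cst (T.addCoeff i₀ j l') * (T.coord j a * T.coord l' b) with hE
    have hElt : ‖E / D.ϖ ^ l‖ < 1 := by
      rw [norm_div, norm_pow, ← hl, div_lt_one hspos]
      exact (T.norm_correction_le hspos.le hspos.le ha.2 hb.2 i₀).trans_lt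
        (mul_lt_of_lt_one_right hspos hs1)
    show res (T.coord i₀ (a + b) / D.ϖ ^ l) = _
    rw [T.coord_add, ← hE, add_div, add_div, res_add ((IsUltrametricDist.norm_add_le_max _ _).trans
      (max_le (hdiv a ha) (hdiv b hb))) hElt.le, (res_eq_zero_iff hElt.le).2 hElt, add_zero,
      res_add (hdiv a ha) (hdiv b hb)]
  have hwτ : ∀ a ∈ W, w (τ • a) = res (xi D τ) ^ l * w a := by
    intro a ha
    have hϖ : τ D.ϖ = xi D τ * D.ϖ := by
      rw [xi, div_mul_cancel₀ _ (Engine.varpi_ne_zero D)]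
    have hx : T.coord i₀ (τ • a) / D.ϖ ^ l =
        τ (T.coord i₀ a / D.ϖ ^ l) * xi D τ ^ l := by
      have h1 : τ D.ϖ ≠ 0 := by simp [Engine.varpi_ne_zero D]
      rw [T.coord_smul, map_div₀, map_pow, hϖ, mul_pow]
      field_simp [Engine.varpi_ne_zero D]
      rw [hϖ] at h1
      field_simp [(mul_ne_zero_iff.1 h1).1]
    show res (T.coord i₀ (τ • a) / D.ϖ ^ l) = _
    rw [hx, res_mul (by rw [norm_algEquiv]; exact hdiv a ha)
      (by rw [norm_pow, norm_xi, one_pow]), res_inertia hτ (hdiv a ha),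
      res_pow (norm_xi D τ).le, mul_comm]
  have hWn : ∀ (n : ℕ) a, a ∈ W → n • a ∈ W ∧ w (n • a) = (n : Res p) * w a := by
    intro n a ha
    induction n with
    | zero => simpa [hw0] using hW0
    | succ n ih =>
      rw [succ_nsmul]
      exact ⟨hWadd _ ih.1 _ ha, by rw [hwadd _ ih.1 _ ha, ih.2]; push_cast; ring⟩
  have hWz : ∀ (c : ℤ) a, a ∈ W → c • a ∈ W ∧ w (c • a) = (c : Res p) * w a := by
    intro c a ha
    have hn : ((c : ZMod p).val : ℤ) • a = c • a := by
      rw [← sub_eq_zero, ← sub_smul]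
      obtain ⟨q, hq⟩ : (p : ℤ) ∣ ((c : ZMod p).val : ℤ) - c :=
        (ZMod.intCast_zmod_eq_zero_iff_dvd _ p).1 (by simp)
      rw [hq, mul_comm, mul_smul, natCast_zsmul, T.exponent, zsmul_zero]
    rw [← hn, natCast_zsmul]
    refine ⟨(hWn _ a ha).1, (hWn _ a ha).2.trans ?_⟩
    congr 1
    have h1 := congrArg (ZMod.castHom (dvd_refl p) (Res p)) (ZMod.natCast_zmod_val (c : ZMod p))
    rwa [map_natCast, map_intCast] at h1
  have hWτn : ∀ (n : ℕ) a, a ∈ W → (actEnd (M := M) τ ^ n) a ∈ W ∧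
      w ((actEnd (M := M) τ ^ n) a) = (res (xi D τ) ^ l) ^ n * w a := by
    intro n a ha
    induction n with
    | zero => exact ⟨ha, by simp⟩
    | succ n ih =>
      rw [pow_succ']
      exact ⟨hWτ _ ih.1, (hwτ _ ih.1).trans (by rw [ih.2, pow_succ', mul_assoc])⟩
  have hWP : ∀ (P : Polynomial ℤ) a, a ∈ W → Polynomial.aeval (actEnd (M := M) τ) P a ∈ W ∧
      w (Polynomial.aeval (actEnd (M := M) τ) P a) =
        Polynomial.aeval (res (xi D τ) ^ l) P * w a := by
    intro P a ha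
    induction P using Polynomial.induction_on' with
    | add P Q hP hQ =>
      rw [map_add, map_add, add_mul]
      exact ⟨hWadd _ hP.1 _ hQ.1, (hwadd _ hP.1 _ hQ.1).trans (by rw [hP.2, hQ.2])⟩
    | monomial n c =>
      rw [Polynomial.aeval_monomial, Polynomial.aeval_monomial]
      have h1 := hWτn n a ha
      have h2 := hWz c _ h1.1
      have heq : (algebraMap ℤ (AddMonoid.End M) c * actEnd (M := M) τ ^ n) a =
          c • (actEnd (M := M) τ ^ n) a := by
        rw [← Algebra.smul_def]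
        rfl
      rw [heq]
      exact ⟨h2.1, by rw [h2.2, h1.2, eq_intCast]; ring⟩
  refine ⟨l, hl1, hltop, fun P hP => ?_⟩
  have h1 := (hWP P m₀ ⟨hm₀.1, hN m₀⟩).2
  rw [hP m₀ hm₀.1, hw0] at h1
  refine (mul_eq_zero.1 h1.symm).resolve_right (res_ne_zero ?_)
  rw [norm_div, norm_pow, ← hl, ← hsi, div_self hspos.ne']

end Fermat.Agent.FlatLocal
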