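import Fermat.Agent.FlatLocal.Tame

/-!
# `p`-th roots near `1`, and a unit whose `p`-th roots leave a given field
-/

set_option autoImplicit false

noncomputable section

namespace Fermat.Agent.FlatLocal

open Fermat.Agent.ClassField Polynomial

variable {p : ℕ} [Fact p.Prime]

local notation "C" => PadicAlgCl p

/-- `(t + 1) ^ p - 1 = t ^ p + p t S` with `S ≡ 1` modulo `t`. -/
theorem exists_add_one_pow {t : PadicAlgCl p} (ht : ‖t‖ ≤ 1) :
    ∃ S : C, (t + 1) ^ p - 1 = t ^ p + (p : C) * t * S ∧ ‖S - 1‖ ≤ ‖t‖ ∧ ‖S‖ ≤ 1 := by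
  have hp : p.Prime := Fact.out
  set S := ∑ i ∈ Finset.Ioo 0 p, t ^ (i - 1) * (1 : C) ^ (p - i - 1) * ((p.choose i / p : ℕ) : C)
    with hSdef
  have hterm : ∀ i : ℕ, ‖t ^ (i - 1) * (1 : C) ^ (p - i - 1) * ((p.choose i / p : ℕ) : C)‖ ≤
      ‖t‖ ^ (i - 1) := fun i => by
    rw [norm_mul, one_pow, mul_one, norm_pow]
    exact mul_le_of_le_one_right (pow_nonneg (norm_nonneg _) _)
      (IsUltrametricDist.norm_natCast_le_one C _)
  refine ⟨S, ?_, ?_, IsUltrametricDist.norm_sum_le_of_forall_le_of_nonneg zero_le_one fun i _ =>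
    (hterm i).trans (pow_le_one₀ (norm_nonneg _) ht)⟩
  · rw [add_pow_prime_eq hp t (1 : C), ← hSdef]
    ring
  · have h1 : (1 : ℕ) ∈ Finset.Ioo 0 p := Finset.mem_Ioo.2 ⟨one_pos, hp.one_lt⟩
    rw [hSdef, ← Finset.add_sum_erase _ _ h1, Nat.choose_one_right, Nat.div_self hp.pos]
    simp only [Nat.sub_self, pow_zero, one_pow, mul_one, Nat.cast_one, add_sub_cancel_left]
    refine IsUltrametricDist.norm_sum_le_of_forall_le_of_nonneg (norm_nonneg t) fun i hi => ?_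
    obtain ⟨hi1, hi2⟩ := Finset.mem_erase.1 hi
    rw [Finset.mem_Ioo] at hi2
    have h := hterm i
    rw [one_pow, mul_one] at h
    exact h.trans (pow_le_of_le_one (norm_nonneg _) ht (by omega))

theorem norm_le_one_of_pow_le {x : PadicAlgCl p} {n : ℕ} (hn : n ≠ 0) (h : ‖x ^ n‖ ≤ 1) :
    ‖x‖ ≤ 1 := by
  rw [norm_pow] at h
  exact (pow_le_one_iff_of_nonneg (norm_nonneg _) hn).1 h

/-- If `x ^ p` is congruent to `1` but not modulo `p`, then `‖x - 1‖ ^ p = ‖x ^ p - 1‖`. -/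
theorem norm_sub_one_pow {x : PadicAlgCl p} (hx : ‖x‖ ≤ 1) (h : ‖(p : C)‖ < ‖x ^ p - 1‖) :
    ‖x - 1‖ ^ p = ‖x ^ p - 1‖ := by
  have ht : ‖x - 1‖ ≤ 1 := (norm_sub_le_max x 1).trans (max_le hx norm_one.le)
  obtain ⟨S, hS, -, hS1⟩ := exists_add_one_pow ht
  rw [sub_add_cancel] at hS
  have hsmall : ‖-((p : C) * (x - 1) * S)‖ < ‖x ^ p - 1‖ := by
    refine lt_of_le_of_lt ?_ h
    rw [norm_neg, mul_assoc, norm_mul]
    exact mul_le_of_le_one_right (norm_nonneg _) (by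
      rw [norm_mul]; exact mul_le_one₀ ht (norm_nonneg _) hS1)
  rw [← norm_pow, show (x - 1) ^ p = (x ^ p - 1) + -((p : C) * (x - 1) * S) by rw [hS]; ring,
    IsUltrametricDist.norm_add_eq_max_of_norm_ne_norm hsmall.ne', max_eq_left hsmall.le]

/-- `(ζ - 1) ^ (p - 1) = - p S` with `S ≡ 1`. -/
theorem exists_zeta_sub_one_pow {ζ : PadicAlgCl p} (hζ : IsPrimitiveRoot ζ p) :
    ∃ S : C, (ζ - 1) ^ (p - 1) = -(p : C) * S ∧ ‖S - 1‖ < 1 ∧
      ‖ζ - 1‖ ^ (p - 1) = ‖(p : C)‖ ∧ ‖ζ - 1‖ < 1 := by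
  have hp : p.Prime := Fact.out
  have ht1 : ‖ζ - 1‖ ≤ 1 := (norm_sub_le_max ζ 1).trans (max_le
    (norm_eq_one_of_pow_eq_one hp.ne_zero hζ.pow_eq_one).le norm_one.le)
  obtain ⟨S, hS, hS1, hSle⟩ := exists_add_one_pow ht1
  rw [sub_add_cancel, hζ.pow_eq_one, sub_self] at hS
  have h' : (ζ - 1) * ((ζ - 1) ^ (p - 1) + (p : C) * S) = 0 := by
    rw [mul_add, ← pow_succ', Nat.sub_add_cancel hp.one_le]
    linear_combination -hS
  have heq : (ζ - 1) ^ (p - 1) = -(p : C) * S := by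
    linear_combination (mul_eq_zero.1 h').resolve_left (sub_ne_zero.2 (hζ.ne_one hp.one_lt))
  have hn : ‖ζ - 1‖ ^ (p - 1) = ‖(p : C)‖ * ‖S‖ := by rw [← norm_pow, heq, norm_mul, norm_neg]
  have htlt : ‖ζ - 1‖ < 1 := by
    by_contra h
    have h1 := one_le_pow₀ (n := p - 1) (not_lt.1 h)
    rw [hn] at h1
    exact absurd h1 (not_le.2 ((mul_le_of_le_one_right (norm_nonneg _) hSle).trans_lt
      norm_natCast_p_lt_one))
  have hS' : ‖S - 1‖ < 1 := hS1.trans_lt htlt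
  refine ⟨S, heq, hS', ?_, htlt⟩
  rw [hn, show S = (S - 1) + 1 by ring, IsUltrametricDist.norm_add_eq_max_of_norm_ne_norm (by
    rw [norm_one]; exact hS'.ne), norm_one, max_eq_right hS'.le, mul_one]

variable {e : ℕ}

/-- A unit of `K` with a `p`-th root `η` near `1` outside `F`. -/
theorem exists_eta (D : TameField p e) :
    ∃ η : C, η ^ p ∈ D.K ∧ η ∉ D.F ∧ ‖η - 1‖ ≤ ‖D.zeta - 1‖ := by
  classical
  have hp : p.Prime := Fact.out
  have := D.finite
  obtain ⟨S₁, heq, hS₁, hτ, hτlt⟩ := exists_zeta_sub_one_pow D.zeta_spec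
  set t := D.zeta - 1 with htdef
  have ht0 : t ≠ 0 := sub_ne_zero.2 (D.zeta_spec.ne_one hp.one_lt)
  -- a residue which is not of the form `x ^ p - x`
  obtain ⟨r, hr⟩ : ∃ r, ∀ x : PadicFields.residueField D.F, x ^ p - x ≠ r := by
    by_contra hcon
    push Not at hcon
    have hinj : Function.Injective fun x : PadicFields.residueField D.F => x ^ p - x :=
      Finite.injective_iff_surjective.2 hcon
    exact zero_ne_one (hinj (show (0 : PadicFields.residueField D.F) ^ p - 0 = 1 ^ p - 1 by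
      simp [hp.ne_zero]))
  obtain ⟨⟨⟨x, hxF⟩, hx⟩, hxr⟩ := IsLocalRing.residue_surjective r
  have hx1 : ‖x‖ ≤ 1 := hx
  obtain ⟨w, hwW, hwx⟩ := D.exists_mem_W_norm_sub_lt hxF hx1
  have hw1 : ‖w‖ ≤ 1 := by
    rw [show w = x - (x - w) by ring]
    exact (norm_sub_le_max _ _).trans (max_le hx1 hwx.le)
  obtain ⟨η, hη⟩ := IsAlgClosed.exists_pow_nat_eq (1 + t ^ p * w) hp.pos
  have hsmall : ‖η ^ p - 1‖ ≤ ‖t‖ ^ p := by
    rw [hη, add_sub_cancel_left, norm_mul, norm_pow]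
    exact mul_le_of_le_one_right (pow_nonneg (norm_nonneg _) _) hw1
  have hη1 : ‖η‖ ≤ 1 := by
    refine norm_le_one_of_pow_le hp.ne_zero ?_
    rw [hη]
    refine (IsUltrametricDist.norm_add_le_max _ _).trans (max_le norm_one.le ?_)
    rw [norm_mul, norm_pow]
    exact mul_le_one₀ (pow_le_one₀ (norm_nonneg _) hτlt.le) (norm_nonneg _) hw1
  have hpt : ‖η - 1‖ ≤ ‖t‖ := by
    by_contra hlt
    push Not at hlt
    have hs1 : ‖η - 1‖ ≤ 1 := (norm_sub_le_max η 1).trans (max_le hη1 norm_one.le)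
    obtain ⟨S, hS, -, hSle⟩ := exists_add_one_pow hs1
    rw [sub_add_cancel] at hS
    have hs0 : 0 < ‖η - 1‖ := (norm_nonneg t).trans_lt hlt
    have hlt2 : ‖(p : C) * (η - 1) * S‖ < ‖(η - 1) ^ p‖ := by
      rw [norm_mul, norm_mul, norm_pow,
        show ‖η - 1‖ ^ p = ‖η - 1‖ ^ (p - 1) * ‖η - 1‖ by
          rw [← pow_succ, Nat.sub_add_cancel hp.one_le]]
      refine lt_of_le_of_lt (mul_le_of_le_one_right (by positivity) hSle) ?_
      rw [← hτ]
      exact mul_lt_mul_of_pos_right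
        (pow_lt_pow_left₀ hlt (norm_nonneg _) (Nat.sub_pos_of_lt hp.one_lt).ne') hs0
    rw [hS, IsUltrametricDist.norm_add_eq_max_of_norm_ne_norm hlt2.ne', max_eq_left hlt2.le,
      norm_pow] at hsmall
    exact absurd hsmall (not_le.2 (pow_lt_pow_left₀ hlt (norm_nonneg _) hp.ne_zero))
  refine ⟨η, ?_, fun hηF => ?_, hpt⟩
  · rw [hη]
    exact add_mem (one_mem _) (mul_mem (pow_mem (sub_mem D.zeta_mem_K (one_mem _)) _)
      (D.W_le_K hwW))
  -- otherwise the residue `r` would be of the excluded form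
  set Y := (η - 1) / t with hY
  have hYF : Y ∈ D.F := div_mem (sub_mem hηF (one_mem _))
    (sub_mem (D.K_le D.zeta_mem_K) (one_mem _))
  have hY1 : ‖Y‖ ≤ 1 := by
    rw [hY, norm_div]
    exact div_le_one_of_le₀ hpt (norm_nonneg _)
  have htY : ‖t * Y‖ ≤ ‖t‖ := by
    rw [norm_mul]; exact mul_le_of_le_one_right (norm_nonneg _) hY1
  obtain ⟨S, hS, hSY, -⟩ := exists_add_one_pow (htY.trans hτlt.le)
  rw [show t * Y + 1 = η by rw [hY, mul_div_cancel₀ _ ht0]; ring, hη, add_sub_cancel_left] at hS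
  have hptS : (p : C) * t * S₁ = -t ^ p := by
    have h : t ^ p = t ^ (p - 1) * t := by rw [← pow_succ, Nat.sub_add_cancel hp.one_le]
    rw [h, heq]; ring
  clear_value Y t
  have hkey : S₁ * w = S₁ * Y ^ p - Y * S := by
    apply mul_left_cancel₀ (pow_ne_zero p ht0)
    rw [mul_pow] at hS
    linear_combination S₁ * hS + Y * S * hptS
  have hclose : ‖w - (Y ^ p - Y)‖ < 1 := by
    have hYp : ‖w - Y ^ p‖ ≤ 1 := (norm_sub_le_max _ _).trans
      (max_le hw1 (by rw [norm_pow]; exact pow_le_one₀ (norm_nonneg _) hY1))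
    rw [show w - (Y ^ p - Y) = -((S₁ - 1) * (w - Y ^ p)) - Y * (S - 1) by
      linear_combination hkey]
    refine (norm_sub_le_max _ _).trans_lt (max_lt ?_ ?_)
    · rw [norm_neg, norm_mul]
      exact lt_of_le_of_lt (mul_le_of_le_one_right (norm_nonneg _) hYp) hS₁
    · rw [norm_mul]
      exact lt_of_le_of_lt (mul_le_of_le_one_left (norm_nonneg _) hY1)
        ((hSY.trans htY).trans_lt hτlt)
  have hYi : (⟨Y, hYF⟩ : D.F) ∈ PadicFields.integers D.F := hY1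
  refine hr (IsLocalRing.residue _ ⟨_, hYi⟩) ?_
  rw [← hxr, ← map_pow, ← map_sub, ← sub_eq_zero, ← map_sub, IsLocalRing.residue_eq_zero_iff,
    PadicFields.mem_maximalIdeal_iff, PadicFields.norm_def]
  show ‖Y ^ p - Y - x‖ < 1
  rw [show Y ^ p - Y - x = -(w - (Y ^ p - Y)) - (x - w) by ring]
  exact (norm_sub_le_max _ _).trans_lt (max_lt (by rwa [norm_neg]) hwx)

end Fermat.Agent.FlatLocal
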