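import Fermat.Agent.FlatLocal.ApproxExtend
import Fermat.Agent.FlatLocal.Kummer

/-!
# Fontaine's criterion in Kummer form

If approximate ring homomorphisms out of `F` detect `F` (true for the field of points of a finite
flat group killed by `p`), then the Kummer elements of `F` over `K` are `p`-th powers modulo `p`.
-/

set_option autoImplicit false

noncomputable section

namespace Fermat.Agent.FlatLocal

open Fermat.Agent.ClassField Polynomial

variable {p : ℕ} [Fact p.Prime] {e : ℕ}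

local notation "C" => PadicAlgCl p

/-- An approximate homomorphism on `F` can only be fixed by automorphisms fixing `F`. -/
def HasPointProperty (D : TameField p e) : Prop :=
  ∀ (φ : C → C) (r : ℝ), IsSmallRadius p r → IsApproxHom D.F r φ →
    ∀ σ : Gp p, D.FixK σ → (∀ x ∈ D.F, ‖x‖ ≤ 1 → ‖σ (φ x) - φ x‖ ≤ r) →
      ∀ x ∈ D.F, σ x = x

/-- A monic relation of degree `d` over `E` bounds the degree. -/
theorem natDegree_minpoly_le_of_relation {E : IntermediateField ℚ_[p] C} {x : C} {d : ℕ}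
    {c : Fin d → C} (hc : ∀ j, c j ∈ E) (h : x ^ d = ∑ j, c j * x ^ (j : ℕ)) :
    (minpoly E x).natDegree ≤ d := by
  set f : Fin d → E := fun j => ⟨c j, hc j⟩
  have hdeg : (∑ j, Polynomial.C (f j) * X ^ (j : ℕ)).degree < (d : WithBot ℕ) :=
    degree_sum_fin_lt f
  have hmonic : (X ^ d - ∑ j, Polynomial.C (f j) * X ^ (j : ℕ)).Monic :=
    (monic_X_pow d).sub_of_left (by rwa [degree_X_pow])
  have hroot : aeval x (X ^ d - ∑ j, Polynomial.C (f j) * X ^ (j : ℕ)) = 0 := by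
    simp only [map_sub, map_pow, aeval_X, map_sum, map_mul, aeval_C]
    rw [sub_eq_zero, h]
    rfl
  refine (natDegree_le_of_dvd (minpoly.dvd E x hroot) hmonic.ne_zero).trans (le_of_eq ?_)
  rw [natDegree_sub_eq_left_of_natDegree_lt, natDegree_X_pow]
  rw [natDegree_X_pow]
  rcases eq_or_ne (∑ j, Polynomial.C (f j) * X ^ (j : ℕ)) 0 with h0 | h0
  · rw [h0, natDegree_zero]
    by_contra hd
    obtain rfl : d = 0 := by omega
    simp at h
  · exact (natDegree_lt_iff_degree_lt h0).2 hdeg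

/-- A monic equation with integral coefficients has an integral root. -/
theorem exists_root_relation {d : ℕ} (hd : 0 < d) {c : Fin d → C} (hc : ∀ j, ‖c j‖ ≤ 1) :
    ∃ x : C, x ^ d = ∑ j, c j * x ^ (j : ℕ) ∧ ‖x‖ ≤ 1 := by
  have hdeg : (∑ j, Polynomial.C (c j) * X ^ (j : ℕ)).degree < (d : WithBot ℕ) :=
    degree_sum_fin_lt c
  obtain ⟨x, hx⟩ := IsAlgClosed.exists_root (X ^ d - ∑ j, Polynomial.C (c j) * X ^ (j : ℕ)) (by
    rw [degree_sub_eq_left_of_degree_lt (by rwa [degree_X_pow]), degree_X_pow]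
    exact_mod_cast hd.ne')
  simp only [IsRoot, eval_sub, eval_pow, eval_X, eval_finsetSum, eval_mul, eval_C,
    sub_eq_zero] at hx
  refine ⟨x, hx, ?_⟩
  by_contra hgt
  push Not at hgt
  have hle : ‖x ^ d‖ ≤ ‖x‖ ^ (d - 1) := by
    rw [hx]
    refine IsUltrametricDist.norm_sum_le_of_forall_le_of_nonneg (by positivity) fun j _ => ?_
    rw [norm_mul, norm_pow]
    exact (mul_le_of_le_one_left (by positivity) (hc j)).trans
      (pow_le_pow_right₀ hgt.le (by omega))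
  rw [norm_pow] at hle
  exact absurd hle (not_le.2 (pow_lt_pow_right₀ hgt (by omega)))

theorem norm_multiset_prod_le (R : Multiset (PadicAlgCl p)) (f : C → C) {B : ℝ} (hB : 0 ≤ B)
    (h : ∀ a ∈ R, ‖f a‖ ≤ B) : ‖(R.map f).prod‖ ≤ B ^ R.card := by
  induction R using Multiset.induction_on with
  | empty => simp
  | cons a R ih =>
    rw [Multiset.map_cons, Multiset.prod_cons, norm_mul, Multiset.card_cons, pow_succ']
    exact mul_le_mul (h a (Multiset.mem_cons_self a R))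
      (ih fun b hb => h b (Multiset.mem_cons_of_mem hb)) (norm_nonneg _) hB

theorem isApproxHom_id (B : IntermediateField ℚ_[p] C) {r : ℝ} (hr : 0 ≤ r) :
    IsApproxHom B r (fun x => x) :=
  ⟨fun _ _ h => h, fun _ _ _ _ _ _ => by simpa using hr, fun _ _ _ _ _ _ => by simpa using hr,
    fun _ => by simpa using hr⟩

theorem norm_pow_sub_pow_le {x y : PadicAlgCl p} {R : ℝ} (hx : ‖x‖ ≤ R) (hy : ‖y‖ ≤ R)
    {a : ℕ} (ha : 0 < a) : ‖x ^ a - y ^ a‖ ≤ R ^ (a - 1) * ‖x - y‖ := by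
  have hR : 0 ≤ R := (norm_nonneg _).trans hx
  rw [← geom_sum₂_mul, norm_mul]
  refine mul_le_mul_of_nonneg_right ?_ (norm_nonneg _)
  refine IsUltrametricDist.norm_sum_le_of_forall_le_of_nonneg (pow_nonneg hR _) fun i hi => ?_
  rw [norm_mul, norm_pow, norm_pow]
  calc ‖x‖ ^ i * ‖y‖ ^ (a - 1 - i) ≤ R ^ i * R ^ (a - 1 - i) :=
        mul_le_mul (pow_le_pow_left₀ (norm_nonneg _) hx _) (pow_le_pow_left₀ (norm_nonneg _) hy _)
          (pow_nonneg (norm_nonneg _) _) (pow_nonneg hR _)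
    _ = R ^ (a - 1) := by
      rw [← pow_add]; congr 1; have := Finset.mem_range.1 hi; omega

/-- Fontaine's argument: the Kummer element cannot have its jump prime to `p`. -/
theorem false_of_jump (D : TameField p e) (hD : HasPointProperty D) {α : C} (hα : α ∈ D.K)
    {β : C} (hβ : β ∈ D.F) (hpow : β ^ p = α) (ε i : ℕ) (hi : i < e) {s : ℤ}
    (hs : ¬ (p : ℤ) ∣ s) (hz : ‖β - (ε : C)‖ ^ p = ‖D.ϖ‖ ^ s)
    (hβz : ‖β‖ ^ p * ‖D.ϖ‖ ^ i = ‖β - (ε : C)‖ ^ p) : False := by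
  classical
  have hp : p.Prime := Fact.out
  have := D.finite
  set g := ‖D.ϖ‖ with hg
  have hg0 : 0 < g := D.norm_varpi_pos
  have hg1 : g < 1 := D.norm_varpi_lt_one
  set z := β - (ε : C) with hzdef
  have hz0 : 0 < ‖z‖ := by
    refine lt_of_le_of_ne (norm_nonneg _) fun h0 => ?_
    rw [← h0, zero_pow hp.ne_zero] at hz
    exact (zpow_pos hg0 s).ne hz
  have hβK : β ∉ D.K := fun hβK => by
    obtain ⟨l, hl⟩ := D.exists_norm_K_eq (sub_mem hβK (natCast_mem D.K ε))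
      (norm_pos_iff.1 hz0 : z ≠ 0)
    rw [← hzdef] at hl
    rw [hl, ← zpow_natCast, ← zpow_mul] at hz
    exact hs ⟨l, by rw [← zpow_right_injective₀ hg0 hg1.ne hz, mul_comm]⟩
  -- an automorphism over `K` moving `β`
  obtain ⟨σ, hσK, hσβ⟩ : ∃ σ : Gp p, D.FixK σ ∧ σ β ≠ β := by
    by_contra hcon
    push Not at hcon
    exact hβK (mem_of_forall_fixed D.K hcon)
  have hβ0 : β ≠ 0 := fun h => hσβ (by rw [h, map_zero])
  set ζ₂ := σ β / β with hζ₂def
  have hζ₂p : ζ₂ ^ p = 1 := by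
    rw [hζ₂def, div_pow, ← map_pow, hpow, hσK α hα, div_self]
    exact fun h => pow_ne_zero p hβ0 (hpow.trans h)
  obtain ⟨k₂, -, hk₂⟩ := D.zeta_spec.eq_pow_of_pow_eq_one hζ₂p
  have hζ₂ : IsPrimitiveRoot ζ₂ p := by
    rw [IsPrimitiveRoot.iff_orderOf]
    exact orderOf_eq_prime hζ₂p fun h => hσβ ((div_eq_one_iff_eq hβ0).1 h)
  have hσn : ∀ n : ℕ, D.FixK (σ ^ n) ∧ (σ ^ n) β = ζ₂ ^ n * β := fun n => by
    induction n with
    | zero => simp [TameField.FixK]
    | succ n ih =>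
      refine ⟨fun x hx => ?_, ?_⟩
      · rw [pow_succ', AlgEquiv.mul_apply, ih.1 x hx, hσK x hx]
      · rw [pow_succ', AlgEquiv.mul_apply, ih.2, map_mul, map_pow, ← hk₂,
          hσK _ (pow_mem D.zeta_mem_K k₂), hk₂, pow_succ, mul_assoc, hζ₂def, div_mul_cancel₀ _ hβ0]
  -- the uniformiser of `K(β)`
  obtain ⟨a, b, hab⟩ : ∃ (a : ℕ) (b : ℤ), (a : ℤ) * s + (p : ℤ) * b = 1 := by
    obtain ⟨u, v, huv⟩ : IsCoprime s (p : ℤ) :=
      (((Nat.prime_iff_prime_int.1 hp).coprime_iff_not_dvd).2 hs).symm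
    have hp0 : (p : ℤ) ≠ 0 := by exact_mod_cast hp.ne_zero
    refine ⟨(u % (p : ℤ)).toNat, (u / (p : ℤ)) * s + v, ?_⟩
    rw [Int.toNat_of_nonneg (Int.emod_nonneg u hp0)]
    have := Int.emod_add_mul_ediv u (p : ℤ)
    linear_combination huv + s * this
  have ha : 0 < a := Nat.pos_of_ne_zero fun ha => by
    rw [ha, Nat.cast_zero, zero_mul, zero_add] at hab
    exact hp.not_dvd_one (by exact_mod_cast Dvd.intro b hab)
  set π := z ^ a * D.ϖ ^ b with hπdef
  set h := ‖π‖ with hh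
  have hπnorm : h = ‖z‖ ^ a * g ^ b := by rw [hh, hπdef, norm_mul, norm_pow, norm_zpow]
  have hhp : h ^ p = g := by
    rw [hπnorm, mul_pow, ← pow_mul, mul_comm a, pow_mul, hz, ← zpow_natCast (g ^ s) a,
      ← zpow_natCast (g ^ b) p, ← zpow_mul, ← zpow_mul, ← zpow_add₀ hg0.ne',
      show s * (a : ℤ) + b * (p : ℤ) = 1 by rw [← hab]; ring, zpow_one]
  have hh0 : 0 < h := by rw [hπnorm]; exact mul_pos (pow_pos hz0 a) (zpow_pos hg0 b)
  have hh1 : h < 1 := by
    by_contra hcon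
    exact absurd (one_le_pow₀ (n := p) (not_lt.1 hcon)) (not_le.2 (hhp ▸ hg1))
  have hhd : h ^ (p * e) = ‖(p : C)‖ := by rw [pow_mul, hhp, D.norm_varpi_pow]
  -- `W(π) = K(β)`
  obtain ⟨nW, hnW, zW, -, hWadj, hWfin, hres⟩ := D.exists_W_eq_adjoin
  have hWN : NormsIn D.W h (p * e) := fun x hx hx0 => by
    rw [hhd]; exact D.exists_norm_W_eq hx hx0
  have hdlow := le_natDegree_minpoly hh0 hh1 rfl hWN
  set L := D.K ⊔ IntermediateField.adjoin ℚ_[p] {β} with hL
  have hKL : D.K ≤ L := le_sup_left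
  have hβL : β ∈ L :=
    le_sup_right (a := D.K) (IntermediateField.mem_adjoin_simple_self ℚ_[p] β)
  have hLF : L ≤ D.F := sup_le D.K_le (IntermediateField.adjoin_simple_le_iff.2 hβ)
  have hπL : π ∈ L := mul_mem (pow_mem (sub_mem hβL (natCast_mem L ε)) a)
    (zpow_mem (hKL D.varpi_mem_K) b)
  have : FiniteDimensional ℚ_[p] L :=
    Module.Finite.of_injective (IntermediateField.inclusion hLF).toLinearMap
      (IntermediateField.inclusion hLF).toRingHom.injective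
  have hdegp : ∀ {x : C}, x ^ p ∈ D.K → (minpoly D.K x).natDegree ≤ p := fun {x} hx => by
    refine natDegree_minpoly_le_of_relation
      (c := fun j : Fin p => if (j : ℕ) = 0 then x ^ p else 0) (fun j => ?_) ?_
    · split_ifs
      exacts [hx, D.K.zero_mem]
    · rw [Finset.sum_eq_single ⟨0, hp.pos⟩ (fun j _ hj => by
        rw [if_neg fun h => hj (Fin.ext h), zero_mul]) (by simp)]
      simp
  have hLfin : Module.finrank ℚ_[p] L ≤ nW * (p * e) := by
    rw [hL, finrank_sup_adjoin, D.finrank_K, hWfin,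
      show nW * (p * e) = nW * e * p by ring]
    exact Nat.mul_le_mul le_rfl (hdegp (hpow ▸ hα))
  set F' := D.W ⊔ IntermediateField.adjoin ℚ_[p] {π} with hF'
  have hF'L : F' ≤ L :=
    sup_le (D.W_le_K.trans hKL) (IntermediateField.adjoin_simple_le_iff.2 hπL)
  have hF'fin : Module.finrank ℚ_[p] F' = nW * (minpoly D.W π).natDegree := by
    rw [hF', finrank_sup_adjoin, hWfin]
  have hFL : F' = L :=
    IntermediateField.eq_of_le_of_finrank_le hF'L (hLfin.trans (hF'fin ▸ Nat.mul_le_mul le_rfl hdlow))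
  have hd : (minpoly D.W π).natDegree = p * e := by
    refine le_antisymm ?_ hdlow
    rw [hFL] at hF'fin
    exact Nat.le_of_mul_le_mul_left (hF'fin ▸ hLfin) hnW
  have hF'eq : Module.finrank ℚ_[p] F' = nW * (p * e) := by rw [hF'fin, hd]
  -- the modified Kummer element
  obtain ⟨η, hηK, hηF, hη⟩ := exists_eta D
  obtain ⟨S₁, -, -, hτ, hτlt⟩ := exists_zeta_sub_one_pow D.zeta_spec
  set τ := ‖D.zeta - 1‖ with hτdef
  have hτ0 : 0 ≤ τ := norm_nonneg _
  have hτp : τ ^ p = ‖(p : C)‖ * τ := by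
    rw [← hτ, ← pow_succ, Nat.sub_add_cancel hp.one_le]
  set δ := ‖β‖ * τ / ‖z‖ with hδdef
  have hδ0 : 0 ≤ δ := div_nonneg (mul_nonneg (norm_nonneg _) hτ0) hz0.le
  have hgi : 0 < g ^ i := pow_pos hg0 i
  have hδp : δ ^ p = τ ^ p / g ^ i := by
    have hb0 : ‖β‖ ^ p ≠ 0 := pow_ne_zero _ (norm_ne_zero_iff.2 hβ0)
    rw [hδdef, div_pow, mul_pow, ← hβz, mul_div_mul_left _ _ hb0]
  have hτgi : τ ^ p < g ^ i := by
    rw [hτp, ← D.norm_varpi_pow]
    exact (mul_lt_of_lt_one_right (pow_pos hg0 e) hτlt).trans_le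
      (pow_le_pow_of_le_one hg0.le hg1.le hi.le)
  have hδ1 : δ < 1 := by
    by_contra hcon
    exact absurd (one_le_pow₀ (n := p) (not_lt.1 hcon))
      (not_le.2 (hδp ▸ (div_lt_one hgi).2 hτgi))
  set r := ‖(p : C)‖ * δ ^ p with hr
  have hr0 : 0 ≤ r := mul_nonneg (norm_nonneg _) (pow_nonneg hδ0 p)
  have hsmall : IsSmallRadius p r := by
    refine ⟨hr0, ?_⟩
    rw [hr, mul_div_cancel_left₀ _ norm_natCast_p_pos.ne', hδp, div_pow, ← pow_mul,
      mul_comm p (p - 1), pow_mul, hτ, div_lt_iff₀ (pow_pos hgi _), ← D.norm_varpi_pow,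
      ← pow_mul, ← pow_mul, ← pow_add]
    refine pow_lt_pow_right_of_lt_one₀ hg0 hg1 ?_
    calc e + i * (p - 1) < e + e * (p - 1) :=
          Nat.add_lt_add_left (Nat.mul_lt_mul_of_pos_right hi (Nat.sub_pos_of_lt hp.one_lt)) e
      _ = e * p := by rw [add_comm, ← Nat.mul_succ, Nat.succ_eq_add_one, Nat.sub_add_cancel hp.one_le]
  set β' := η * β with hβ'
  set z' := β' - (ε : C) with hz'
  have hdiff : ∀ n : ℕ, ‖z' - (σ ^ n) z‖ ≤ ‖z‖ * δ := fun n => by
    have hζn : ‖η - ζ₂ ^ n‖ ≤ τ := by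
      rw [show η - ζ₂ ^ n = (η - 1) - (ζ₂ ^ n - 1) by ring]
      refine (norm_sub_le_max _ _).trans (max_le hη ?_)
      rw [← hk₂, ← pow_mul, ← geom_sum_mul, norm_mul]
      exact mul_le_of_le_one_left hτ0
        (IsUltrametricDist.norm_sum_le_of_forall_le_of_nonneg zero_le_one fun j _ => by
          rw [norm_pow, norm_eq_one_of_pow_eq_one hp.ne_zero D.zeta_spec.pow_eq_one, one_pow])
    rw [hzdef, map_sub, map_natCast, (hσn n).2, hz', hβ', sub_sub_sub_cancel_right, ← sub_mul,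
      norm_mul, mul_comm ‖η - _‖, ← hzdef, hδdef, mul_div_cancel₀ _ hz0.ne']
    exact mul_le_mul_of_nonneg_left hζn (norm_nonneg _)
  have hz'norm : ‖z'‖ = ‖z‖ := by
    have h0 := hdiff 0
    rw [pow_zero, AlgEquiv.one_apply] at h0
    have h1 : ‖z' - z‖ < ‖z‖ := h0.trans_lt (mul_lt_of_lt_one_right hz0 hδ1)
    rw [show z' = (z' - z) + z by ring,
      IsUltrametricDist.norm_add_eq_max_of_norm_ne_norm h1.ne, max_eq_right h1.le]
  set π' := z' ^ a * D.ϖ ^ b with hπ'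
  have hπ'norm : ‖π'‖ = h := by rw [hπ', norm_mul, norm_pow, norm_zpow, hz'norm, hπnorm]
  have hclose : ∀ n : ℕ, ‖π' - (σ ^ n) π‖ ≤ h * δ := fun n => by
    rw [hπdef, map_mul, map_pow, map_zpow₀, (hσn n).1 _ D.varpi_mem_K, hπ', ← sub_mul, norm_mul,
      norm_zpow, ← hg, hπnorm, mul_right_comm]
    refine mul_le_mul_of_nonneg_right ?_ (zpow_nonneg hg0.le b)
    refine (norm_pow_sub_pow_le hz'norm.le (norm_apply _ z).le ha).trans ?_
    calc ‖z‖ ^ (a - 1) * ‖z' - (σ ^ n) z‖ ≤ ‖z‖ ^ (a - 1) * (‖z‖ * δ) :=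
          mul_le_mul_of_nonneg_left (hdiff n) (pow_nonneg (norm_nonneg _) _)
      _ = ‖z‖ ^ a * δ := by rw [← mul_assoc, ← pow_succ, Nat.sub_add_cancel ha]
  -- the value of the minimal polynomial of `π` at `π'`
  set f := minpoly D.W π with hf
  have hint : IsIntegral D.W π :=
    (Algebra.IsAlgebraic.isAlgebraic (R := ℚ_[p]) π).isIntegral.tower_top
  set RT := (Finset.range p).image fun n => (σ ^ n) π with hRT
  have hRTcard : RT.card = p := by
    rw [hRT, Finset.card_image_of_injOn, Finset.card_range]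
    intro n hn n' hn' he
    replace he : (σ ^ n) π = (σ ^ n') π := he
    have hfix : ∀ x ∈ F', ((σ ^ n')⁻¹ * σ ^ n) x = x := by
      intro x hx
      have hle : F' ≤ IntermediateField.adjoin ℚ_[p] ((D.W : Set C) ∪ {π}) := by
        rw [hF', IntermediateField.adjoin_union, IntermediateField.adjoin_self]
      refine apply_eq_of_mem_adjoin (fun y hy => ?_) (hle hx)
      rw [AlgEquiv.mul_apply]
      rcases hy with hy | hy
      · rw [(hσn n).1 y (D.W_le_K hy)]
        conv_lhs => rw [← (hσn n').1 y (D.W_le_K hy)]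
        exact (σ ^ n').symm_apply_apply y
      · rw [Set.mem_singleton_iff.1 hy, he]
        exact (σ ^ n').symm_apply_apply π
    have hb := congrArg (σ ^ n') (hfix β (hFL ▸ hβL))
    rw [AlgEquiv.mul_apply, show ∀ y, (σ ^ n') ((σ ^ n')⁻¹ y) = y from
      fun y => (σ ^ n').apply_symm_apply y, (hσn n).2, (hσn n').2] at hb
    exact hζ₂.pow_inj (Finset.mem_range.1 hn) (Finset.mem_range.1 hn')
      (mul_right_cancel₀ hβ0 hb)
  have hRTle : RT.val ≤ f.aroots C := by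
    rw [Multiset.le_iff_subset RT.nodup]
    intro x hx
    obtain ⟨n, -, rfl⟩ := Finset.mem_image.1 (Finset.mem_def.2 hx)
    refine mem_aroots.2 ⟨minpoly.ne_zero hint, ?_⟩
    have hW : ∀ w : D.W, (σ ^ n) (algebraMap D.W C w) = algebraMap D.W C w := fun w =>
      (hσn n).1 _ (D.W_le_K w.2)
    let σW : C ≃ₐ[D.W] C := AlgEquiv.ofRingEquiv (f := (σ ^ n : Gp p).toRingEquiv) hW
    show aeval (σW π) f = 0
    rw [aeval_algHom_apply, hf, minpoly.aeval, map_zero]
  have hsplit : (f.map (algebraMap D.W C)).Splits := IsAlgClosed.splits _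
  have hcard : (f.aroots C).card = p * e := by
    rw [← hd, ← natDegree_map (algebraMap D.W C) (p := f)]
    exact hsplit.natDegree_eq_card_roots.symm
  have haeval : aeval π' f = ((f.aroots C).map (π' - ·)).prod :=
    hsplit.aeval_eq_prod_aroots_of_monic (minpoly.monic hint) π'
  have hfπ' : ‖aeval π' f‖ ≤ r := by
    rw [haeval, ← add_tsub_cancel_of_le hRTle, Multiset.map_add, Multiset.prod_add, norm_mul]
    have h1 := norm_multiset_prod_le RT.val (π' - ·) (mul_nonneg hh0.le hδ0) fun x hx => by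
      obtain ⟨n, -, rfl⟩ := Finset.mem_image.1 (Finset.mem_def.2 hx)
      exact hclose n
    have h2 := norm_multiset_prod_le (f.aroots C - RT.val) (π' - ·) hh0.le fun x hx => by
      obtain ⟨σ', hσ'⟩ := minpoly.exists_algEquiv_of_root' (K := D.W) (L := C) hint.isAlgebraic
        (mem_aroots.1 (Multiset.mem_of_le tsub_le_self hx)).2
      refine (norm_sub_le_max _ _).trans (max_le hπ'norm.le ?_)
      rw [← hσ']
      exact (norm_apply (σ'.restrictScalars ℚ_[p]) π).le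
    rw [Multiset.card_sub hRTle, hcard, Finset.card_val, hRTcard] at h2
    rw [Finset.card_val, hRTcard] at h1
    refine (mul_le_mul h1 h2 (norm_nonneg _) (pow_nonneg (mul_nonneg hh0.le hδ0) _)).trans
      (le_of_eq ?_)
    rw [hr, ← hhd, mul_pow, mul_right_comm, ← pow_add,
      Nat.add_sub_cancel' (Nat.le_mul_of_pos_right p D.e_pos)]
  -- the approximate homomorphism on `W(π)`
  have hc : ∀ j : Fin (p * e), -((f.coeff (j : ℕ) : D.W) : C) ∈ D.W :=
    fun j => neg_mem (f.coeff (j : ℕ)).2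
  have hfsum : ∀ x : C, aeval x f =
      x ^ (p * e) - ∑ j : Fin (p * e), -((f.coeff (j : ℕ) : D.W) : C) * x ^ (j : ℕ) := by
    intro x
    rw [aeval_eq_sum_range' (n := p * e + 1) (by omega), Finset.sum_range_succ,
      show f.coeff (p * e) = 1 by rw [← hd]; exact (minpoly.monic hint).coeff_natDegree, one_smul]
    simp only [neg_mul, Finset.sum_neg_distrib, sub_neg_eq_add]
    rw [add_comm, Fin.sum_univ_eq_sum_range (fun j => ((f.coeff j : D.W) : C) * x ^ j)]
    rfl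
  obtain ⟨φ₁, hφ₁, hφ₁v⟩ := exists_approx_extend hr0 (isApproxHom_id D.W hr0) hh0 hh1 rfl hWN
    hd.le hc (sub_eq_zero.1 ((hfsum π).symm.trans (minpoly.aeval D.W π))) (u' := π')
    (hπ'norm.trans_le hh1.le) (by rw [← hfsum]; exact hfπ')
  rw [← hF'] at hφ₁
  -- the values lie in `L₁ = K(β')`
  set L₁ := D.K ⊔ IntermediateField.adjoin ℚ_[p] {β'} with hL₁
  have hKL₁ : D.K ≤ L₁ := le_sup_left
  have hβ'L₁ : β' ∈ L₁ :=
    le_sup_right (a := D.K) (IntermediateField.mem_adjoin_simple_self ℚ_[p] β')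
  have hπ'L₁ : π' ∈ L₁ := mul_mem (pow_mem (sub_mem hβ'L₁ (natCast_mem L₁ ε)) a)
    (zpow_mem (hKL₁ D.varpi_mem_K) b)
  have hφ₁L : ∀ x ∈ F', φ₁ x ∈ L₁ := fun x hx => by
    obtain ⟨co, hco, rfl⟩ := exists_expansion π hd.le hx
    rw [hφ₁v co hco]
    exact sum_mem fun j _ => mul_mem (hKL₁ (D.W_le_K (hco j))) (pow_mem hπ'L₁ _)
  -- `F` over `W(π)`
  have hπF : π ∈ D.F := hLF hπL
  set G := ‖PadicFields.uniformizer D.F‖ with hG
  have hG0 : 0 < G := PadicFields.norm_uniformizer_pos D.F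
  have hG1 : G < 1 := PadicFields.norm_uniformizer_lt_one D.F
  obtain ⟨mz, hmz⟩ := PadicFields.exists_norm_eq_zpow D.F (x := ⟨π, hπF⟩)
    fun h0 => hh0.ne' (by rw [hh, show π = 0 from congrArg Subtype.val h0, norm_zero])
  replace hmz : h = G ^ mz := hmz
  have hmz0 : 0 < mz := by
    by_contra hcon
    exact absurd hh1 (not_lt.2 (hmz ▸ one_le_zpow_of_nonpos₀ hG0 hG1.le (not_lt.1 hcon)))
  obtain ⟨m, rfl⟩ : ∃ m : ℕ, mz = (m : ℤ) := ⟨mz.toNat, (Int.toNat_of_nonneg hmz0.le).symm⟩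
  rw [zpow_natCast] at hmz
  have hm : 0 < m := by exact_mod_cast hmz0
  have hram : PadicFields.ramIdx D.F = m * (p * e) := by
    refine pow_right_injective₀ hG0 hG1.ne ?_
    show G ^ PadicFields.ramIdx D.F = G ^ (m * (p * e))
    rw [pow_mul, ← hmz, hhd, ← PadicFields.norm_q_eq, PadicFields.norm_def]
    rfl
  set u := (PadicFields.uniformizer D.F : C) with hu
  have hFN : NormsIn F' G m := fun x hx hx0 => by
    rw [← hmz]; exact exists_norm_sup_adjoin hh0 hh1 rfl hWN hd.le hx hx0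
  have hmlow := le_natDegree_minpoly (π := u) hG0 hG1 rfl hFN
  have hFfin : Module.finrank ℚ_[p] D.F = m * (p * e) * nW := by
    rw [← PadicFields.ramIdx_mul_resDeg, hram, hres]
  have hF'uF : F' ⊔ IntermediateField.adjoin ℚ_[p] {u} ≤ D.F :=
    sup_le (hF'L.trans hLF) (IntermediateField.adjoin_simple_le_iff.2
      (PadicFields.uniformizer D.F).2)
  have hufin := finrank_sup_adjoin (E := F') u
  have hFeq : F' ⊔ IntermediateField.adjoin ℚ_[p] {u} = D.F := by
    refine IntermediateField.eq_of_le_of_finrank_le hF'uF ?_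
    rw [hufin, hFfin, hF'eq, show m * (p * e) * nW = nW * (p * e) * m by ring]
    exact Nat.mul_le_mul le_rfl hmlow
  have hdu : (minpoly F' u).natDegree ≤ m := by
    rw [hFeq, hFfin, hF'eq, show m * (p * e) * nW = nW * (p * e) * m by ring] at hufin
    exact (Nat.eq_of_mul_eq_mul_left (Nat.mul_pos hnW (Nat.mul_pos hp.pos D.e_pos)) hufin).ge
  obtain ⟨c, hcF', hcu⟩ := exists_expansion u hdu (y := u ^ m)
    (pow_mem (le_sup_right (a := F') (IntermediateField.mem_adjoin_simple_self ℚ_[p] u)) m)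
  have hc1 : ∀ j, ‖c j‖ ≤ 1 := coeff_norm_le_one (π := u) hG0 hG1 rfl hFN hcF' (by
    rw [← hcu, norm_pow]; exact pow_le_one₀ (norm_nonneg _) hG1.le)
  obtain ⟨u', hu', hu'1⟩ := exists_root_relation hm (c := fun j => φ₁ (c j))
    fun j => hφ₁.norm_le _ (hcF' j) (hc1 j)
  obtain ⟨φ, hφ, hφv⟩ := exists_approx_extend (u := u) hr0 hφ₁ hG0 hG1 rfl hFN hdu hcF' hcu hu'1
    (by rw [hu', sub_self, norm_zero]; exact hr0)
  rw [hFeq] at hφ
  -- conclusion
  set L₂ := L₁ ⊔ IntermediateField.adjoin ℚ_[p] {u'} with hL₂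
  have hKL₂ : D.K ≤ L₂ := hKL₁.trans le_sup_left
  have hFL₂ : D.F ≤ L₂ := fun x hx => by
    refine mem_of_forall_fixed L₂ fun τ' hτ' => hD φ r hsmall hφ τ' (fun y hy => hτ' y (hKL₂ hy))
      (fun y hy _ => ?_) x hx
    have hφy : φ y ∈ L₂ := by
      rw [← hFeq] at hy
      obtain ⟨co, hco, rfl⟩ := exists_expansion u hdu hy
      rw [hφv co hco]
      exact sum_mem fun j _ => mul_mem
        ((le_sup_left : L₁ ≤ L₂) (hφ₁L _ (hco j)))
        (pow_mem (le_sup_right (a := L₁) (IntermediateField.mem_adjoin_simple_self ℚ_[p] u')) _)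
    rw [hτ' _ hφy, sub_self, norm_zero]
    exact hr0
  have : FiniteDimensional ℚ_[p] D.K :=
    Module.Finite.of_injective (IntermediateField.inclusion D.K_le).toLinearMap
      (IntermediateField.inclusion D.K_le).toRingHom.injective
  have : FiniteDimensional ℚ_[p] (IntermediateField.adjoin ℚ_[p] {β'}) :=
    IntermediateField.adjoin.finiteDimensional (Algebra.IsAlgebraic.isAlgebraic β').isIntegral
  have : FiniteDimensional ℚ_[p] (IntermediateField.adjoin ℚ_[p] {u'}) :=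
    IntermediateField.adjoin.finiteDimensional (Algebra.IsAlgebraic.isAlgebraic u').isIntegral
  have hβ'p : β' ^ p ∈ D.K := by
    rw [hβ', mul_pow, hpow]; exact mul_mem hηK hα
  have hL₁fin : Module.finrank ℚ_[p] L₁ ≤ nW * (p * e) := by
    rw [hL₁, finrank_sup_adjoin, D.finrank_K, hWfin,
      show nW * (p * e) = nW * e * p by ring]
    exact Nat.mul_le_mul le_rfl (hdegp hβ'p)
  have hL₂fin : Module.finrank ℚ_[p] L₂ ≤ Module.finrank ℚ_[p] D.F := by
    rw [hL₂, finrank_sup_adjoin, hFfin, show m * (p * e) * nW = nW * (p * e) * m by ring]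
    exact Nat.mul_le_mul hL₁fin
      (natDegree_minpoly_le_of_relation (fun j => hφ₁L _ (hcF' j)) hu')
  have hEq : D.F = L₂ := IntermediateField.eq_of_le_of_finrank_le hFL₂ hL₂fin
  refine hηF ?_
  rw [show η = β' / β by rw [hβ', mul_div_cancel_right₀ _ hβ0]]
  exact div_mem (hEq ▸ (le_sup_left : L₁ ≤ L₂) hβ'L₁) hβ

/-- A Kummer element of `F` over `K` is a `p`-th power modulo `p`. -/
theorem exists_pow_congr (hp2 : p ≠ 2) (D : TameField p e) (hD : HasPointProperty D)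
    {α : C} (hα : α ∈ D.K) (hα0 : α ≠ 0) {β : C} (hβ : β ∈ D.F) (hpow : β ^ p = α) :
    ∃ γ ∈ D.K, γ ≠ 0 ∧ ‖α / γ ^ p - 1‖ ≤ ‖(p : C)‖ := by
  have hp : p.Prime := Fact.out
  by_contra hcon
  push Not at hcon
  have := D.finite
  set g := ‖D.ϖ‖ with hg
  have hg0 : 0 < g := D.norm_varpi_pos
  have hg1 : g < 1 := D.norm_varpi_lt_one
  obtain ⟨s, hs⟩ := D.exists_norm_K_eq hα hα0
  by_cases hps : (p : ℤ) ∣ s
  swap
  · refine false_of_jump D hD hα hβ hpow 0 0 D.e_pos hps ?_ ?_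
    · rw [Nat.cast_zero, sub_zero, ← norm_pow, hpow, hs]
    · rw [pow_zero, mul_one, Nat.cast_zero, sub_zero]
  obtain ⟨k, rfl⟩ := hps
  -- normalise to a principal unit
  obtain ⟨γ₀, hγ₀, hγ₀0, hclose₀⟩ : ∃ γ ∈ D.K, γ ≠ 0 ∧ ‖α / γ ^ p - 1‖ ≤ g ^ 1 := by
    set α₁ := α / (D.ϖ ^ k) ^ p with hα₁def
    have hα₁ : α₁ ∈ D.K := div_mem hα (pow_mem (zpow_mem D.varpi_mem_K k) p)
    have h1 : ‖α₁‖ = 1 := by
      rw [hα₁def, norm_div, norm_pow, norm_zpow, hs, ← hg, ← zpow_natCast (g ^ k), ← zpow_mul,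
        mul_comm, div_self (zpow_ne_zero _ hg0.ne')]
    obtain ⟨z, hzF, N, hN, hzN, hzlt⟩ := D.exists_root_norm_sub_lt (D.K_le hα₁) h1
    have hzW : z ∈ D.W := IntermediateField.subset_adjoin ℚ_[p] _ ⟨hzF, N, hN, hzN⟩
    have hN0 : N ≠ 0 := fun h => hN (h ▸ dvd_zero p)
    obtain ⟨j, hj⟩ : ∃ j : ℕ, (z ^ j) ^ p = z := by
      have hcop : p.Coprime N := hp.coprime_iff_not_dvd.2 hN
      have h1 := (Nat.ModEq.pow_totient hcop).symm
      refine ⟨p ^ (N.totient - 1), ?_⟩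
      rw [← pow_mul, ← pow_succ, Nat.sub_add_cancel (Nat.totient_pos.2 (Nat.pos_of_ne_zero hN0)),
        ← pow_eq_pow_of_modEq h1 hzN, pow_one]
    have hz1 : ‖z‖ = 1 := norm_eq_one_of_pow_eq_one hN0 hzN
    have hz0 : z ≠ 0 := norm_ne_zero_iff.1 (hz1.trans_ne one_ne_zero)
    refine ⟨D.ϖ ^ k * z ^ j, mul_mem (zpow_mem D.varpi_mem_K k) (pow_mem (D.W_le_K hzW) j),
      mul_ne_zero (zpow_ne_zero _ D.varpi_ne_zero) (pow_ne_zero _ hz0), ?_⟩
    rw [mul_pow, hj, ← div_div, ← hα₁def, div_sub_one hz0, norm_div, hz1, div_one, pow_one]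
    exact D.norm_le_varpi_of_lt_one (sub_mem hα₁ (D.W_le_K hzW)) hzlt
  have hstep : ∀ i, i < e → ∃ γ ∈ D.K, γ ≠ 0 ∧ ‖α / γ ^ p - 1‖ ≤ g ^ (i + 1) := by
    intro i
    induction i with
    | zero => exact fun _ => ⟨γ₀, hγ₀, hγ₀0, hclose₀⟩
    | succ i ih =>
      intro hi
      obtain ⟨γ, hγ, hγ0, hle⟩ := ih (by omega)
      set x := α / γ ^ p with hxdef
      have hx : x ∈ D.K := div_mem hα (pow_mem hγ p)
      rcases hle.lt_or_eq with hlt | heq
      · refine ⟨γ, hγ, hγ0, ?_⟩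
        rcases eq_or_ne (x - 1) 0 with h0 | h0
        · rw [h0, norm_zero]; exact pow_nonneg hg0.le _
        obtain ⟨l, hl⟩ := D.exists_norm_K_eq (sub_mem hx (one_mem _)) h0
        rw [hl] at hlt ⊢
        rw [← zpow_natCast] at hlt ⊢
        exact zpow_le_zpow_right_of_le_one₀ hg0 hg1.le (by
          have := (zpow_lt_zpow_iff_right_of_lt_one₀ hg0 hg1).1 hlt
          push_cast at this ⊢
          omega)
      have hxgt : ‖(p : C)‖ < ‖x - 1‖ := hcon γ hγ hγ0
      have hpx : (β / γ) ^ p = x := by rw [div_pow, hpow]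
      have hx1 : ‖x‖ = 1 := by
        have hlt1 : ‖x - 1‖ < 1 := hle.trans_lt (pow_lt_one₀ hg0.le hg1 (Nat.succ_ne_zero i))
        rw [show x = (x - 1) + 1 by ring, IsUltrametricDist.norm_add_eq_max_of_norm_ne_norm (by
          rw [norm_one]; exact hlt1.ne), norm_one, max_eq_right hlt1.le]
      have hb1 : ‖β / γ‖ = 1 :=
        (pow_eq_one_iff_of_nonneg (norm_nonneg _) hp.ne_zero).1 (by rw [← norm_pow, hpx, hx1])
      by_cases hpi : p ∣ i + 1
      swap
      · have hjump : ‖β / γ - ((1 : ℕ) : C)‖ ^ p = g ^ (i + 1) := by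
          rw [Nat.cast_one, norm_sub_one_pow hb1.le (by rwa [hpx]), hpx, heq]
        refine (false_of_jump D hD hx (div_mem hβ (D.K_le hγ)) hpx 1 (i + 1) (by omega)
          (s := ((i + 1 : ℕ) : ℤ)) (by exact_mod_cast hpi) ?_ ?_).elim
        · rw [zpow_natCast]; exact hjump
        · rw [hjump, hb1, one_pow, one_mul]
      obtain ⟨j, hj⟩ := hpi
      have hj0 : 0 < j := Nat.pos_of_ne_zero fun h => by rw [h, mul_zero] at hj; omega
      obtain ⟨w, hwW, hw1, hw⟩ := D.exists_leadingCoeff (sub_mem hx (one_mem _)) hle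
      have hwn : ‖w‖ = 1 := by
        refine le_antisymm hw1 (not_lt.1 fun hlt => ?_)
        have hwp : ‖w * D.ϖ ^ (i + 1)‖ < g ^ (i + 1) := by
          rw [norm_mul, norm_pow]
          exact mul_lt_of_lt_one_left (pow_pos hg0 _) hlt
        have h2 : ‖x - 1‖ < g ^ (i + 1) := by
          rw [show x - 1 = (x - 1 - w * D.ϖ ^ (i + 1)) + w * D.ϖ ^ (i + 1) by ring]
          exact (IsUltrametricDist.norm_add_le_max _ _).trans_lt (max_lt
            (hw.trans_lt (pow_lt_pow_right_of_lt_one₀ hg0 hg1 (Nat.lt_succ_self _))) hwp)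
        exact h2.ne heq
      obtain ⟨z, hzF, N, hN, hzN, hzlt⟩ := D.exists_root_norm_sub_lt (D.K_le (D.W_le_K hwW)) hwn
      have hzW : z ∈ D.W := IntermediateField.subset_adjoin ℚ_[p] _ ⟨hzF, N, hN, hzN⟩
      have hN0 : N ≠ 0 := fun h => hN (h ▸ dvd_zero p)
      have hz1 : ‖z‖ = 1 := norm_eq_one_of_pow_eq_one hN0 hzN
      obtain ⟨l, hl⟩ : ∃ l : ℕ, (z ^ l) ^ p = z := by
        have h1 := (Nat.ModEq.pow_totient (hp.coprime_iff_not_dvd.2 hN)).symm
        refine ⟨p ^ (N.totient - 1), ?_⟩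
        rw [← pow_mul, ← pow_succ, Nat.sub_add_cancel (Nat.totient_pos.2 (Nat.pos_of_ne_zero hN0)),
          ← pow_eq_pow_of_modEq h1 hzN, pow_one]
      set v := z ^ l * D.ϖ ^ j with hvdef
      have hv : ‖v‖ = g ^ j := by rw [hvdef, norm_mul, norm_pow, hz1, one_pow, one_mul, norm_pow]
      have hvlt : ‖v‖ < 1 := hv ▸ pow_lt_one₀ hg0.le hg1 hj0.ne'
      obtain ⟨S, hS, -, hS1⟩ := exists_add_one_pow hvlt.le
      have hvp : v ^ p = z * D.ϖ ^ (i + 1) := by
        rw [hvdef, mul_pow, hl, ← pow_mul, mul_comm j, ← hj]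
      have hn1 : ‖v + 1‖ = 1 := by
        rw [IsUltrametricDist.norm_add_eq_max_of_norm_ne_norm (by rw [norm_one]; exact hvlt.ne),
          norm_one, max_eq_right hvlt.le]
      have hn0 : v + 1 ≠ 0 := norm_ne_zero_iff.1 (hn1.trans_ne one_ne_zero)
      refine ⟨γ * (v + 1), mul_mem hγ (add_mem (mul_mem (pow_mem (D.W_le_K hzW) l)
        (pow_mem D.varpi_mem_K j)) (one_mem _)), mul_ne_zero hγ0 hn0, ?_⟩
      rw [mul_pow, ← div_div, ← hxdef, div_sub_one (pow_ne_zero p hn0), norm_div, norm_pow, hn1,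
        one_pow, div_one]
      have hge : g ^ (e + 1) ≤ g ^ (i + 1 + 1) :=
        pow_le_pow_of_le_one hg0.le hg1.le (by omega)
      rw [show x - (v + 1) ^ p = (x - 1 - w * D.ϖ ^ (i + 1)) +
        ((w - z) * D.ϖ ^ (i + 1) - (p : C) * v * S) by linear_combination -hS - hvp]
      refine (IsUltrametricDist.norm_add_le_max _ _).trans (max_le hw
        ((norm_sub_le_max _ _).trans (max_le ?_ ?_)))
      · rw [norm_mul, norm_pow, pow_succ' g (i + 1)]
        exact mul_le_mul_of_nonneg_right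
          (D.norm_le_varpi_of_lt_one (D.W_le_K (sub_mem hwW hzW)) hzlt) (pow_nonneg hg0.le _)
      · refine le_trans ?_ hge
        rw [mul_assoc, norm_mul, ← D.norm_varpi_pow, pow_succ g e, norm_mul, hv]
        refine mul_le_mul_of_nonneg_left ((mul_le_of_le_one_right (pow_nonneg hg0.le _) hS1).trans
          ?_) (pow_nonneg hg0.le _)
        exact pow_le_of_le_one hg0.le hg1.le hj0.ne'
  obtain ⟨γ, hγ, hγ0, hle⟩ := hstep (e - 1) (Nat.sub_lt D.e_pos one_pos)
  rw [Nat.sub_add_cancel (show 1 ≤ e from D.e_pos)] at hle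
  exact absurd (hle.trans_eq D.norm_varpi_pow) (not_le.2 (hcon γ hγ hγ0))

end Fermat.Agent.FlatLocal
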