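import Mathlib.NumberTheory.Padics.Complex
import Mathlib.NumberTheory.Padics.RingHoms
import Mathlib.FieldTheory.Galois.Infinite

/-!
# Local definitions for the flat tangent bound at `p`

Everything happens in `C = PadicAlgCl p` with its norm. A `Model` of a finite Galois module `M`
killed by `p` is what a finite flat group scheme over `ℤ_p` gives: a finite set of equivariant
integral functions on `M`, a `C`-basis of all functions, with integral structure constants for
multiplication and for translation.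
-/

set_option autoImplicit false

noncomputable section

namespace Fermat.Agent.FlatLocal

variable (p : ℕ) [Fact p.Prime]

local notation "C" => PadicAlgCl p

/-- The local absolute Galois group. -/
abbrev Gp : Type := PadicAlgCl p ≃ₐ[ℚ_[p]] PadicAlgCl p

variable {p}

/-- A `p`-adic integer as an element of `C`. -/
def cst (c : ℤ_[p]) : C := algebraMap ℚ_[p] C (c : ℚ_[p])

/-- Inertia: integral elements are moved by less than one. -/
def IsInertia (σ : Gp p) : Prop := ∀ x : C, ‖x‖ ≤ 1 → ‖σ x - x‖ < 1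

/-- `σ` fixes the roots of unity of order dividing `p ^ d - 1`. -/
def FixesUnity (d : ℕ) (σ : Gp p) : Prop := ∀ z : C, z ^ (p ^ d - 1) = 1 → σ z = z

variable (p)

/-- An integral model of a finite Galois module killed by `p`. -/
structure Model (M : Type) [AddCommGroup M] [DistribMulAction (Gp p) M] where
  /-- The number of functions. -/
  n : ℕ
  /-- The functions. -/
  b : Fin n → M → PadicAlgCl p
  norm_le : ∀ i m, ‖b i m‖ ≤ 1
  equivariant : ∀ i (σ : Gp p) m, b i (σ • m) = σ (b i m)
  linearIndependent : LinearIndependent (PadicAlgCl p) b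
  span_eq_top : Submodule.span (PadicAlgCl p) (Set.range b) = ⊤
  /-- The coordinates of the constant function `1`. -/
  oneCoeff : Fin n → ℤ_[p]
  one_eq : ∀ m, ∑ i, cst (oneCoeff i) * b i m = 1
  /-- The structure constants of multiplication. -/
  mulCoeff : Fin n → Fin n → Fin n → ℤ_[p]
  mul_eq : ∀ i j m, b i m * b j m = ∑ l, cst (mulCoeff i j l) * b l m
  /-- The structure constants of translation. -/
  addCoeff : Fin n → Fin n → Fin n → ℤ_[p]
  add_eq : ∀ i x y, b i (x + y) = ∑ j, ∑ l, cst (addCoeff i j l) * (b j x * b l y)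
  exponent : ∀ m : M, p • m = 0

variable {p}

/-- `φ` is a ring homomorphism modulo the ball of radius `r` on the integers of `F`. -/
structure IsApproxHom (F : IntermediateField ℚ_[p] C) (r : ℝ) (φ : C → C) : Prop where
  norm_le : ∀ x ∈ F, ‖x‖ ≤ 1 → ‖φ x‖ ≤ 1
  map_add : ∀ x ∈ F, ∀ y ∈ F, ‖x‖ ≤ 1 → ‖y‖ ≤ 1 → ‖φ (x + y) - (φ x + φ y)‖ ≤ r
  map_mul : ∀ x ∈ F, ∀ y ∈ F, ‖x‖ ≤ 1 → ‖y‖ ≤ 1 → ‖φ (x * y) - φ x * φ y‖ ≤ r
  map_cst : ∀ c : ℤ_[p], ‖φ (cst c) - cst c‖ ≤ r

/-- The radii for which approximate points lift. -/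
def IsSmallRadius (p : ℕ) [Fact p.Prime] (r : ℝ) : Prop :=
  0 ≤ r ∧ (r / ‖(p : PadicAlgCl p)‖) ^ (p - 1) < ‖(p : PadicAlgCl p)‖

end Fermat.Agent.FlatLocal
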