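import Fermat.Agent.FlatLocal.Engine.Eigen

/-!
# Counting Kummer classes which are `p`-th powers modulo `p`

Eigen-homomorphisms on `Gal(C/K)` all of whose Kummer elements are `p`-th powers modulo `p`:
the unit filtration `1 + p ϖ ^ l O_K`, `0 ≤ l ≤ e / (p - 1)`, leaves at most one line.
-/

set_option autoImplicit false

noncomputable section

namespace Fermat.Agent.FlatLocal

open Engine Polynomial

variable {p : ℕ} [Fact p.Prime] {e : ℕ}
variable {k : Type} [Field k] [CharP k p]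

/-- An allowed eigen-homomorphism with character trivial on inertia is unramified. -/
theorem eq_zero_of_allowed_of_trivial (hp2 : p ≠ 2) {d : ℕ} (hd : d = 1 ∨ d = 2)
    (D : TameField p e) (_he : e = p ^ d - 1) {χ c : Gp p → k}
    (hχ : ∀ σ : Gp p, IsInertia σ → χ σ = 1)
    (hc : IsEigenHom D d χ c) (ha : IsAllowed D c)
    {σ : Gp p} (hσ : D.FixK σ) (hI : IsInertia σ) : c σ = 0 := by
  have hp := (Fact.out : p.Prime)
  let _ : Algebra (ZMod p) k := ZMod.algebra k p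
  obtain ⟨τ, hτ, hprim⟩ := D.exists_inertia_generator
  obtain ⟨a, -, haz⟩ := exists_zeta_image D τ
  have hd0 : 0 < d := by omega
  have hχτ : χ τ ≠ 0 := by rw [hχ τ hτ]; exact one_ne_zero
  have hA := fun l => leadOp_inertia D (V := k) hτ haz
    (fun σ' h' => hc.map_conj τ (fixesUnity_inertia hτ hd0) σ' h') hχτ l
  rw [hχ τ hτ, div_one] at hA
  have hη := isPrimitiveRoot_res_xi D hprim
  have hηT : res (xi D τ) ^ top D = algebraMap (ZMod p) (Res p) a := by
    rw [res_xi_pow_top D hτ haz, ← map_natCast (algebraMap (ZMod p) (Res p)),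
      ZMod.natCast_zmod_val]
  have hT := top_lt D hp2
  refine (Module.forall_dual_apply_eq_zero_iff (ZMod p) (c σ)).1 fun f => ?_
  obtain ⟨w₀, hw₀⟩ := ha.exists_lead f.toAddMonoidHom
  obtain ⟨w, x, hx, hxl, -, β, hβ, hβσ⟩ :=
    exists_lead_of_le D (f := f) hA (res_xi_pow D τ) (Nat.zero_le (top D)) (fun l _ hl =>
      ⟨Polynomial.X - Polynomial.C a, by
        rw [Polynomial.aeval_algHom_apply, map_sub, aeval_X, aeval_C, sub_self, map_zero], by
        rw [map_sub, aeval_X, aeval_C, sub_ne_zero, ← hηT]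
        exact fun h => hl.ne (hη.pow_inj (hl.trans hT) hT h)⟩) ⟨w₀, hw₀⟩
  -- move the root close to one
  obtain ⟨β', hβ', hclose⟩ := exists_root_close D.zeta_spec (1 + (p : PadicAlgCl p) * x)
  have hle : ‖β' - 1‖ ≤ ‖D.zeta - 1‖ := by
    refine le_of_pow_le_pow_left₀ hp.ne_zero (norm_nonneg _) (hclose.trans ?_)
    rw [add_sub_cancel_left, norm_mul, ← norm_root_sub_one_pow D.zeta_spec,
      ← pow_sub_one_mul hp.ne_zero ‖D.zeta - 1‖]
    refine mul_le_mul_of_nonneg_left ?_ (by positivity)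
    rwa [norm_zeta_sub_one]
  have hb1 : ‖β'‖ = 1 :=
    norm_eq_one_of_sub_one_lt (hle.trans_lt (norm_root_sub_one_lt D.zeta_spec))
  have hb0 : β' ≠ 0 := norm_ne_zero_iff.1 (hb1.trans_ne one_ne_zero)
  have : NeZero p := ⟨hp.ne_zero⟩
  obtain ⟨i, -, hi⟩ := D.zeta_spec.eq_pow_of_pow_eq_one (ξ := β / β') (by
    rw [div_pow, hβ, ← hβ', div_self (pow_ne_zero _ hb0)])
  have hσ' : σ β' = D.zeta ^ (f (c σ)).val * β' := by
    have h : σ β = D.zeta ^ i * σ β' := by
      rw [show β = D.zeta ^ i * β' by rw [hi, div_mul_cancel₀ β hb0], map_mul,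
        fixK_zeta D hσ]
    rw [hβσ σ hσ, show β = D.zeta ^ i * β' by rw [hi, div_mul_cancel₀ β hb0],
      mul_left_comm] at h
    exact (mul_left_cancel₀ (pow_ne_zero _ (D.zeta_spec.ne_zero hp.ne_zero)) h).symm
  by_contra hne
  set m := (f (c σ)).val
  have hm : ¬ p ∣ m := fun h => hne ((ZMod.val_eq_zero (f (c σ))).1
    (Nat.eq_zero_of_dvd_of_lt h (f (c σ)).val_lt))
  have hpos := norm_root_sub_one_pos D.zeta_spec
  have hlt := hI ((β' - 1) / (D.zeta - 1)) (by rw [norm_div]; exact (div_le_one hpos).2 hle)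
  have heq : σ ((β' - 1) / (D.zeta - 1)) - (β' - 1) / (D.zeta - 1) =
      (D.zeta ^ m - 1) * β' / (D.zeta - 1) := by
    rw [map_div₀, map_sub, map_sub, map_one, hσ', hσ _ D.zeta_mem_K, ← sub_div]
    ring
  rw [heq, norm_div, norm_mul, norm_pow_sub_one D.zeta_spec hm, hb1, mul_one,
    div_self hpos.ne'] at hlt
  exact lt_irrefl _ hlt

/-- Level one: character `ω` on inertia. -/
theorem exists_dependent_of_allowed_one [Finite k] (hp2 : p ≠ 2) (D : TameField p e) (he : e = p - 1)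
    {χ c₁ c₂ : Gp p → k}
    (hχ : ∀ σ : Gp p, IsInertia σ → ∀ a : ℕ, σ D.zeta = D.zeta ^ a → χ σ = (a : k))
    (h₁ : IsEigenHom D 1 χ c₁) (ha₁ : IsAllowed D c₁)
    (h₂ : IsEigenHom D 1 χ c₂) (ha₂ : IsAllowed D c₂) :
    ∃ a b : k, (a ≠ 0 ∨ b ≠ 0) ∧ ∀ σ : Gp p, D.FixK σ → a * c₁ σ + b * c₂ σ = 0 := by
  have hp := (Fact.out : p.Prime)
  let _ : Algebra (ZMod p) k := ZMod.algebra k p
  obtain ⟨τ, hτ, hprim⟩ := D.exists_inertia_generator
  obtain ⟨a, ha0, haz⟩ := exists_zeta_image D τ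
  have hχτ : χ τ = algebraMap (ZMod p) k a := by
    rw [hχ τ hτ a.val haz, ← map_natCast (algebraMap (ZMod p) k), ZMod.natCast_zmod_val]
  have hne : χ τ ≠ 0 := by rw [hχτ]; exact (_root_.map_ne_zero _).2 ha0
  have hone : algebraMap (ZMod p) k a / χ τ = 1 := by rw [hχτ, div_self (hχτ ▸ hne)]
  have htop : top D = 1 := by
    refine Nat.eq_of_mul_eq_mul_right (show 0 < p - 1 by have := hp.two_le; omega) ?_
    rw [top_mul, he, one_mul]
  refine exists_dependent D one_pos h₁ ha₁ h₂ ha₂ hτ haz hne (l0 := 0) (by omega)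
    (by rw [add_zero]; exact D.not_dvd) ?_ fun l hl hl0 => ?_
  · rw [Module.natCard_eq_pow_finrank (K := ZMod p), Nat.card_zmod]
    exact Nat.pow_le_pow_right hp.pos Module.finrank_pos
  · refine ⟨Polynomial.X - 1, by rw [hone, map_sub, aeval_X, map_one, sub_self], ?_⟩
    rw [map_sub, aeval_X, map_one, sub_ne_zero]
    exact (isPrimitiveRoot_res_xi D hprim).pow_ne_one_of_pos_of_lt hl0 (by
      have := hp.two_le
      omega)

/-- Level two: character `θ ^ (1 - p)` on inertia, `θ` the fundamental character of level two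
(`u σ` is `σ ϖ / ϖ` read in `k` through some embedding of the residue field). -/
theorem exists_dependent_of_allowed_two [Finite k] (hp2 : p ≠ 2) (D : TameField p e)
    (he : e = p ^ 2 - 1) {χ u c₁ c₂ : Gp p → k}
    (hu : ∀ σ : Gp p, IsInertia σ → ∀ P : Polynomial ℤ,
      ‖Polynomial.aeval (σ D.ϖ / D.ϖ) P‖ < 1 → Polynomial.aeval (u σ) P = 0)
    (hχ : ∀ σ : Gp p, IsInertia σ → χ σ = u σ ^ (p * (p - 1)))
    (h₁ : IsEigenHom D 2 χ c₁) (ha₁ : IsAllowed D c₁)
    (h₂ : IsEigenHom D 2 χ c₂) (ha₂ : IsAllowed D c₂) :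
    ∃ a b : k, (a ≠ 0 ∨ b ≠ 0) ∧ ∀ σ : Gp p, D.FixK σ → a * c₁ σ + b * c₂ σ = 0 := by
  let _ : Algebra (ZMod p) k := ZMod.algebra k p
  obtain ⟨τ, hτ, hprim⟩ := D.exists_inertia_generator
  obtain ⟨a, -, haz⟩ := exists_zeta_image D τ
  obtain ⟨hne, hl0, hdvd, hcard, hsep⟩ :=
    eigen_two D hp2 he hτ hprim haz (hu τ hτ) (hχ τ hτ)
  exact exists_dependent D two_pos h₁ ha₁ h₂ ha₂ hτ haz hne hl0 hdvd hcard hsep

end Fermat.Agent.FlatLocal
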