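import Fermat.Agent.FlatLocal.Residue

/-!
# Expansions along a totally ramified element

If the value group of `E` is `g ^ (m ℤ)` and `‖π‖ = g`, the terms of `∑ j < m, b_j π ^ j` have
distinct norms.
-/

set_option autoImplicit false

noncomputable section

open Polynomial IntermediateField

namespace Fermat.Agent.FlatLocal

variable {p : ℕ} [Fact p.Prime]

local notation "C" => PadicAlgCl p

/-- In an ultrametric sum whose non-zero terms have distinct norms, each term is bounded by the sum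
and some term has the norm of the sum. -/
theorem norm_sum_distinct {ι : Type*} (s : Finset ι) (f : ι → C)
    (hs : ∀ i ∈ s, ∀ j ∈ s, f i ≠ 0 → ‖f i‖ = ‖f j‖ → i = j) :
    (∀ i ∈ s, ‖f i‖ ≤ ‖∑ j ∈ s, f j‖) ∧
      (∑ j ∈ s, f j ≠ 0 → ∃ i ∈ s, ‖∑ j ∈ s, f j‖ = ‖f i‖) := by
  classical
  set t := s.filter (fun i => f i ≠ 0)
  have hsum : ∑ j ∈ t, f j = ∑ j ∈ s, f j := Finset.sum_filter_ne_zero s
  rcases t.eq_empty_or_nonempty with ht | ht
  · have h0 : ∀ i ∈ s, f i = 0 := fun i hi => by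
      by_contra h
      exact Finset.notMem_empty i (ht ▸ Finset.mem_filter.2 ⟨hi, h⟩)
    refine ⟨fun i hi => ?_, fun h => absurd (Finset.sum_eq_zero h0) h⟩
    rw [h0 i hi, norm_zero]
    exact norm_nonneg _
  have hpair : Set.Pairwise (t : Set ι) fun i j => ‖f i‖ ≠ ‖f j‖ := fun i hi j hj hne he => by
    rw [Finset.mem_coe, Finset.mem_filter] at hi hj
    exact hne (hs i hi.1 j hj.1 hi.2 he)
  have hnorm := IsUltrametricDist.norm_sum_eq_sup'_of_pairwise_ne ht hpair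
  refine ⟨fun i hi => ?_, fun _ => ?_⟩
  · rcases eq_or_ne (f i) 0 with h | h
    · rw [h, norm_zero]; exact norm_nonneg _
    · rw [← hsum, hnorm]
      exact Finset.le_sup' (fun i => ‖f i‖) (Finset.mem_filter.2 ⟨hi, h⟩)
  · obtain ⟨i, hi, he⟩ := Finset.exists_mem_eq_sup' ht (fun i => ‖f i‖)
    exact ⟨i, (Finset.mem_filter.1 hi).1, by rw [← hsum, hnorm, he]⟩

/-- The value group of `E` is `g ^ (m ℤ)`. -/
def NormsIn (E : IntermediateField ℚ_[p] C) (g : ℝ) (m : ℕ) : Prop :=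
  ∀ x ∈ E, x ≠ 0 → ∃ i : ℤ, ‖x‖ = (g ^ m) ^ i

variable {E : IntermediateField ℚ_[p] (PadicAlgCl p)} {g : ℝ} {m : ℕ} {π : PadicAlgCl p}

theorem norm_term_le (hg0 : 0 < g) (hg1 : g < 1) (hπ : ‖π‖ = g) (hE : NormsIn E g m)
    {b : Fin m → C} (hb : ∀ j, b j ∈ E) (k : Fin m) :
    ‖b k * π ^ (k : ℕ)‖ ≤ ‖∑ j, b j * π ^ (j : ℕ)‖ ∧
      (∑ j, b j * π ^ (j : ℕ) ≠ 0 →
        ∃ i : Fin m, b i ≠ 0 ∧ ‖∑ j, b j * π ^ (j : ℕ)‖ = ‖b i * π ^ (i : ℕ)‖) := by
  have hπ0 : π ≠ 0 := norm_pos_iff.1 (hπ ▸ hg0)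
  have hdist : ∀ i ∈ (Finset.univ : Finset (Fin m)), ∀ j ∈ (Finset.univ : Finset (Fin m)),
      b i * π ^ (i : ℕ) ≠ 0 → ‖b i * π ^ (i : ℕ)‖ = ‖b j * π ^ (j : ℕ)‖ → i = j := by
    intro i _ j _ hi he
    have hbi : b i ≠ 0 := left_ne_zero_of_mul hi
    have hbj : b j ≠ 0 := fun h => by
      rw [h, zero_mul, norm_zero, norm_eq_zero] at he; exact hi he
    obtain ⟨u, hu⟩ := hE _ (hb i) hbi
    obtain ⟨v, hv⟩ := hE _ (hb j) hbj
    rw [norm_mul, norm_mul, norm_pow, norm_pow, hu, hv, hπ, ← zpow_natCast g, ← zpow_mul,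
      ← zpow_natCast g, ← zpow_natCast g, ← zpow_mul, ← zpow_add₀ hg0.ne',
      ← zpow_add₀ hg0.ne'] at he
    have h := zpow_right_injective₀ hg0 hg1.ne he
    have h' : ((i : ℕ) : ℤ) % (m : ℤ) = ((j : ℕ) : ℤ) % (m : ℤ) := by
      rw [← Int.add_mul_emod_self_left ((i : ℕ) : ℤ) (m : ℤ) u,
        ← Int.add_mul_emod_self_left ((j : ℕ) : ℤ) (m : ℤ) v]
      congr 1
      linarith
    rw [Int.emod_eq_of_lt (by omega) (by omega), Int.emod_eq_of_lt (by omega) (by omega)] at h'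
    exact Fin.ext (by exact_mod_cast h')
  obtain ⟨h1, h2⟩ := norm_sum_distinct Finset.univ (fun j : Fin m => b j * π ^ (j : ℕ)) hdist
  refine ⟨h1 k (Finset.mem_univ k), fun hne => ?_⟩
  obtain ⟨i, -, hi⟩ := h2 hne
  refine ⟨i, fun h0 => ?_, hi⟩
  rw [h0, zero_mul, norm_zero, norm_eq_zero] at hi
  exact hne hi

theorem coeff_norm_le_one (hg0 : 0 < g) (hg1 : g < 1) (hπ : ‖π‖ = g) (hE : NormsIn E g m)
    {b : Fin m → C} (hb : ∀ j, b j ∈ E) (h : ‖∑ j, b j * π ^ (j : ℕ)‖ ≤ 1) (k : Fin m) :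
    ‖b k‖ ≤ 1 := by
  rcases eq_or_ne (b k) 0 with h0 | h0
  · simp [h0]
  obtain ⟨u, hu⟩ := hE _ (hb k) h0
  have hle := (norm_term_le hg0 hg1 hπ hE hb k).1.trans h
  rw [norm_mul, norm_pow, hu, hπ, ← zpow_natCast g, ← zpow_mul, ← zpow_natCast g,
    ← zpow_add₀ hg0.ne', zpow_le_one_iff_right_of_lt_one₀ hg0 hg1] at hle
  rw [hu, ← zpow_natCast g, ← zpow_mul, zpow_le_one_iff_right_of_lt_one₀ hg0 hg1]
  by_contra hneg
  push Not at hneg
  have hk : ((k : ℕ) : ℤ) < (m : ℤ) := by exact_mod_cast k.2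
  have : u < 0 := by
    by_contra hu0
    push Not at hu0
    exact absurd hneg (not_lt.2 (mul_nonneg (Int.natCast_nonneg m) hu0))
  nlinarith

/-- `π` has degree at least `m` over `E`. -/
theorem le_natDegree_minpoly (hg0 : 0 < g) (hg1 : g < 1) (hπ : ‖π‖ = g) (hE : NormsIn E g m) :
    m ≤ (minpoly E π).natDegree := by
  have hint : IsIntegral E π := (Algebra.IsAlgebraic.isAlgebraic π).isIntegral
  by_contra hcon
  push Not at hcon
  set P := minpoly E π
  have hsum : ∑ j : Fin m, (P.coeff (j : ℕ) : C) * π ^ (j : ℕ) = 0 := by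
    rw [Fin.sum_univ_eq_sum_range (fun j => (P.coeff j : C) * π ^ j) m]
    have := minpoly.aeval E π
    rw [aeval_eq_sum_range' hcon] at this
    exact this
  have hle := (norm_term_le hg0 hg1 hπ hE (b := fun j : Fin m => (P.coeff (j : ℕ) : C))
    (fun j => (P.coeff (j : ℕ)).2) ⟨P.natDegree, hcon⟩).1
  rw [hsum, norm_zero, norm_le_zero_iff] at hle
  have hπ0 : π ≠ 0 := norm_pos_iff.1 (hπ ▸ hg0)
  have h1 : (P.coeff P.natDegree : C) = 1 := by
    rw [(minpoly.monic hint).coeff_natDegree]; rfl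
  rw [h1, one_mul] at hle
  exact pow_ne_zero _ hπ0 hle

theorem sup_adjoin_eq (E : IntermediateField ℚ_[p] C) (x : C) :
    (IntermediateField.adjoin E {x}).restrictScalars ℚ_[p] =
      E ⊔ IntermediateField.adjoin ℚ_[p] {x} := by
  rw [IntermediateField.restrictScalars_adjoin, IntermediateField.adjoin_union,
    IntermediateField.adjoin_self]

theorem finrank_sup_adjoin (x : C) :
    Module.finrank ℚ_[p] (E ⊔ IntermediateField.adjoin ℚ_[p] {x} : IntermediateField ℚ_[p] C) =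
      Module.finrank ℚ_[p] E * (minpoly E x).natDegree := by
  rw [← sup_adjoin_eq]
  have hint : IsIntegral E x := (Algebra.IsAlgebraic.isAlgebraic x).isIntegral
  rw [← IntermediateField.adjoin.finrank hint, Module.finrank_mul_finrank]
  rfl

/-- Elements of `E(x)` are polynomials in `x` of degree less than that of `x`. -/
theorem exists_expansion (x : C) {d : ℕ} (hd : (minpoly E x).natDegree ≤ d) {y : C}
    (hy : y ∈ E ⊔ IntermediateField.adjoin ℚ_[p] {x}) :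
    ∃ b : Fin d → C, (∀ j, b j ∈ E) ∧ y = ∑ j, b j * x ^ (j : ℕ) := by
  rw [← sup_adjoin_eq, IntermediateField.mem_restrictScalars] at hy
  have hint : IsIntegral E x := (Algebra.IsAlgebraic.isAlgebraic x).isIntegral
  set B := IntermediateField.adjoin.powerBasis hint
  obtain ⟨P, hP, hPy⟩ := B.exists_eq_aeval ⟨y, hy⟩
  have hdim : P.natDegree < d := hP.trans_le (by rwa [IntermediateField.adjoin.powerBasis_dim])
  refine ⟨fun j => (P.coeff j : C), fun j => (P.coeff j).2, ?_⟩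
  rw [Fin.sum_univ_eq_sum_range (fun j => (P.coeff j : C) * x ^ j) d]
  have h := congrArg ((IntermediateField.adjoin E {x}).val) hPy
  rw [← aeval_algHom_apply] at h
  rw [IntermediateField.adjoin.powerBasis_gen] at h
  exact h.trans (aeval_eq_sum_range' hdim (S := C) x)

/-- The value group of `E(π)`. -/
theorem exists_norm_sup_adjoin (hg0 : 0 < g) (hg1 : g < 1) (hπ : ‖π‖ = g) (hE : NormsIn E g m)
    (hd : (minpoly E π).natDegree ≤ m) {y : C}
    (hy : y ∈ E ⊔ IntermediateField.adjoin ℚ_[p] {π}) (hy0 : y ≠ 0) :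
    ∃ i : ℤ, ‖y‖ = g ^ i := by
  obtain ⟨b, hb, rfl⟩ := exists_expansion π hd hy
  rcases Nat.eq_zero_or_pos m with rfl | hm
  · exact absurd (by simp) hy0
  obtain ⟨i, hi0, hi⟩ := (norm_term_le hg0 hg1 hπ hE hb ⟨0, hm⟩).2 hy0
  obtain ⟨u, hu⟩ := hE _ (hb i) hi0
  refine ⟨(m : ℤ) * u + (i : ℕ), ?_⟩
  rw [hi, norm_mul, norm_pow, hu, hπ, ← zpow_natCast g, ← zpow_mul, ← zpow_natCast g,
    ← zpow_add₀ hg0.ne']

end Fermat.Agent.FlatLocal
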