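import Fermat.Agent.FlatLocal.Wild
import Fermat.Agent.FlatLocal.FromFlat

/-!
# Points near the origin of a local model

A point of a module with an algebra of functions is near the origin when every function takes
congruent values at it and at the origin. Displacements by inertia are near the origin, nearness
is stable under subtraction, and a near point of a module killed by `p` with trivial inertia
vanishes.
-/

set_option autoImplicit false

noncomputable section

open scoped TensorProduct

namespace Fermat.Agent.FlatLocal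

variable {p : ℕ} [Fact p.Prime]

local notation "C" => PadicAlgCl p

variable {M : Type} [AddCommGroup M]

/-- The values of all functions of `H` at `m` and at the origin are congruent. -/
def IsNearZero (H : Subalgebra ℤ_[p] (M → PadicAlgCl p)) (m : M) : Prop :=
  ∀ f ∈ H, ‖f m - f 0‖ < 1

variable [DistribMulAction (Gp p) M] {H : Subalgebra ℤ_[p] (M → PadicAlgCl p)}

theorem norm_apply_le_one (hH : FiniteFlat.IsFunctionModel ℚ_[p] H) {f : M → C} (hf : f ∈ H)
    (m : M) : ‖f m‖ ≤ 1 := by
  have := hH.1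
  exact norm_le_one_of_isIntegral_padicInt
    ((Algebra.IsIntegral.isIntegral (⟨f, hf⟩ : H)).map
      ((Pi.evalAlgHom ℤ_[p] (fun _ : M => C) m).comp H.val))

theorem norm_mul_sub_mul_lt {a b a' b' : C} (ha : ‖a - a'‖ < 1) (hb : ‖b - b'‖ < 1)
    (hb1 : ‖b‖ ≤ 1) (ha1 : ‖a'‖ ≤ 1) : ‖a * b - a' * b'‖ < 1 := by
  rw [show a * b - a' * b' = (a - a') * b + a' * (b - b') by ring]
  refine (IsUltrametricDist.norm_add_le_max _ _).trans_lt (max_lt ?_ ?_) <;> rw [norm_mul]
  · exact (mul_le_of_le_one_right (norm_nonneg _) hb1).trans_lt ha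
  · exact (mul_le_of_le_one_left (norm_nonneg _) ha1).trans_lt hb

/-- Congruent summands give congruent values at the sum. -/
theorem norm_apply_add_sub_lt (hH : FiniteFlat.IsFunctionModel ℚ_[p] H) {x y x' y' : M}
    (hx : ∀ f ∈ H, ‖f x - f x'‖ < 1) (hy : ∀ f ∈ H, ‖f y - f y'‖ < 1) {f : M → C} (hf : f ∈ H) :
    ‖f (x + y) - f (x' + y')‖ < 1 := by
  have h := hH.2.2.2.1 f hf
  rw [← FiniteFlat.range_tensorEval_eq_sup] at h
  obtain ⟨z, hz⟩ := h
  have hv : ∀ a b : M, FiniteFlat.tensorEval H.val H.val z (a, b) = f (a + b) := fun a b =>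
    congrFun hz (a, b)
  rw [← hv x y, ← hv x' y']
  clear hv hz
  induction z using TensorProduct.induction_on with
  | zero => simp only [map_zero, Pi.zero_apply, sub_zero, norm_zero, zero_lt_one]
  | tmul u v =>
    rw [FiniteFlat.tensorEval_tmul, FiniteFlat.tensorEval_tmul]
    exact norm_mul_sub_mul_lt (hx _ u.2) (hy _ v.2) (norm_apply_le_one hH v.2 _)
      (norm_apply_le_one hH u.2 _)
  | add u v hu hv =>
    rw [map_add, Pi.add_apply, Pi.add_apply, add_sub_add_comm]
    exact (IsUltrametricDist.norm_add_le_max _ _).trans_lt (max_lt hu hv)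

theorem IsNearZero.sub (hH : FiniteFlat.IsFunctionModel ℚ_[p] H) {a b : M} (ha : IsNearZero H a)
    (hb : IsNearZero H b) : IsNearZero H (a - b) := by
  have hb' : ∀ f ∈ H, ‖f (-b) - f 0‖ < 1 := fun f hf => by
    have h := hb (FiniteFlat.funPullback ℤ_[p] (fun m : M => -m) f) (hH.2.2.2.2 f hf)
    simp only [FiniteFlat.funPullback_apply, neg_zero] at h
    exact h
  intro f hf
  have h := norm_apply_add_sub_lt hH ha hb' hf
  rwa [add_zero, ← sub_eq_add_neg] at h

/-- Displacements by inertia are near the origin. -/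
theorem isNearZero_smul_sub (hH : FiniteFlat.IsFunctionModel ℚ_[p] H) {σ : Gp p}
    (hσ : IsInertia σ) (m : M) : IsNearZero H (σ • m - m) := by
  intro f hf
  have h := norm_apply_add_sub_lt hH (x := σ • m) (x' := m) (y := -m) (y' := -m)
    (fun g hg => by rw [hH.2.1 g hg]; exact hσ _ (norm_apply_le_one hH hg m))
    (fun g _ => by simp) hf
  rwa [add_neg_cancel, ← sub_eq_add_neg] at h

/-- A near point of a module killed by `p` with trivial inertia vanishes. -/
theorem IsNearZero.eq_zero [Finite M] (hp2 : p ≠ 2) (hH : FiniteFlat.IsFunctionModel ℚ_[p] H)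
    (hexp : ∀ m : M, p • m = 0) (htriv : ∀ σ : Gp p, IsInertia σ → ∀ m : M, σ • m = m) {m : M}
    (hm : IsNearZero H m) : m = 0 := by
  obtain ⟨T, hT⟩ := exists_model_mem hexp hH
  obtain ⟨e, D, -, -, -, hwild⟩ := T.exists_bigField hp2
  obtain ⟨τ, hτ, hprim⟩ := D.exists_inertia_generator
  exact T.connected_inter_eq_zero hp2 D hwild hτ hprim ⊤ (fun _ _ _ _ => trivial)
    (fun _ _ => trivial) (fun n _ => by rw [htriv τ hτ n, sub_self, smul_zero]) m trivial
    fun i => hm _ (hT i)

/-- A difference of displacements by inertia lying in a stable subgroup `u` vanishes in every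
quotient of that subgroup killed by `p` on which inertia is trivial. -/
theorem map_eq_zero_of_eq_sub {P Q : Type} [AddCommGroup P] [Finite P]
    [DistribMulAction (Gp p) P] [AddCommGroup Q] [DistribMulAction (Gp p) Q] (hp2 : p ≠ 2)
    (hM : HasLocalModel p M) (u : P →+ M) (hu : Function.Injective u)
    (hu' : ∀ (σ : Gp p) x, u (σ • x) = σ • u x) (q : P →+ Q) (hq : Function.Surjective q)
    (hq' : ∀ (σ : Gp p) x, q (σ • x) = σ • q x) (hexp : ∀ y : Q, p • y = 0)
    (htriv : ∀ σ : Gp p, IsInertia σ → ∀ y : Q, σ • y = y) {x : P} {σ τ : Gp p}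
    (hσ : IsInertia σ) (hτ : IsInertia τ) {a b : M}
    (hx : u x = (σ • a - a) - (τ • b - b)) : q x = 0 := by
  have hQfin : Finite Q := Finite.of_surjective q hq
  obtain ⟨H, hH⟩ := hM
  have hHP := FiniteFlat.IsFunctionModel.map_pullback (k := ℚ_[p]) hH u hu hu'
  have hHQ := FiniteFlat.IsFunctionModel.comap_pullback hHP q hq hq'
  have hnear : IsNearZero H (u x) := hx ▸
    (isNearZero_smul_sub hH hσ a).sub hH (isNearZero_smul_sub hH hτ b)
  refine IsNearZero.eq_zero hp2 hHQ hexp htriv fun g hg => ?_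
  obtain ⟨f, hf, hfg⟩ := hg
  have h1 : f (u x) = g (q x) := congrFun hfg x
  have h2 : f (u 0) = g (q 0) := congrFun hfg 0
  rw [map_zero, map_zero] at h2
  rw [← h1, ← h2]
  exact hnear f hf

end Fermat.Agent.FlatLocal
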