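import Fermat.Agent.FlatLocal.Infinitesimal
import Fermat.Agent.FlatLocal.Bound.Deform
import Mathlib.RingTheory.DiscreteValuationRing.Basic

/-!
# Flat lifts of residually ordinary local representations are ordinary

Over a discrete valuation ring with finite residue field let all levels of a representation have
local models and let the residual representation be upper triangular with inertia trivial on the
quotient. The differences of displacements by inertia meet the socle of every level inside the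
residual line, so all displacements lie on the line of one residually nonzero displacement, and
the ordinary equations hold.

Owner: helper46.
-/

set_option autoImplicit false

noncomputable section

open Matrix IsLocalRing

namespace Fermat.Agent.FlatLocal

variable {p : ℕ} [Fact p.Prime]

/-- A representation with the coefficients changed along a ring homomorphism. -/
def repMap {A B : Type} [CommRing A] [CommRing B] (φ : A →+* B)
    (R : Gp p →* Matrix (Fin 2) (Fin 2) A) : Gp p →* Matrix (Fin 2) (Fin 2) B :=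
  φ.mapMatrix.toMonoidHom.comp R

theorem repMap_apply {A B : Type} [CommRing A] [CommRing B] (φ : A →+* B)
    (R : Gp p →* Matrix (Fin 2) (Fin 2) A) (σ : Gp p) : repMap φ R σ = (R σ).map φ := rfl

/-- A conjugate of an inertia element is an inertia element. -/
theorem isInertia_conj {τ : Gp p} (hτ : IsInertia τ) (g : Gp p) : IsInertia (g * τ * g⁻¹) := by
  intro x hx
  have h1 : ‖g⁻¹ x‖ ≤ 1 := (norm_algEquiv _ x).trans_le hx
  have h := hτ _ h1
  rw [← norm_algEquiv g, map_sub] at h
  have h2 : g (g⁻¹ x) = x := g.apply_symm_apply x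
  rwa [h2] at h

variable {O : Type} [CommRing O] [IsDomain O] [IsDiscreteValuationRing O]
  [Finite (ResidueField O)]

/-- A difference of two displacements by inertia whose first coordinate vanishes is zero. -/
theorem eq_zero_of_displacement (hp2 : p ≠ 2) (hpO : (p : O) ∈ maximalIdeal O)
    (R : Gp p →* Matrix (Fin 2) (Fin 2) O)
    (hmod : ∀ I : Ideal O, Finite (O ⧸ I) → HasLocalModel p (RepMod (repMap (Ideal.Quotient.mk I) R)))
    (h10 : ∀ g, R g 1 0 ∈ maximalIdeal O)
    (h11 : ∀ σ, IsInertia σ → R σ 1 1 - 1 ∈ maximalIdeal O) {σ τ : Gp p} (hσ : IsInertia σ)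
    (hτ : IsInertia τ) {x y z : Fin 2 → O} (hz : z = (R σ *ᵥ x - x) - (R τ *ᵥ y - y))
    (hz0 : z 0 = 0) : z 1 = 0 := by
  classical
  by_contra hne
  obtain ⟨ϖ, hϖ⟩ := IsDiscreteValuationRing.exists_irreducible O
  obtain ⟨j, w, hw⟩ := IsDiscreteValuationRing.eq_unit_mul_pow_irreducible hne hϖ
  have hm : maximalIdeal O = Ideal.span {ϖ} := hϖ.maximalIdeal_eq
  set I := Ideal.span {ϖ ^ (j + 1)} with hI
  have : Finite (O ⧸ maximalIdeal O) := inferInstanceAs (Finite (ResidueField O))
  have hfin : Finite (O ⧸ I) := by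
    rw [hI, ← Ideal.span_singleton_pow, ← hm]
    exact Ideal.finite_quotient_pow (IsNoetherian.noetherian _) _
  let r := repMap (Ideal.Quotient.mk I) R
  let rbar := repMap (residue O) R
  -- the socle
  let α : ResidueField O →+ O ⧸ I :=
    QuotientAddGroup.lift (maximalIdeal O).toAddSubgroup
      ((Ideal.Quotient.mk I).toAddMonoidHom.comp (AddMonoidHom.mulLeft (ϖ ^ j))) fun a ha => by
        rw [AddMonoidHom.mem_ker]
        show Ideal.Quotient.mk I (ϖ ^ j * a) = 0
        rw [Ideal.Quotient.eq_zero_iff_mem, hI, Ideal.mem_span_singleton, pow_succ]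
        exact mul_dvd_mul_left _ (Ideal.mem_span_singleton.1 (hm ▸ ha))
  have hα : ∀ a, α (residue O a) = Ideal.Quotient.mk I (ϖ ^ j * a) := fun _ => rfl
  have hαmul : ∀ a c, α (residue O a * c) = Ideal.Quotient.mk I a * α c := fun a c => by
    obtain ⟨c, rfl⟩ := residue_surjective c
    rw [← map_mul, hα, hα, ← map_mul]
    congr 1
    ring
  have hαinj : ∀ c, α c = 0 → c = 0 := fun c hc => by
    obtain ⟨c, rfl⟩ := residue_surjective c
    rw [hα, Ideal.Quotient.eq_zero_iff_mem, hI, Ideal.mem_span_singleton, pow_succ] at hc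
    rw [residue_eq_zero_iff, hm, Ideal.mem_span_singleton]
    exact (mul_dvd_mul_iff_left (pow_ne_zero j hϖ.ne_zero)).1 hc
  let u : RepMod rbar →+ RepMod r :=
    { toFun := fun v => RepMod.mk r fun i => α (RepMod.coords rbar v i)
      map_zero' := funext fun _ => α.map_zero
      map_add' := fun v v' => funext fun _ => α.map_add _ _ }
  have hu : Function.Injective u := (injective_iff_map_eq_zero u).2 fun v hv =>
    funext fun i => hαinj _ (congrFun hv i)
  have hu' : ∀ (g : Gp p) v, u (g • v) = g • u v := fun g v => funext fun i => by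
    show α ((rbar g *ᵥ RepMod.coords rbar v) i) = (r g *ᵥ fun j => α (RepMod.coords rbar v j)) i
    simp only [Matrix.mulVec, dotProduct, map_sum]
    exact Finset.sum_congr rfl fun l _ => hαmul (R g i l) _
  -- the residual quotient character
  have hb10 : ∀ g, rbar g 1 0 = 0 := fun g => (residue_eq_zero_iff _).2 (h10 g)
  let χ : Gp p →* ResidueField O :=
    { toFun := fun g => rbar g 1 1
      map_one' := by simp
      map_mul' := fun g g' => by
        simp [map_mul, Matrix.mul_apply, Fin.sum_univ_two, hb10 g] }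
  let q : RepMod rbar →+ CharMod χ :=
    { toFun := fun v => (RepMod.coords rbar v 1 : ResidueField O)
      map_zero' := rfl
      map_add' := fun _ _ => rfl }
  have hq' : ∀ (g : Gp p) v, q (g • v) = g • q v := fun g v => by
    show (rbar g *ᵥ RepMod.coords rbar v) 1 = rbar g 1 1 * RepMod.coords rbar v 1
    simp [Matrix.mulVec, dotProduct, Fin.sum_univ_two, hb10 g]
  have hexp : ∀ c : CharMod χ, p • c = 0 := fun c => by
    refine (show ∀ a : ResidueField O, p • a = 0 from fun a => ?_) c
    rw [nsmul_eq_mul, ← map_natCast (residue O), (residue_eq_zero_iff _).2 hpO, zero_mul]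
  have htriv : ∀ g : Gp p, IsInertia g → ∀ c : CharMod χ, g • c = c := fun g hg c => by
    show rbar g 1 1 * (show ResidueField O from c) = c
    rw [show rbar g 1 1 = 1 from sub_eq_zero.1 <| by
      show residue O (R g 1 1) - 1 = 0
      rw [← map_one (residue O), ← map_sub]
      exact (residue_eq_zero_iff _).2 (h11 g hg), one_mul]
  -- the point
  let v : RepMod rbar := RepMod.mk rbar ![0, residue O (w : O)]
  have hv : u v = (σ • RepMod.mk r (Ideal.Quotient.mk I ∘ x) - RepMod.mk r (Ideal.Quotient.mk I ∘ x))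
      - (τ • RepMod.mk r (Ideal.Quotient.mk I ∘ y) - RepMod.mk r (Ideal.Quotient.mk I ∘ y)) := by
    funext i
    show α (![0, residue O (w : O)] i) =
      ((r σ *ᵥ (Ideal.Quotient.mk I ∘ x)) i - Ideal.Quotient.mk I (x i)) -
        ((r τ *ᵥ (Ideal.Quotient.mk I ∘ y)) i - Ideal.Quotient.mk I (y i))
    have e : ∀ (g : Gp p) (a : Fin 2 → O),
        (r g *ᵥ (Ideal.Quotient.mk I ∘ a)) i = Ideal.Quotient.mk I ((R g *ᵥ a) i) := fun g a =>
      (RingHom.map_mulVec _ _ _ i).symm
    rw [e, e, ← map_sub, ← map_sub, ← map_sub,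
      show ((R σ *ᵥ x) i - x i) - ((R τ *ᵥ y) i - y i) = z i from (congrFun hz i).symm]
    fin_cases i
    · simp [hz0]
    · show α (residue O (w : O)) = Ideal.Quotient.mk I (z 1)
      rw [hα, hw, mul_comm]
  have hzero : residue O (w : O) = 0 :=
    map_eq_zero_of_eq_sub hp2 (hmod I hfin) u hu hu' q
      (fun c => ⟨RepMod.mk rbar ![0, c], rfl⟩) hq' hexp htriv hσ hτ hv
  exact (residue_eq_zero_iff _).1 hzero w.isUnit

/-- A flat lift of a residually ordinary representation satisfies the ordinary equations. -/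
theorem ordinary_eqns_of_localModels (hp2 : p ≠ 2) (hpO : (p : O) ∈ maximalIdeal O)
    (R : Gp p →* Matrix (Fin 2) (Fin 2) O)
    (hmod : ∀ I : Ideal O, Finite (O ⧸ I) → HasLocalModel p (RepMod (repMap (Ideal.Quotient.mk I) R)))
    (h10 : ∀ g, R g 1 0 ∈ maximalIdeal O)
    (h11 : ∀ σ, IsInertia σ → R σ 1 1 - 1 ∈ maximalIdeal O) {τ : Gp p} (hτ : IsInertia τ)
    (hτ0 : R τ 0 0 - 1 ∉ maximalIdeal O) :
    (R τ).trace = 1 + (R τ).det ∧
      (∀ g, ((R τ).det • 1 - R τ) * R g * (R τ - 1) = 0) ∧
      ∀ σ, IsInertia σ → ((R τ).det • 1 - R τ) * (R σ - 1) = 0 := by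
  set E := R τ - 1 with hE
  set u : Fin 2 → O := fun i => E i 0 with hu
  have hu0 : IsUnit (u 0) := by
    refine IsLocalRing.notMem_maximalIdeal.1 ?_
    simpa [hu, hE] using hτ0
  -- every displacement by inertia is a multiple of `u`
  have hline : ∀ σ, IsInertia σ → ∀ x : Fin 2 → O, ∃ c : O, R σ *ᵥ x - x = c • u := by
    intro σ hσ x
    obtain ⟨c, hc⟩ : ∃ c, (R σ *ᵥ x - x) 0 = c * u 0 :=
      ⟨(R σ *ᵥ x - x) 0 * (hu0.unit⁻¹ : Oˣ), by rw [mul_assoc, IsUnit.val_inv_mul, mul_one]⟩
    have hy : R τ *ᵥ (Pi.single 0 c : Fin 2 → O) - (Pi.single 0 c : Fin 2 → O) = c • u := by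
      funext i
      fin_cases i <;> simp [hu, hE] <;> ring
    have hz0 : ((R σ *ᵥ x - x) - (R τ *ᵥ (Pi.single 0 c : Fin 2 → O) - (Pi.single 0 c : Fin 2 → O))) 0 = 0 := by
      rw [hy, Pi.sub_apply, hc, Pi.smul_apply, smul_eq_mul, sub_self]
    have hz1 := eq_zero_of_displacement hp2 hpO R hmod h10 h11 hσ hτ rfl hz0
    refine ⟨c, sub_eq_zero.1 (funext fun i => ?_)⟩
    rw [← hy]
    fin_cases i
    · exact hz0
    · exact hz1
  have hcol : ∀ x, ∃ c : O, E *ᵥ x = c • u := fun x => by
    obtain ⟨c, hc⟩ := hline τ hτ x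
    exact ⟨c, by rw [hE, Matrix.sub_mulVec, Matrix.one_mulVec, hc]⟩
  -- the determinant of `E` vanishes
  obtain ⟨c₁, hc₁⟩ := hcol (Pi.single 1 1)
  have hE1 : ∀ i, E i 1 = c₁ * u i := fun i => by
    have := congrFun hc₁ i
    simpa [Matrix.mulVec_single] using this
  have htr : (R τ).trace = 1 + (R τ).det := by
    have e0 := hE1 0
    have e1 := hE1 1
    simp [hu, hE] at e0 e1
    rw [Matrix.trace_fin_two, Matrix.det_fin_two]
    linear_combination (R τ 1 0) * e0 - (R τ 0 0 - 1) * e1
  set F := (R τ).det • (1 : Matrix (Fin 2) (Fin 2) O) - R τ with hF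
  have hFu : F *ᵥ u = 0 := by
    have e0 := hE1 0
    have e1 := hE1 1
    rw [Matrix.trace_fin_two] at htr
    rw [Matrix.det_fin_two] at htr
    funext i
    fin_cases i <;>
      simp [hu, hE, hF, Matrix.mulVec, dotProduct, Fin.sum_univ_two, Matrix.det_fin_two] at e0 e1 ⊢
    · linear_combination (-(R τ 0 0)) * htr
    · linear_combination (-(R τ 1 0)) * htr
  have hkill : ∀ X : Matrix (Fin 2) (Fin 2) O,
      (∀ x, ∃ c : O, X *ᵥ x = c • u) → F * X = 0 := fun X hX => by
    refine Matrix.ext fun i l => ?_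
    obtain ⟨c, hc⟩ := hX (Pi.single l 1)
    have h : (F * X) *ᵥ Pi.single l 1 = 0 := by
      rw [← Matrix.mulVec_mulVec, hc, Matrix.mulVec_smul, hFu, smul_zero]
    simpa [Matrix.mulVec_single] using congrFun h i
  refine ⟨htr, fun g => ?_, fun σ hσ => hkill _ fun x => ?_⟩
  · rw [mul_assoc]
    refine hkill _ fun x => ?_
    obtain ⟨c, hc⟩ := hcol x
    obtain ⟨c', hc'⟩ := hline _ (isInertia_conj hτ g) (R g *ᵥ Pi.single 0 1)
    have hgu : R g *ᵥ u = c' • u := by
      rw [← hc', Matrix.mulVec_mulVec, ← map_mul, inv_mul_cancel_right, map_mul,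
        ← Matrix.mulVec_mulVec, ← Matrix.mulVec_sub]
      congr 1
      funext i
      fin_cases i <;> simp [hu, hE, Matrix.mulVec_single]
    exact ⟨c * c', by rw [← Matrix.mulVec_mulVec, hc, Matrix.mulVec_smul, hgu, smul_smul]⟩
  · obtain ⟨c, hc⟩ := hline σ hσ x
    exact ⟨c, by rw [Matrix.sub_mulVec, Matrix.one_mulVec, hc]⟩

end Fermat.Agent.FlatLocal
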