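import Fermat.Agent.FlatLocal.Ordinary
import Fermat.Agent.FlatLocal.Decomposition
import Fermat.Agent.RT.LocalAtP.Flat
import Fermat.Agent.RT.LocalAtP.StrictOrdinary

/-!
# Flat residually ordinary representations over discrete valuation rings

The global form of `ordinary_eqns_of_localModels` at the place of `padicEmbedding`. The ordinary
equations are the strict ordinary equations modulo `1`.

Owner: helper46.
-/

set_option autoImplicit false

noncomputable section

open Matrix IsLocalRing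

namespace Fermat.Agent.FlatLocal

local notation "ℚ̄" => AlgebraicClosure ℚ
local notation "Γℚ" => (AlgebraicClosure ℚ ≃ₐ[ℚ] AlgebraicClosure ℚ)

variable {p : ℕ} [Fact p.Prime] {O : Type} [CommRing O]

/-- The levels of a flat representation have local models. -/
theorem hasLocalModel_level [IsLocalRing O] {ρ : GaloisRepAdic O} (hflat : ρ.IsFlatAt p)
    (b : Module.Basis (Fin 2) O ρ.V) {I : Ideal O} (hI : Finite (O ⧸ I)) :
    HasLocalModel p (RepMod (repMap (Ideal.Quotient.mk I)
      ((Deformation.matOf ρ.ρ b).comp (localGaloisToGlobal p)))) := by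
  set R := (Deformation.matOf ρ.ρ b).comp (localGaloisToGlobal p) with hR
  let _ : DistribMulAction (Gp p) (RT.FlatCond.LevelV ρ I) :=
    DistribMulAction.compHom _ (localGaloisToGlobal p)
  have h1 : HasLocalModel p (RT.FlatCond.LevelV ρ I) :=
    hasLocalModel_of_hasFunctionModel (fun _ _ => rfl)
      (((RT.FlatCond.isFlatAt_iff ρ).1 hflat).2 I hI)
  choose g hg using fun c : O ⧸ I => Ideal.Quotient.mk_surjective (I := I) c
  have hmem : ∀ a : Fin 2 → O, (∀ i, a i ∈ I) →
      b.equivFun.symm a ∈ I • (⊤ : Submodule O ρ.V) := fun a ha => by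
    rw [Module.Basis.equivFun_symm_apply]
    exact Submodule.sum_mem _ fun i _ => Submodule.smul_mem_smul (ha i) Submodule.mem_top
  have hcongr : ∀ a a' : Fin 2 → O, (∀ i, Ideal.Quotient.mk I (a i) = Ideal.Quotient.mk I (a' i)) →
      RT.FlatCond.toLevel ρ I (b.equivFun.symm a) = RT.FlatCond.toLevel ρ I (b.equivFun.symm a') :=
    fun a a' h => by
      rw [← sub_eq_zero, ← map_sub, ← map_sub, RT.FlatCond.toLevel_eq_zero_iff]
      exact hmem _ fun i => Ideal.Quotient.eq.1 (h i)
  let u : RepMod (repMap (Ideal.Quotient.mk I) R) →+ RT.FlatCond.LevelV ρ I :=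
    AddMonoidHom.mk' (fun v => RT.FlatCond.toLevel ρ I
      (b.equivFun.symm fun i => g (RepMod.coords _ v i))) fun v v' => by
      rw [← map_add, ← map_add]
      refine hcongr _ _ fun i => ?_
      rw [Pi.add_apply, map_add, hg, hg, hg]
      rfl
  refine h1.of_injective u ((injective_iff_map_eq_zero u).2 fun v hv => funext fun i => ?_)
    fun σ v => ?_
  · have h := Deformation.coord_mem_of_mem_smul_top b
      ((RT.FlatCond.toLevel_eq_zero_iff _ _ _).1 hv) i
    rw [← Module.Basis.equivFun_apply, LinearEquiv.apply_symm_apply,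
      ← Ideal.Quotient.eq_zero_iff_mem, hg] at h
    exact h
  · show RT.FlatCond.toLevel ρ I _ =
      localGaloisToGlobal p σ • RT.FlatCond.toLevel ρ I (b.equivFun.symm _)
    have hmv : ∀ (γ : Γℚ) (a : Fin 2 → O), ρ.ρ γ (b.equivFun.symm a) =
        b.equivFun.symm (Deformation.matOf ρ.ρ b γ *ᵥ a) := fun γ a => by
      refine b.equivFun.injective ?_
      rw [LinearEquiv.apply_symm_apply, Deformation.matOf_apply, Module.Basis.equivFun_apply]
      conv_rhs => rw [← b.equivFun.apply_symm_apply a, Module.Basis.equivFun_apply,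
        LinearMap.toMatrix_mulVec_repr b b]
    rw [RT.FlatCond.smul_toLevel, hmv]
    refine hcongr _ _ fun i => ?_
    rw [hg, RingHom.map_mulVec]
    show (repMap (Ideal.Quotient.mk I) R σ *ᵥ RepMod.coords _ v) i = _
    simp only [repMap_apply, Function.comp_def, hg]
    rfl

/-- A flat representation with residually triangular matrices satisfies the ordinary
equations. -/
theorem ordinary_eqns_of_isFlatAt [IsDomain O] [IsDiscreteValuationRing O]
    [Finite (ResidueField O)] (hp2 : p ≠ 2) {ρ : GaloisRepAdic O} (hpO : (p : O) ∈ maximalIdeal O)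
    (hflat : ρ.IsFlatAt p) (b : Module.Basis (Fin 2) O ρ.V)
    (h10 : ∀ g ∈ (padicPlace p).decompositionSubgroup ℚ,
      Deformation.matOf ρ.ρ b g 1 0 ∈ maximalIdeal O)
    (h11 : ∀ σ ∈ (padicPlace p).inertiaSubgroupIn ℚ,
      Deformation.matOf ρ.ρ b σ 1 1 - 1 ∈ maximalIdeal O)
    {σ₀ : Γℚ} (hσ₀ : σ₀ ∈ (padicPlace p).inertiaSubgroupIn ℚ)
    (hd : IsUnit ((Deformation.matOf ρ.ρ b σ₀).det - 1)) :
    RT.StrictOrdEqns 1 (padicPlace p) σ₀ (Deformation.matOf ρ.ρ b) := by
  let q : Nat.Primes := ⟨p, Fact.out⟩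
  set R := Deformation.matOf ρ.ρ b with hR
  obtain ⟨τ, hτ, hτ₀⟩ := TwoAdic.Selmer.exists_localInertia_eq q hσ₀
  change localGaloisToGlobal p τ = σ₀ at hτ₀
  have hinert : ∀ σ : Gp p, IsInertia σ →
      localGaloisToGlobal p σ ∈ (padicPlace p).inertiaSubgroupIn ℚ := fun σ hσ =>
    TwoAdic.Selmer.toGlobal_mem_inertia q (τ := σ) hσ
  have hdec : ∀ σ : Gp p, localGaloisToGlobal p σ ∈ (padicPlace p).decompositionSubgroup ℚ :=
    localGaloisToGlobal_mem_decompositionSubgroup p
  have h00 : R σ₀ 0 0 - 1 ∉ maximalIdeal O := by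
    intro h
    refine IsLocalRing.notMem_maximalIdeal.2 hd ?_
    have e10 := h10 _ (hτ₀ ▸ hdec τ)
    have e11 := h11 _ hσ₀
    rw [Matrix.det_fin_two, show R σ₀ 0 0 * R σ₀ 1 1 - R σ₀ 0 1 * R σ₀ 1 0 - 1 =
      R σ₀ 1 1 * (R σ₀ 0 0 - 1) + (R σ₀ 1 1 - 1) - R σ₀ 0 1 * R σ₀ 1 0 by ring]
    exact sub_mem (add_mem (Ideal.mul_mem_left _ _ h) e11) (Ideal.mul_mem_left _ _ e10)
  obtain ⟨h1, h2, h3⟩ := ordinary_eqns_of_localModels hp2 hpO (R.comp (localGaloisToGlobal p))
    (fun I hI => hasLocalModel_level hflat b hI)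
    (fun σ => h10 _ (hdec σ)) (fun σ hσ => h11 _ (hinert σ hσ)) (τ := τ) hτ
    (by rw [MonoidHom.comp_apply, hτ₀]; exact h00)
  simp only [MonoidHom.comp_apply, hτ₀] at h1 h2 h3
  refine ⟨h1, fun g hg => ?_, fun g hg => ?_, fun g _ n a _ => ?_⟩
  · obtain ⟨σ, rfl⟩ := decompositionSubgroup_padicPlace.le hg
    exact h2 σ
  · obtain ⟨σ, hσ, hσg⟩ := TwoAdic.Selmer.exists_localInertia_eq q hg
    change localGaloisToGlobal p σ = g at hσg
    rw [← hσg]
    exact h3 σ hσ
  · simp

end Fermat.Agent.FlatLocal
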