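import Fermat.Agent.FlatLocal.Defs
import Fermat.Agent.ClassField.PadicFields
import Fermat.Agent.ClassField.PadicUnramified
import Mathlib.FieldTheory.Galois.Profinite
import Mathlib.NumberTheory.Cyclotomic.Basic
import Mathlib.RingTheory.RootsOfUnity.EnoughRootsOfUnity
import Mathlib.RingTheory.RootsOfUnity.AlgebraicallyClosed

/-!
# Roots of unity of order prime to `p` in `C = PadicAlgCl p`

They represent the units of the residue field; Galois acts on them through the Frobenius, and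
adjoining them is unramified.
-/

set_option autoImplicit false

noncomputable section

open Polynomial

namespace Fermat.Agent.FlatLocal

open Fermat.Agent.ClassField

variable {p : ℕ} [Fact p.Prime]

local notation "C" => PadicAlgCl p

instance isGalois_padicAlgCl : IsGalois ℚ_[p] C :=
  IsAlgClosure.isGalois ℚ_[p] (PadicAlgCl p)

theorem norm_apply (σ : Gp p) (x : C) : ‖σ x‖ = ‖x‖ := by
  rw [← PadicAlgCl.spectralNorm_eq, ← PadicAlgCl.spectralNorm_eq]
  exact (spectralNorm_eq_of_equiv σ x).symm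

theorem norm_natCast_p : ‖(p : C)‖ = (p : ℝ)⁻¹ := by
  rw [← map_natCast (algebraMap ℚ_[p] C)]
  exact (norm_algebraMap' C (p : ℚ_[p])).trans Padic.norm_p

theorem norm_natCast_p_pos : 0 < ‖(p : C)‖ := by
  rw [norm_natCast_p]; exact inv_pos.2 (Nat.cast_pos.2 (Fact.out : p.Prime).pos)

theorem norm_natCast_p_lt_one : ‖(p : C)‖ < 1 := by
  rw [norm_natCast_p]; exact inv_lt_one_of_one_lt₀ (Nat.one_lt_cast.2 (Fact.out : p.Prime).one_lt)

theorem norm_sub_le_max (x y : C) : ‖x - y‖ ≤ max ‖x‖ ‖y‖ := by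
  rw [sub_eq_add_neg]
  exact (IsUltrametricDist.norm_add_le_max _ _).trans_eq (by rw [norm_neg])

/-- An element fixed by all automorphisms fixing `E` lies in `E`. -/
theorem mem_of_forall_fixed (E : IntermediateField ℚ_[p] C) {x : C}
    (h : ∀ σ : Gp p, (∀ y ∈ E, σ y = y) → σ x = x) : x ∈ E := by
  rw [← InfiniteGalois.fixedField_fixingSubgroup E]
  rintro ⟨σ, hσ⟩
  exact h σ ((IntermediateField.mem_fixingSubgroup_iff _ _).mp hσ)

/-- An automorphism fixing a generating set fixes the generated field. -/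
theorem apply_eq_of_mem_adjoin {S : Set C} {σ : Gp p} (h : ∀ x ∈ S, σ x = x) {y : C}
    (hy : y ∈ IntermediateField.adjoin ℚ_[p] S) : σ y = y := by
  induction hy using IntermediateField.adjoin_induction with
  | mem z hz => exact h z hz
  | algebraMap r => exact σ.commutes r
  | add a b _ _ ha hb => rw [map_add, ha, hb]
  | inv a _ ha => rw [map_inv₀, ha]
  | mul a b _ _ ha hb => rw [map_mul, ha, hb]

/-- An automorphism mapping a generating set into a field maps the generated field into it. -/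
theorem apply_mem_of_mem_adjoin {S : Set C} {E : IntermediateField ℚ_[p] C} {σ : Gp p}
    (h : ∀ x ∈ S, σ x ∈ E) {y : C} (hy : y ∈ IntermediateField.adjoin ℚ_[p] S) : σ y ∈ E := by
  induction hy using IntermediateField.adjoin_induction with
  | mem z hz => exact h z hz
  | algebraMap r => rw [σ.commutes]; exact E.algebraMap_mem r
  | add a b _ _ ha hb => rw [map_add]; exact add_mem ha hb
  | inv a _ ha => rw [map_inv₀]; exact inv_mem ha
  | mul a b _ _ ha hb => rw [map_mul]; exact mul_mem ha hb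

theorem norm_eq_one_of_pow_eq_one {z : C} {N : ℕ} (hN : N ≠ 0) (hz : z ^ N = 1) : ‖z‖ = 1 := by
  have h := congrArg norm hz
  rw [norm_pow, norm_one] at h
  exact (pow_eq_one_iff_of_nonneg (norm_nonneg _) hN).1 h

/-- Roots of unity of order prime to `p` are determined by their residue. -/
theorem root_eq_of_norm_sub_lt {z z' : C} {N M : ℕ} (hN : ¬ p ∣ N) (hM : ¬ p ∣ M)
    (hz : z ^ N = 1) (hz' : z' ^ M = 1) (h : ‖z - z'‖ < 1) : z = z' := by
  have h1 := norm_eq_one_of_pow_eq_one (fun h0 : M = 0 => hM (h0 ▸ dvd_zero p)) hz'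
  have h0 : z' ≠ 0 := norm_ne_zero_iff.1 (h1.trans_ne one_ne_zero)
  refine (div_eq_one_iff_eq h0).1 (PadicFields.eq_one_of_pow_eq_one (m := N * M) ?_ ?_ ?_)
  · exact fun hd => ((Fact.out : p.Prime).dvd_mul.1 hd).elim hN hM
  · rw [div_pow, pow_mul, hz, one_pow, mul_comm, pow_mul, hz', one_pow, div_one]
  · rwa [div_sub_one h0, norm_div, h1, div_one]

theorem exists_primitiveRoot_pow_sub_one (p : ℕ) [Fact p.Prime] {n : ℕ} (hn : 0 < n) :
    ∃ z : PadicAlgCl p, IsPrimitiveRoot z (p ^ n - 1) := by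
  have hN : 1 < p ^ n := Nat.one_lt_pow hn.ne' (Fact.out : p.Prime).one_lt
  have : NeZero ((p ^ n - 1 : ℕ) : PadicAlgCl p) := ⟨Nat.cast_ne_zero.mpr (by omega)⟩
  exact HasEnoughRootsOfUnity.exists_primitiveRoot (PadicAlgCl p) (p ^ n - 1)

/-- A unit of a finite extension `E` is congruent to a root of unity of `E`. -/
theorem exists_root_norm_sub_lt (E : IntermediateField ℚ_[p] C) [FiniteDimensional ℚ_[p] E]
    {x : C} (hx : x ∈ E) (h : ‖x‖ = 1) :
    ∃ z ∈ E, z ^ (p ^ PadicFields.resDeg E - 1) = 1 ∧ ‖x - z‖ < 1 := by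
  set f := PadicFields.resDeg E
  have hf : 0 < f := PadicFields.resDeg_pos E
  set N := p ^ f - 1 with hN
  have hN0 : 0 < N := by
    have := Nat.one_lt_pow hf.ne' (Fact.out : p.Prime).one_lt
    omega
  have hNp : ¬ p ∣ N := PadicFields.not_dvd_pow_sub_one hf
  have hxi : (⟨x, hx⟩ : E) ∈ PadicFields.integers E := by
    rw [PadicFields.mem_integers, PadicFields.norm_def]; exact h.le
  -- `x ^ N ≡ 1` in the residue field
  have hxN : ‖x ^ N - 1‖ < 1 := by
    classical
    set r := IsLocalRing.residue (PadicFields.integers E) ⟨_, hxi⟩ with hr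
    have hr0 : r ≠ 0 := by
      rw [hr, Ne, IsLocalRing.residue_eq_zero_iff, PadicFields.mem_maximalIdeal_iff,
        PadicFields.norm_def]
      exact fun hlt => absurd h hlt.ne
    have : Fintype (PadicFields.residueField E) := Fintype.ofFinite _
    have h1 : r ^ N = 1 := by
      have := FiniteField.pow_card_sub_one_eq_one r hr0
      rwa [← Nat.card_eq_fintype_card, PadicFields.natCard_residueField'] at this
    rw [hr, ← map_pow, ← map_one (IsLocalRing.residue (PadicFields.integers E)), ← sub_eq_zero,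
      ← map_sub, IsLocalRing.residue_eq_zero_iff, PadicFields.mem_maximalIdeal_iff] at h1
    simpa [PadicFields.norm_def] using h1
  obtain ⟨w, hw⟩ := exists_primitiveRoot_pow_sub_one p hf
  have hprod := congrArg (fun P => ‖Polynomial.eval x P‖) (X_pow_sub_one_eq_prod hN0 hw)
  simp only [eval_sub, eval_pow, eval_X, eval_one, eval_prod, eval_C, norm_prod] at hprod
  obtain ⟨z, hz, hlt⟩ : ∃ z ∈ nthRootsFinset N (1 : C), ‖x - z‖ < 1 := by
    by_contra hcon
    push Not at hcon
    exact absurd (hprod ▸ hxN) (not_lt.2 (Finset.one_le_prod hcon))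
  rw [mem_nthRootsFinset hN0] at hz
  refine ⟨z, mem_of_forall_fixed E fun σ hσ => ?_, hz, hlt⟩
  refine root_eq_of_norm_sub_lt hNp hNp (by rw [← map_pow, hz, map_one]) hz ?_
  calc ‖σ z - z‖ = ‖(σ z - σ x) + (x - z)‖ := by rw [hσ x hx, sub_add_sub_cancel]
    _ ≤ max ‖σ z - σ x‖ ‖x - z‖ := IsUltrametricDist.norm_add_le_max _ _
    _ < 1 := by
      rw [← map_sub, norm_apply, norm_sub_rev]
      simpa using hlt

/-- A unit of `C` is congruent to a root of unity of order prime to `p`. -/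
theorem exists_root_norm_sub_lt' {x : C} (h : ‖x‖ = 1) :
    ∃ z : C, ∃ n : ℕ, 0 < n ∧ z ^ (p ^ n - 1) = 1 ∧ ‖x - z‖ < 1 := by
  have : FiniteDimensional ℚ_[p] (IntermediateField.adjoin ℚ_[p] {x}) :=
    IntermediateField.adjoin.finiteDimensional (Algebra.IsAlgebraic.isAlgebraic x).isIntegral
  obtain ⟨z, -, hz, hlt⟩ :=
    exists_root_norm_sub_lt _ (IntermediateField.mem_adjoin_simple_self ℚ_[p] x) h
  exact ⟨z, _, PadicFields.resDeg_pos (IntermediateField.adjoin ℚ_[p] {x}), hz, hlt⟩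

/-- All roots of unity of order prime to `p` in `E` have order dividing `p ^ resDeg E - 1`. -/
theorem pow_resDeg_sub_one_eq_one (E : IntermediateField ℚ_[p] C) [FiniteDimensional ℚ_[p] E]
    {z : C} (hz : z ∈ E) {N : ℕ} (hN : ¬ p ∣ N) (hzN : z ^ N = 1) :
    z ^ (p ^ PadicFields.resDeg E - 1) = 1 := by
  obtain ⟨w, -, hw, hlt⟩ := exists_root_norm_sub_lt E hz
    (norm_eq_one_of_pow_eq_one (fun h0 : N = 0 => hN (h0 ▸ dvd_zero p)) hzN)
  rw [root_eq_of_norm_sub_lt hN (PadicFields.not_dvd_pow_sub_one (PadicFields.resDeg_pos E))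
    hzN hw hlt, hw]

/-- `E` contains the roots of unity of order `p ^ resDeg E - 1`. -/
theorem exists_primitiveRoot_mem (E : IntermediateField ℚ_[p] C) [FiniteDimensional ℚ_[p] E] :
    ∃ z ∈ E, IsPrimitiveRoot z (p ^ PadicFields.resDeg E - 1) := by
  classical
  set f := PadicFields.resDeg E
  obtain ⟨g, hg⟩ := IsCyclic.exists_ofOrder_eq_natCard (α := (PadicFields.residueField E)ˣ)
  rw [Nat.card_units, PadicFields.natCard_residueField'] at hg
  obtain ⟨⟨x, hx⟩, hxg⟩ := IsLocalRing.residue_surjective (g : PadicFields.residueField E)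
  have hx1 : ‖(x : C)‖ = 1 := by
    refine (PadicFields.isUnit_integers_iff E ⟨x, hx⟩).1 ?_
    by_contra hu
    have : (⟨x, hx⟩ : PadicFields.integers E) ∈ IsLocalRing.maximalIdeal _ := hu
    rw [← IsLocalRing.residue_eq_zero_iff, hxg] at this
    exact g.ne_zero this
  obtain ⟨z, hzE, hz, hlt⟩ := exists_root_norm_sub_lt E x.2 hx1
  refine ⟨z, hzE, hz, fun l hl => ?_⟩
  have hzi : (⟨z, hzE⟩ : E) ∈ PadicFields.integers E := by
    rw [PadicFields.mem_integers, PadicFields.norm_def,
      norm_eq_one_of_pow_eq_one (fun h0 => PadicFields.not_dvd_pow_sub_one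
        (PadicFields.resDeg_pos E) (h0 ▸ dvd_zero p)) hz]
  have hres : IsLocalRing.residue (PadicFields.integers E) ⟨_, hzi⟩ = g := by
    rw [← hxg, ← sub_eq_zero, ← map_sub, IsLocalRing.residue_eq_zero_iff,
      PadicFields.mem_maximalIdeal_iff, PadicFields.norm_def]
    exact (norm_sub_rev _ _).trans_lt hlt
  rw [← hg]
  refine orderOf_dvd_of_pow_eq_one (Units.ext ?_)
  rw [Units.val_pow_eq_pow_val, ← hres, ← map_pow, Units.val_one,
    show (⟨_, hzi⟩ : PadicFields.integers E) ^ l = 1 from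
      Subtype.ext (Subtype.ext (by simpa using hl)), map_one]

/-- The unramified extension of degree `n`: its degree and value group, and the Frobenius. -/
theorem unramified_adjoin_root {n : ℕ} (hn : 0 < n) {z : C}
    (hz : IsPrimitiveRoot z (p ^ n - 1)) :
    Module.finrank ℚ_[p] (IntermediateField.adjoin ℚ_[p] {z}) = n ∧
      (∀ y ∈ IntermediateField.adjoin ℚ_[p] {z}, y ≠ 0 → ∃ i : ℤ, ‖y‖ = ‖(p : C)‖ ^ i) ∧
      ∃ g : Gp p, g z = z ^ p := by
  classical
  have hN : 1 < p ^ n := Nat.one_lt_pow hn.ne' (Fact.out : p.Prime).one_lt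
  have : NeZero (p ^ n - 1) := ⟨by omega⟩
  set E := IntermediateField.adjoin ℚ_[p] {z}
  have : FiniteDimensional ℚ_[p] E :=
    IntermediateField.adjoin.finiteDimensional (Algebra.IsAlgebraic.isAlgebraic z).isIntegral
  have := hz.intermediateField_adjoin_isCyclotomicExtension ℚ_[p]
  have : IsGalois ℚ_[p] E := IsCyclotomicExtension.isGalois {p ^ n - 1} ℚ_[p] E
  have hzE : z ∈ E := IntermediateField.mem_adjoin_simple_self _ z
  have hb : PadicFields.ramIdx (⊥ : IntermediateField ℚ_[p] C) = 1 ∧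
      PadicFields.resDeg (⊥ : IntermediateField ℚ_[p] C) = 1 := by
    have h := PadicFields.ramIdx_mul_resDeg (⊥ : IntermediateField ℚ_[p] C)
    rw [IntermediateField.finrank_bot] at h
    exact ⟨Nat.eq_one_of_mul_eq_one_right h, Nat.eq_one_of_mul_eq_one_left h⟩
  have hpow : ∀ g : E ≃ₐ[ℚ_[p]] E, ∃ i : Fin n, (g ⟨z, hzE⟩ : C) = z ^ p ^ (i : ℕ) := by
    intro g
    obtain ⟨i, hi, h⟩ := PadicFields.exists_eq_pow_of_fixing E
      (bot_le : (⊥ : IntermediateField ℚ_[p] C) ≤ E) hn hz hzE (hb.2 ▸ one_dvd n) g fun x hx => by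
        obtain ⟨r, hr⟩ := IntermediateField.mem_bot.mp hx
        rw [show x = algebraMap ℚ_[p] E r from Subtype.ext hr.symm, AlgEquiv.commutes]
    rw [hb.2, Nat.div_one] at hi
    rw [hb.2, one_mul] at h
    exact ⟨⟨i, hi⟩, h⟩
  choose φ hφ using hpow
  have hφinj : Function.Injective φ := by
    intro g g' h
    have e : (g ⟨z, hzE⟩ : C) = g' ⟨z, hzE⟩ := by rw [hφ, hφ, h]
    apply AlgEquiv.coe_toAlgHom_injective
    exact (IntermediateField.adjoin.powerBasis
      (Algebra.IsAlgebraic.isAlgebraic z).isIntegral).algHom_ext (Subtype.ext e :)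
  have hle : Module.finrank ℚ_[p] E ≤ n := by
    rw [← IsGalois.card_aut_eq_finrank]
    simpa using Nat.card_le_card_of_injective φ hφinj
  obtain ⟨he, -, hdeg⟩ := PadicFields.ramIdx_eq_of_finrank_le E
    (bot_le : (⊥ : IntermediateField ℚ_[p] C) ≤ E) hn hz hzE (hb.2 ▸ one_dvd n)
    (by rw [IntermediateField.finrank_bot, hb.2, one_mul, Nat.div_one]; exact hle)
  rw [IntermediateField.finrank_bot, hb.2, one_mul, Nat.div_one] at hdeg
  rw [hb.1] at he
  refine ⟨hdeg, fun y hy hy0 => ?_, ?_⟩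
  · obtain ⟨i, hi⟩ := PadicFields.exists_norm_eq_zpow E (x := ⟨y, hy⟩) fun h =>
      hy0 (congrArg Subtype.val h)
    have hq := PadicFields.norm_q_eq E
    rw [he, pow_one] at hq
    refine ⟨i, ?_⟩
    rw [← hq] at hi
    exact hi
  · have hbij : Function.Bijective φ := (Nat.bijective_iff_injective_and_card φ).mpr
      ⟨hφinj, by rw [IsGalois.card_aut_eq_finrank, hdeg, Nat.card_fin]⟩
    obtain ⟨g, hg⟩ := hbij.2 ⟨1 % n, Nat.mod_lt _ hn⟩
    refine ⟨g.liftNormal C, (AlgEquiv.liftNormal_commutes g C ⟨z, hzE⟩).trans ?_⟩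
    show (g ⟨z, hzE⟩ : C) = z ^ p
    rw [hφ, hg]
    rcases Nat.lt_or_ge 1 n with h1 | h1
    · simp [Nat.mod_eq_of_lt h1]
    · obtain rfl : n = 1 := by omega
      have hzN := hz.pow_eq_one
      rw [pow_one] at hzN
      simp only [Nat.mod_self, pow_zero, pow_one]
      symm
      calc z ^ p = z ^ (p - 1 + 1) := by
            congr 1; have := (Fact.out : p.Prime).one_lt; omega
        _ = z := by rw [pow_succ, hzN, one_mul]

/-- Roots of unity of order prime to `p` have order dividing `p ^ N! - 1` for `N` large. -/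
theorem exists_pow_factorial {z : C} {N : ℕ} (hN : ¬ p ∣ N) (hz : z ^ N = 1) :
    ∃ n, ∀ m : ℕ, n ≤ m → z ^ (p ^ m.factorial - 1) = 1 := by
  have hN0 : 0 < N := Nat.pos_of_ne_zero fun h0 => hN (h0 ▸ dvd_zero p)
  refine ⟨N, fun m hm => ?_⟩
  have hdvd : N ∣ p ^ m.factorial - 1 := by
    have hc : p.Coprime N := (Fact.out : p.Prime).coprime_iff_not_dvd.2 hN
    have h2 : N.totient ∣ m.factorial :=
      Nat.dvd_factorial (Nat.totient_pos.2 hN0) ((Nat.totient_le N).trans hm)
    obtain ⟨c, hc2⟩ := h2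
    have h3 := (Nat.ModEq.pow_totient hc).pow c
    rw [← pow_mul, ← hc2, one_pow] at h3
    exact (Nat.modEq_iff_dvd' (Nat.one_le_pow _ _ (Fact.out : p.Prime).pos)).1 h3.symm
  obtain ⟨c, hc⟩ := hdvd
  rw [hc, pow_mul, hz, one_pow]

/-- A compatible choice: every level can be achieved simultaneously. -/
theorem exists_of_forall_level (P : ℕ → Gp p → Prop)
    (hanti : ∀ n g, P (n + 1) g → P n g) (hne : ∀ n, ∃ g, P n g)
    (hclosed : ∀ n, IsClosed {g : Gp p | P n g}) : ∃ g, ∀ n, P n g := by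
  obtain ⟨g, hg⟩ := IsCompact.nonempty_iInter_of_sequence_nonempty_isCompact_isClosed
    (fun n => {g : Gp p | P n g}) (fun n g hg => hanti n g hg) hne (hclosed 0).isCompact hclosed
  exact ⟨g, Set.mem_iInter.1 hg⟩

theorem isClosed_setOf_apply_eq (x y : C) : IsClosed {g : Gp p | g x = y} := by
  rw [← isOpen_compl_iff, isOpen_iff_forall_mem_open]
  intro g hg
  have : FiniteDimensional ℚ_[p] (IntermediateField.adjoin ℚ_[p] {x}) :=
    IntermediateField.adjoin.finiteDimensional (Algebra.IsAlgebraic.isAlgebraic x).isIntegral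
  refine ⟨(fun h => g * h) '' ((IntermediateField.adjoin ℚ_[p] {x}).fixingSubgroup : Set (Gp p)),
    ?_, isOpenMap_mul_left g _ (IntermediateField.fixingSubgroup_isOpen _),
    1, one_mem _, mul_one g⟩
  rintro _ ⟨h, hh, rfl⟩
  show (g * h) x ≠ y
  rw [AlgEquiv.mul_apply, (IntermediateField.mem_fixingSubgroup_iff _ _).1 hh x
    (IntermediateField.mem_adjoin_simple_self _ x)]
  exact hg

end Fermat.Agent.FlatLocal
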