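import Fermat.Agent.FlatLocal.Defs
import Mathlib.RingTheory.RootsOfUnity.AlgebraicallyClosed
import Mathlib.RingTheory.RootsOfUnity.PrimitiveRoots
import Mathlib.RingTheory.Polynomial.Cyclotomic.Eval

/-!
# `p`-th roots of unity in `C` and elements whose `p`-th power is close to `1`
-/

set_option autoImplicit false

noncomputable section

open Finset Polynomial

namespace Fermat.Agent.FlatLocal

variable {p : ℕ} [hp : Fact p.Prime]

local notation "C" => PadicAlgCl p

theorem norm_cst_le (c : ℤ_[p]) : ‖(cst c : C)‖ ≤ 1 := by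
  rw [cst, norm_algebraMap']
  exact c.norm_le_one

theorem smul_cst (σ : Gp p) (c : ℤ_[p]) : σ (cst c) = cst c := σ.commutes _

theorem norm_p_pos : 0 < ‖(p : C)‖ := norm_pos_iff.mpr (Nat.cast_ne_zero.mpr hp.out.ne_zero)

theorem norm_p_lt_one : ‖(p : C)‖ < 1 := by
  rw [← map_natCast (algebraMap ℚ_[p] C), norm_algebraMap', Padic.norm_p]
  exact inv_lt_one_of_one_lt₀ (by exact_mod_cast hp.out.one_lt)

theorem norm_algEquiv (σ : Gp p) (x : C) : ‖σ x‖ = ‖x‖ := by
  rw [← PadicAlgCl.spectralNorm_eq, ← PadicAlgCl.spectralNorm_eq]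
  exact (spectralNorm_eq_of_equiv σ x).symm

theorem norm_pow_sub_one_le {z : C} (hz : ‖z‖ ≤ 1) (k : ℕ) : ‖z ^ k - 1‖ ≤ ‖z - 1‖ := by
  induction k with
  | zero => simp
  | succ k ih =>
    rw [show z ^ (k + 1) - 1 = z * (z ^ k - 1) + (z - 1) by ring]
    refine (IsUltrametricDist.norm_add_le_max _ _).trans (max_le ?_ le_rfl)
    rw [norm_mul]
    exact (mul_le_of_le_one_left (norm_nonneg _) hz).trans ih

theorem norm_eq_one_of_root {z : C} {n : ℕ} (hn : n ≠ 0) (hz : z ^ n = 1) : ‖z‖ = 1 := by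
  have h := congrArg norm hz
  rw [norm_pow, norm_one] at h
  exact (pow_eq_one_iff_of_nonneg (norm_nonneg z) hn).mp h

/-- All nontrivial `p`-th roots of unity are at the same distance from `1`. -/
theorem norm_sub_one_eq {z w : C} (hz : z ^ p = 1) (hw : w ^ p = 1) (hz1 : z ≠ 1) (hw1 : w ≠ 1) :
    ‖z - 1‖ = ‖w - 1‖ := by
  suffices h : ∀ a b : C, a ^ p = 1 → b ^ p = 1 → a ≠ 1 → ‖b - 1‖ ≤ ‖a - 1‖ from
    le_antisymm (h w z hw hz hw1) (h z w hz hw hz1)
  intro a b ha hb ha1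
  have hprim : IsPrimitiveRoot a p :=
    IsPrimitiveRoot.iff_orderOf.mpr (orderOf_eq_prime ha ha1)
  obtain ⟨k, -, rfl⟩ := hprim.eq_pow_of_pow_eq_one hb
  exact norm_pow_sub_one_le (norm_eq_one_of_root hp.out.ne_zero ha).le k

/-- A nontrivial `p`-th root of unity `z` has `‖z - 1‖ ^ (p - 1) = ‖p‖`. -/
theorem norm_root_sub_one_pred {z : C} (hz : z ^ p = 1) (hz1 : z ≠ 1) :
    ‖z - 1‖ ^ (p - 1) = ‖(p : C)‖ := by
  classical
  have h := eval_one_cyclotomic_prime (R := C) (p := p)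
  have hprim : IsPrimitiveRoot z p :=
    IsPrimitiveRoot.iff_orderOf.mpr (orderOf_eq_prime hz hz1)
  rw [cyclotomic_eq_prod_X_sub_primitiveRoots hprim, eval_prod] at h
  simp only [eval_sub, eval_X, eval_C] at h
  rw [← h, norm_prod, ← Nat.totient_prime hp.out, ← hprim.card_primitiveRoots]
  refine (Finset.prod_eq_pow_card fun w hw => ?_).symm
  have hw' := (mem_primitiveRoots hp.out.pos).mp hw
  rw [norm_sub_rev, norm_sub_one_eq hw'.pow_eq_one hz (hw'.ne_one hp.out.one_lt) hz1]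

/-- Close `p`-th roots of unity are equal. -/
theorem eq_of_norm_sub_pow_lt {z w : C} (hz : z ^ p = 1) (hw : w ^ p = 1)
    (h : ‖z - w‖ ^ (p - 1) < ‖(p : C)‖) : z = w := by
  by_contra hne
  have hw0 : w ≠ 0 := by
    rintro rfl
    exact zero_ne_one ((zero_pow hp.out.ne_zero).symm.trans hw)
  have hq : (z / w) ^ p = 1 := by rw [div_pow, hz, hw, div_one]
  have hq1 : z / w ≠ 1 := fun e => hne ((div_eq_one_iff_eq hw0).mp e)
  have h1 := norm_root_sub_one_pred hq hq1
  rw [div_sub_one hw0, norm_div, norm_eq_one_of_root hp.out.ne_zero hw, div_one] at h1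
  exact h.ne h1

/-- An element whose `p`-th power is close to `1` is close to a `p`-th root of unity. -/
theorem exists_root_near {u : C} {r : ℝ} (hr : IsSmallRadius p r) (h : ‖u ^ p - 1‖ ≤ r) :
    ∃ z : C, z ^ p = 1 ∧ ‖u - z‖ ≤ r / ‖(p : C)‖ := by
  classical
  obtain ⟨ζ, hζ⟩ := HasEnoughRootsOfUnity.exists_primitiveRoot C p
  have hprod : u ^ p - 1 = ∏ z ∈ nthRootsFinset p (1 : C), (u - z) := by
    have h' := congrArg (eval u) (X_pow_sub_one_eq_prod hp.out.pos hζ)
    simpa [eval_prod] using h'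
  have hp1 : p - 1 ≠ 0 := by have := hp.out.two_le; omega
  have hpp : p - 1 + 1 = p := by have := hp.out.two_le; omega
  have hpn := norm_p_pos (p := p)
  obtain ⟨z, hz, hzs⟩ : ∃ z ∈ nthRootsFinset p (1 : C), ‖u - z‖ ^ (p - 1) < ‖(p : C)‖ := by
    by_contra! hall
    have h1 : ‖(p : C)‖ ^ p ≤ ‖u ^ p - 1‖ ^ (p - 1) := by
      rw [hprod, norm_prod, ← Finset.prod_pow]
      calc ‖(p : C)‖ ^ p = ∏ _z ∈ nthRootsFinset p (1 : C), ‖(p : C)‖ := by
            rw [prod_const, hζ.card_nthRootsFinset]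
        _ ≤ _ := prod_le_prod (fun _ _ => norm_nonneg _) hall
    have h2 : r ^ (p - 1) < ‖(p : C)‖ ^ p := by
      have h3 := hr.2
      rw [div_pow, div_lt_iff₀ (pow_pos hpn _), ← pow_succ', hpp] at h3
      exact h3
    exact absurd (h1.trans (pow_le_pow_left₀ (norm_nonneg _) h (p - 1))) (not_le.mpr h2)
  rw [mem_nthRootsFinset hp.out.pos] at hz
  refine ⟨z, hz, ?_⟩
  have hrest : ∀ w ∈ (nthRootsFinset p (1 : C)).erase z, ‖u - w‖ = ‖w - z‖ := by
    intro w hw
    obtain ⟨hwz, hw⟩ := mem_erase.mp hw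
    rw [mem_nthRootsFinset hp.out.pos] at hw
    have hlt : ‖u - z‖ < ‖w - z‖ := by
      by_contra! hle
      exact hwz (eq_of_norm_sub_pow_lt hw hz
        ((pow_le_pow_left₀ (norm_nonneg _) hle _).trans_lt hzs))
    rw [show u - w = (u - z) + (z - w) by ring,
      IsUltrametricDist.norm_add_eq_max_of_norm_ne_norm (by rw [norm_sub_rev z w]; exact hlt.ne),
      norm_sub_rev z w, max_eq_right hlt.le]
  have hzero : ∏ w ∈ (nthRootsFinset p (1 : C)).erase z, ‖w - z‖ = ‖(p : C)‖ := by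
    have hz0 : z ≠ 0 := by
      rintro rfl
      exact zero_ne_one ((zero_pow hp.out.ne_zero).symm.trans hz)
    have hzmem : z ∈ nthRootsFinset p (1 : C) := (mem_nthRootsFinset hp.out.pos _).mpr hz
    have hterm : ∀ w ∈ (nthRootsFinset p (1 : C)).erase z,
        ‖w - z‖ ^ (p - 1) = ‖(p : C)‖ := by
      intro w hw
      obtain ⟨hwz, hw⟩ := mem_erase.mp hw
      rw [mem_nthRootsFinset hp.out.pos] at hw
      have h1 := norm_root_sub_one_pred (z := w / z) (by rw [div_pow, hw, hz, div_one])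
        (fun e => hwz ((div_eq_one_iff_eq hz0).mp e))
      rwa [div_sub_one hz0, norm_div, norm_eq_one_of_root hp.out.ne_zero hz, div_one] at h1
    refine (pow_left_inj₀ (prod_nonneg fun _ _ => norm_nonneg _) (norm_nonneg _) hp1).mp ?_
    rw [← prod_pow, prod_congr rfl hterm, prod_const, card_erase_of_mem hzmem,
      hζ.card_nthRootsFinset]
  have hz' : z ∈ nthRootsFinset p (1 : C) := (mem_nthRootsFinset hp.out.pos _).mpr hz
  have hmul : ‖u ^ p - 1‖ = ‖u - z‖ * ‖(p : C)‖ := by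
    rw [hprod, norm_prod, ← mul_prod_erase _ _ hz', prod_congr rfl hrest, hzero]
  rw [le_div_iff₀ hpn, ← hmul]
  exact h

end Fermat.Agent.FlatLocal
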