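import Fermat.Agent.FlatLocal.Expansion

/-!
# The tame field `K = W(ϖ)` inside a finite Galois extension `F` of `ℚ_p`
-/

set_option autoImplicit false

noncomputable section

namespace Fermat.Agent.FlatLocal

open Fermat.Agent.ClassField Polynomial

variable (p : ℕ) [Fact p.Prime]

local notation "C" => PadicAlgCl p

/-- A finite Galois extension of `ℚ_p` with a tame uniformiser of degree `e`. -/
structure TameField (e : ℕ) where
  /-- The field. -/
  F : IntermediateField ℚ_[p] C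
  finite : FiniteDimensional ℚ_[p] F
  normal : ∀ σ : Gp p, ∀ x ∈ F, σ x ∈ F
  /-- The tame uniformiser. -/
  ϖ : C
  mem : ϖ ∈ F
  pow_eq : ϖ ^ e = -(p : C)
  roots_mem : ∀ z : C, z ^ e = 1 → z ∈ F
  e_pos : 0 < e
  not_dvd : ¬ p ∣ e
  sub_one_dvd : p - 1 ∣ e
  /-- A primitive `p`-th root of unity. -/
  zeta : C
  zeta_spec : IsPrimitiveRoot zeta p

namespace TameField

variable {p} {e : ℕ} (D : TameField p e)

/-- The maximal unramified subfield of `F`. -/
def W : IntermediateField ℚ_[p] C :=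
  IntermediateField.adjoin ℚ_[p] {x : C | x ∈ D.F ∧ ∃ N : ℕ, ¬ p ∣ N ∧ x ^ N = 1}

/-- The tame field `W(ϖ)`. -/
def K : IntermediateField ℚ_[p] C := D.W ⊔ IntermediateField.adjoin ℚ_[p] {D.ϖ}

/-- `σ` fixes the tame field pointwise. -/
def FixK (σ : Gp p) : Prop := ∀ x ∈ D.K, σ x = x

theorem W_le : D.W ≤ D.F := IntermediateField.adjoin_le_iff.2 fun _ h => h.1

theorem K_le : D.K ≤ D.F :=
  sup_le D.W_le (IntermediateField.adjoin_simple_le_iff.2 D.mem)

theorem W_le_K : D.W ≤ D.K := le_sup_left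

theorem varpi_mem_K : D.ϖ ∈ D.K :=
  le_sup_right (a := D.W) (IntermediateField.mem_adjoin_simple_self ℚ_[p] D.ϖ)

theorem norm_varpi_pow : ‖D.ϖ‖ ^ e = ‖(p : C)‖ := by
  rw [← norm_pow, D.pow_eq, norm_neg]

theorem map_mem_W (σ : Gp p) {x : C} (hx : x ∈ D.W) : σ x ∈ D.W := by
  refine apply_mem_of_mem_adjoin (fun z hz => ?_) hx
  obtain ⟨hzF, N, hN, hzN⟩ := hz
  exact IntermediateField.subset_adjoin ℚ_[p] _
    ⟨D.normal σ z hzF, N, hN, by rw [← map_pow, hzN, map_one]⟩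

theorem roots_mem_W {z : C} (hz : z ^ e = 1) : z ∈ D.W :=
  IntermediateField.subset_adjoin ℚ_[p] _ ⟨D.roots_mem z hz, e, D.not_dvd, hz⟩

theorem varpi_ne_zero : D.ϖ ≠ 0 := fun h => by
  have h1 := D.norm_varpi_pow
  rw [h, norm_zero, zero_pow D.e_pos.ne'] at h1
  exact norm_natCast_p_pos.ne h1

theorem norm_varpi_pos : 0 < ‖D.ϖ‖ := norm_pos_iff.2 D.varpi_ne_zero

theorem norm_varpi_lt_one : ‖D.ϖ‖ < 1 := by
  by_contra h
  have h1 := one_le_pow₀ (n := e) (not_lt.1 h)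
  rw [D.norm_varpi_pow] at h1
  exact absurd h1 (not_le.2 norm_natCast_p_lt_one)

theorem map_mem_K (σ : Gp p) {x : C} (hx : x ∈ D.K) : σ x ∈ D.K := by
  suffices h : D.K ≤ D.K.comap σ.toAlgHom from h hx
  refine sup_le (fun y hy => D.W_le_K (D.map_mem_W σ hy))
    (IntermediateField.adjoin_simple_le_iff.2 ?_)
  show σ D.ϖ ∈ D.K
  rw [← div_mul_cancel₀ (σ D.ϖ) D.varpi_ne_zero]
  refine mul_mem (D.W_le_K (D.roots_mem_W ?_)) D.varpi_mem_K
  rw [div_pow, ← map_pow, D.pow_eq, map_neg, map_natCast, div_self]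
  exact neg_ne_zero.2 (norm_pos_iff.1 norm_natCast_p_pos)

theorem zeta_mem_K : D.zeta ∈ D.K := by
  have hp : p.Prime := Fact.out
  obtain ⟨k, hk⟩ := D.sub_one_dvd
  set π₀ := D.ϖ ^ k with hπ₀def
  have hπ₀ : π₀ ^ (p - 1) = -(p : C) := by rw [← pow_mul, mul_comm, ← hk, D.pow_eq]
  have hπ₀0 : π₀ ≠ 0 := pow_ne_zero _ D.varpi_ne_zero
  set t := D.zeta - 1 with htdef
  have ht0 : t ≠ 0 := sub_ne_zero.2 (D.zeta_spec.ne_one hp.one_lt)
  set S := ∑ i ∈ Finset.Ioo 0 p, t ^ (i - 1) * (1 : C) ^ (p - i - 1) * ((p.choose i / p : ℕ) : C)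
    with hSdef
  have htS : t ^ (p - 1) = -(p : C) * S := by
    have h := add_pow_prime_eq hp t (1 : C)
    rw [one_pow, mul_one, ← hSdef, htdef, sub_add_cancel, D.zeta_spec.pow_eq_one, ← htdef] at h
    have h' : t * (t ^ (p - 1) + (p : C) * S) = 0 := by
      rw [mul_add, ← pow_succ', Nat.sub_add_cancel hp.one_le]
      linear_combination -h
    linear_combination (mul_eq_zero.1 h').resolve_left ht0
  have ht1 : ‖t‖ ≤ 1 :=
    (FlatLocal.norm_sub_le_max _ _).trans (by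
      rw [norm_eq_one_of_pow_eq_one hp.ne_zero D.zeta_spec.pow_eq_one, norm_one, max_self])
  have hterm : ∀ i : ℕ, ‖t ^ (i - 1) * (1 : C) ^ (p - i - 1) * ((p.choose i / p : ℕ) : C)‖ ≤
      ‖t‖ ^ (i - 1) := fun i => by
    rw [norm_mul, one_pow, mul_one, norm_pow]
    exact mul_le_of_le_one_right (pow_nonneg (norm_nonneg _) _)
      (IsUltrametricDist.norm_natCast_le_one C _)
  have htlt : ‖t‖ < 1 := by
    by_contra h
    have h1 := one_le_pow₀ (n := p - 1) (not_lt.1 h)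
    rw [← norm_pow, htS, norm_mul, norm_neg] at h1
    refine absurd h1 (not_le.2 (lt_of_le_of_lt (mul_le_of_le_one_right (norm_nonneg _) ?_)
      norm_natCast_p_lt_one))
    exact IsUltrametricDist.norm_sum_le_of_forall_le_of_nonneg zero_le_one fun i _ =>
      (hterm i).trans (pow_le_one₀ (norm_nonneg _) ht1)
  have hS1 : ‖S - 1‖ < 1 := by
    have h1 : (1 : ℕ) ∈ Finset.Ioo 0 p := Finset.mem_Ioo.2 ⟨one_pos, hp.one_lt⟩
    rw [hSdef, ← Finset.add_sum_erase _ _ h1, Nat.choose_one_right, Nat.div_self hp.pos]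
    simp only [Nat.sub_self, pow_zero, one_pow, mul_one, Nat.cast_one, add_sub_cancel_left]
    refine lt_of_le_of_lt (IsUltrametricDist.norm_sum_le_of_forall_le_of_nonneg (norm_nonneg t)
      fun i hi => ?_) htlt
    obtain ⟨hi1, hi2⟩ := Finset.mem_erase.1 hi
    rw [Finset.mem_Ioo] at hi2
    have h := hterm i
    rw [one_pow, mul_one] at h
    exact h.trans (pow_le_of_le_one (norm_nonneg _) ht1 (by omega))
  set y := t / π₀ with hydef
  have hy0 : y ≠ 0 := div_ne_zero ht0 hπ₀0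
  have hyS : y ^ (p - 1) = S := by
    rw [hydef, div_pow, htS, hπ₀, mul_div_cancel_left₀]
    exact neg_ne_zero.2 (norm_pos_iff.1 norm_natCast_p_pos)
  -- a root of unity of `W` congruent to `y`
  obtain ⟨z, hz, hyz⟩ : ∃ z : C, z ^ (p - 1) = 1 ∧ ‖y - z‖ < 1 := by
    have hp1 : 0 < p - 1 := Nat.sub_pos_of_lt hp.one_lt
    obtain ⟨w, hw⟩ := exists_primitiveRoot_pow_sub_one p one_pos
    rw [pow_one] at hw
    have hprod := congrArg (fun P => ‖Polynomial.eval y P‖) (X_pow_sub_one_eq_prod hp1 hw)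
    simp only [eval_sub, eval_pow, eval_X, eval_one, eval_prod, eval_C, norm_prod] at hprod
    rw [← hyS] at hS1
    by_contra hcon
    push Not at hcon
    exact absurd (hprod ▸ hS1) (not_lt.2 (Finset.one_le_prod fun z hz =>
      hcon z ((mem_nthRootsFinset hp1 _).1 hz)))
  have hzW : z ∈ D.W := D.roots_mem_W (by rw [hk, pow_mul, hz, one_pow])
  have hz1 : ‖z‖ = 1 := norm_eq_one_of_pow_eq_one (Nat.sub_pos_of_lt hp.one_lt).ne' hz
  have hy1 : ‖y‖ = 1 := by
    rw [← sub_add_cancel y z, IsUltrametricDist.norm_add_eq_max_of_norm_ne_norm (by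
      rw [hz1]; exact hyz.ne), hz1, max_eq_right hyz.le]
  refine mem_of_forall_fixed D.K fun σ hσ => ?_
  obtain ⟨a, ha, haz⟩ := D.zeta_spec.eq_pow_of_pow_eq_one
    (show (σ D.zeta) ^ p = 1 by rw [← map_pow, D.zeta_spec.pow_eq_one, map_one])
  rw [← haz]
  suffices a = 1 by rw [this, pow_one]
  have ha0 : a ≠ 0 := fun h => by
    rw [h, pow_zero, eq_comm, map_eq_one_iff σ σ.injective] at haz
    exact D.zeta_spec.ne_one hp.one_lt haz
  have hσy : σ y = y * ∑ i ∈ Finset.range a, D.zeta ^ i := by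
    rw [hydef, map_div₀, hσ π₀ (pow_mem D.varpi_mem_K k), htdef, map_sub, map_one, ← haz,
      ← geom_sum_mul]
    ring
  have hclose : ‖σ y - y‖ < 1 := by
    rw [show σ y - y = (σ y - σ z) - (y - z) by rw [hσ z (D.W_le_K hzW)]; ring, ← map_sub]
    refine (FlatLocal.norm_sub_le_max _ _).trans_lt ?_
    rw [norm_apply, max_self]
    exact hyz
  rw [hσy, ← mul_sub_one, norm_mul, hy1, one_mul] at hclose
  have hsum : ‖(∑ i ∈ Finset.range a, D.zeta ^ i) - (a : C)‖ ≤ ‖t‖ := by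
    rw [show (a : C) = ∑ _i ∈ Finset.range a, (1 : C) by simp, ← Finset.sum_sub_distrib]
    refine IsUltrametricDist.norm_sum_le_of_forall_le_of_nonneg (norm_nonneg _) fun i _ => ?_
    rw [← geom_sum_mul, norm_mul, ← htdef]
    refine mul_le_of_le_one_left (norm_nonneg _) ?_
    exact IsUltrametricDist.norm_sum_le_of_forall_le_of_nonneg zero_le_one fun j _ => by
      rw [norm_pow, norm_eq_one_of_pow_eq_one hp.ne_zero D.zeta_spec.pow_eq_one, one_pow]
  have ha1 : ‖((a - 1 : ℕ) : C)‖ < 1 := by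
    rw [Nat.cast_sub (Nat.pos_of_ne_zero ha0), Nat.cast_one, show (a : C) - 1 =
      ((∑ i ∈ Finset.range a, D.zeta ^ i) - 1) - ((∑ i ∈ Finset.range a, D.zeta ^ i) - (a : C)) by
        ring]
    exact (FlatLocal.norm_sub_le_max _ _).trans_lt (max_lt hclose (hsum.trans_lt htlt))
  rw [← map_natCast (algebraMap ℚ_[p] C), norm_algebraMap', Padic.norm_natCast_lt_one_iff] at ha1
  have := Nat.eq_zero_of_dvd_of_lt ha1 (by omega)
  omega

/-- A unit of `F` is congruent to a root of unity of order prime to `p` in `F`. -/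
theorem exists_root_norm_sub_lt {x : C} (hx : x ∈ D.F) (h : ‖x‖ = 1) :
    ∃ z ∈ D.F, ∃ N : ℕ, ¬ p ∣ N ∧ z ^ N = 1 ∧ ‖x - z‖ < 1 := by
  have := D.finite
  obtain ⟨z, hz, hzN, hlt⟩ := FlatLocal.exists_root_norm_sub_lt D.F hx h
  exact ⟨z, hz, _, PadicFields.not_dvd_pow_sub_one (PadicFields.resDeg_pos D.F), hzN, hlt⟩

/-- `W` is generated by a primitive root of unity of order `p ^ f - 1`. -/
theorem exists_W_eq_adjoin : ∃ n, 0 < n ∧ ∃ z, IsPrimitiveRoot z (p ^ n - 1) ∧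
    D.W = IntermediateField.adjoin ℚ_[p] {z} ∧
      Module.finrank ℚ_[p] D.W = n ∧
      ∀ [FiniteDimensional ℚ_[p] D.F], PadicFields.resDeg D.F = n := by
  have := D.finite
  set f := PadicFields.resDeg D.F
  have hf : 0 < f := PadicFields.resDeg_pos D.F
  obtain ⟨z, hzF, hz⟩ := exists_primitiveRoot_mem D.F
  have hN : 1 < p ^ f := Nat.one_lt_pow hf.ne' (Fact.out : p.Prime).one_lt
  have : NeZero (p ^ f - 1) := ⟨by omega⟩
  have hW : D.W = IntermediateField.adjoin ℚ_[p] {z} := by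
    refine le_antisymm (IntermediateField.adjoin_le_iff.2 fun x hx => ?_)
      (IntermediateField.adjoin_simple_le_iff.2 (IntermediateField.subset_adjoin ℚ_[p] _
        ⟨hzF, _, PadicFields.not_dvd_pow_sub_one hf, hz.pow_eq_one⟩))
    obtain ⟨hxF, N, hN', hxN⟩ := hx
    obtain ⟨i, -, rfl⟩ := hz.eq_pow_of_pow_eq_one (pow_resDeg_sub_one_eq_one D.F hxF hN' hxN)
    exact pow_mem (IntermediateField.mem_adjoin_simple_self ℚ_[p] z) i
  exact ⟨f, hf, z, hz, hW, hW ▸ (unramified_adjoin_root hf hz).1, rfl⟩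

/-- `F` and `W` have the same residue field. -/
theorem exists_mem_W_norm_sub_lt {x : C} (hx : x ∈ D.F) (h : ‖x‖ ≤ 1) :
    ∃ w ∈ D.W, ‖x - w‖ < 1 := by
  rcases h.lt_or_eq with hlt | heq
  · exact ⟨0, zero_mem _, by rwa [sub_zero]⟩
  · obtain ⟨z, hz, N, hN, hzN, hzlt⟩ := D.exists_root_norm_sub_lt hx heq
    exact ⟨z, IntermediateField.subset_adjoin ℚ_[p] _ ⟨hz, N, hN, hzN⟩, hzlt⟩

theorem exists_norm_W_eq {x : C} (hx : x ∈ D.W) (h0 : x ≠ 0) :
    ∃ i : ℤ, ‖x‖ = ‖(p : C)‖ ^ i := by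
  obtain ⟨n, hn, z, hz, hW, -⟩ := D.exists_W_eq_adjoin
  exact (unramified_adjoin_root hn hz).2.1 x (hW ▸ hx) h0

theorem normsIn_W : NormsIn D.W ‖D.ϖ‖ e := fun x hx h0 => by
  rw [D.norm_varpi_pow]
  exact D.exists_norm_W_eq hx h0

theorem natDegree_minpoly_varpi : (minpoly D.W D.ϖ).natDegree = e := by
  refine le_antisymm ?_
    (le_natDegree_minpoly D.norm_varpi_pos D.norm_varpi_lt_one rfl D.normsIn_W)
  have hroot : aeval D.ϖ (X ^ e + Polynomial.C (p : D.W) : Polynomial D.W) = 0 := by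
    rw [map_add, map_pow, aeval_X, aeval_C, map_natCast, D.pow_eq, neg_add_cancel]
  have h := natDegree_le_of_dvd (minpoly.dvd D.W D.ϖ hroot) (monic_X_pow_add_C _ D.e_pos.ne').ne_zero
  rwa [natDegree_X_pow_add_C] at h

theorem finrank_K : Module.finrank ℚ_[p] D.K = Module.finrank ℚ_[p] D.W * e := by
  rw [K, finrank_sup_adjoin, D.natDegree_minpoly_varpi]

theorem exists_norm_K_eq {x : C} (hx : x ∈ D.K) (h0 : x ≠ 0) :
    ∃ i : ℤ, ‖x‖ = ‖D.ϖ‖ ^ i :=
  exists_norm_sup_adjoin D.norm_varpi_pos D.norm_varpi_lt_one rfl D.normsIn_W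
    D.natDegree_minpoly_varpi.le hx h0

/-- The norms of `K` below `1` are at most `‖ϖ‖`. -/
theorem norm_le_varpi_of_lt_one {x : C} (hx : x ∈ D.K) (h : ‖x‖ < 1) : ‖x‖ ≤ ‖D.ϖ‖ := by
  rcases eq_or_ne x 0 with rfl | h0
  · rw [norm_zero]; exact norm_nonneg _
  obtain ⟨i, hi⟩ := D.exists_norm_K_eq hx h0
  rw [hi] at h ⊢
  have hi0 : 0 < i := by
    by_contra hcon
    exact absurd h (not_lt.2 (one_le_zpow_of_nonpos₀ D.norm_varpi_pos D.norm_varpi_lt_one.le
      (not_lt.1 hcon)))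
  calc ‖D.ϖ‖ ^ i ≤ ‖D.ϖ‖ ^ (1 : ℤ) :=
        zpow_le_zpow_right_of_le_one₀ D.norm_varpi_pos D.norm_varpi_lt_one.le hi0
    _ = ‖D.ϖ‖ := zpow_one _

theorem exists_leadingCoeff {x : C} (hx : x ∈ D.K) {l : ℕ} (h : ‖x‖ ≤ ‖D.ϖ‖ ^ l) :
    ∃ w ∈ D.W, ‖w‖ ≤ 1 ∧ ‖x - w * D.ϖ ^ l‖ ≤ ‖D.ϖ‖ ^ (l + 1) := by
  have hl : 0 < ‖D.ϖ‖ ^ l := pow_pos D.norm_varpi_pos l
  set y := x / D.ϖ ^ l with hy
  have hyK : y ∈ D.K := div_mem hx (pow_mem D.varpi_mem_K l)
  have hy1 : ‖y‖ ≤ 1 := by rwa [hy, norm_div, norm_pow, div_le_one hl]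
  have hxy : x = y * D.ϖ ^ l := (div_mul_cancel₀ x (pow_ne_zero l D.varpi_ne_zero)).symm
  obtain ⟨w, hw, hlt⟩ := D.exists_mem_W_norm_sub_lt (D.K_le hyK) hy1
  refine ⟨w, hw, ?_, ?_⟩
  · rw [show w = y - (y - w) by ring]
    exact (FlatLocal.norm_sub_le_max _ _).trans (max_le hy1 hlt.le)
  · rw [hxy, ← sub_mul, norm_mul, norm_pow, pow_succ']
    exact mul_le_mul_of_nonneg_right
      (D.norm_le_varpi_of_lt_one (sub_mem hyK (D.W_le_K hw)) hlt) hl.le

theorem inertia_fix_W {σ : Gp p} (hσ : IsInertia σ) {x : C} (hx : x ∈ D.W) : σ x = x := by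
  refine apply_eq_of_mem_adjoin (fun z hz => ?_) hx
  obtain ⟨-, N, hN, hzN⟩ := hz
  refine root_eq_of_norm_sub_lt hN hN (by rw [← map_pow, hzN, map_one]) hzN (hσ z ?_)
  exact (norm_eq_one_of_pow_eq_one (fun h0 : N = 0 => hN (h0 ▸ dvd_zero p)) hzN).le

theorem inertia_conj {σ : Gp p} (hσ : IsInertia σ) (g : Gp p) : IsInertia (g * σ * g⁻¹) := by
  intro x hx
  have h := hσ (g⁻¹ x) (by rwa [norm_apply])
  rw [← norm_apply g, map_sub] at h
  have hx' : g (g⁻¹ x) = x := g.apply_symm_apply x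
  rw [hx'] at h
  rwa [AlgEquiv.mul_apply, AlgEquiv.mul_apply]

/-- There is an inertia element which multiplies `ϖ` by a primitive `e`-th root of unity. -/
theorem exists_inertia_generator :
    ∃ τ : Gp p, IsInertia τ ∧ IsPrimitiveRoot (τ D.ϖ / D.ϖ) e := by
  have : NeZero (e : C) := ⟨Nat.cast_ne_zero.2 D.e_pos.ne'⟩
  obtain ⟨ξ, hξ⟩ := HasEnoughRootsOfUnity.exists_primitiveRoot (PadicAlgCl p) e
  let P : ℕ → Gp p → Prop := fun n g =>
    (∀ z : C, z ^ (p ^ n.factorial - 1) = 1 → g z = z) ∧ g D.ϖ = ξ * D.ϖ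
  have hne : ∀ n, ∃ g, P n g := by
    intro n
    obtain ⟨z, hz⟩ := exists_primitiveRoot_pow_sub_one p n.factorial_pos
    set E := IntermediateField.adjoin ℚ_[p] {z}
    have hE : NormsIn E ‖D.ϖ‖ e := fun x hx h0 => by
      rw [D.norm_varpi_pow]
      exact (unramified_adjoin_root n.factorial_pos hz).2.1 x hx h0
    have hint : IsIntegral E D.ϖ :=
      (Algebra.IsAlgebraic.isAlgebraic (R := ℚ_[p]) D.ϖ).isIntegral.tower_top
    have hP : minpoly E D.ϖ = X ^ e + Polynomial.C (p : E) := by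
      refine (eq_of_monic_of_dvd_of_natDegree_le (minpoly.monic hint)
        (monic_X_pow_add_C _ D.e_pos.ne') (minpoly.dvd E D.ϖ ?_) ?_).symm
      · rw [map_add, map_pow, aeval_X, aeval_C, map_natCast, D.pow_eq, neg_add_cancel]
      · rw [natDegree_X_pow_add_C]
        exact le_natDegree_minpoly D.norm_varpi_pos D.norm_varpi_lt_one rfl hE
    have hroot : aeval (ξ * D.ϖ) (minpoly E D.ϖ) = 0 := by
      rw [hP, map_add, map_pow, aeval_X, aeval_C, map_natCast, mul_pow, hξ.pow_eq_one, one_mul,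
        D.pow_eq, neg_add_cancel]
    obtain ⟨τ, hτ⟩ := minpoly.exists_algEquiv_of_root' (K := E) (L := C) hint.isAlgebraic hroot
    refine ⟨τ.restrictScalars ℚ_[p], fun y hy => ?_, hτ⟩
    have : NeZero (p ^ n.factorial - 1) := ⟨fun h0 =>
      PadicFields.not_dvd_pow_sub_one (q := p) n.factorial_pos (h0 ▸ dvd_zero p)⟩
    obtain ⟨i, -, rfl⟩ := hz.eq_pow_of_pow_eq_one hy
    exact τ.commutes ⟨z ^ i, pow_mem (IntermediateField.mem_adjoin_simple_self ℚ_[p] z) i⟩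
  have hanti : ∀ n g, P (n + 1) g → P n g := fun n g h => ⟨fun z hz => h.1 z (by
    obtain ⟨c, hc⟩ := Nat.pow_sub_one_dvd_pow_sub_one p
      (Nat.factorial_dvd_factorial n.le_succ)
    rw [hc, pow_mul, hz, one_pow]), h.2⟩
  have hclosed : ∀ n, IsClosed {g | P n g} := fun n => by
    simp only [P, Set.ofPred_and, Set.ofPred_forall]
    exact (isClosed_iInter fun z => isClosed_iInter fun _ => isClosed_setOf_apply_eq z z).inter
      (isClosed_setOf_apply_eq _ _)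
  obtain ⟨τ, hτ⟩ := exists_of_forall_level P hanti hne hclosed
  refine ⟨τ, fun x hx => ?_, ?_⟩
  · rcases hx.lt_or_eq with hlt | heq
    · exact (FlatLocal.norm_sub_le_max _ _).trans_lt (by rwa [norm_apply, max_self])
    · obtain ⟨z, n, hn, hz, hzlt⟩ := exists_root_norm_sub_lt' heq
      obtain ⟨k, hk⟩ := exists_pow_factorial (PadicFields.not_dvd_pow_sub_one hn) hz
      rw [show τ x - x = (τ x - τ z) - (x - z) by rw [(hτ k).1 z (hk k le_rfl)]; ring, ← map_sub]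
      refine (FlatLocal.norm_sub_le_max _ _).trans_lt ?_
      rwa [norm_apply, max_self]
  · rwa [(hτ 0).2, mul_div_cancel_right₀ _ D.varpi_ne_zero]

/-- A Frobenius element. -/
theorem exists_frobenius :
    ∃ g : Gp p, ∀ (z : C) (N : ℕ), ¬ p ∣ N → z ^ N = 1 → g z = z ^ p := by
  let P : ℕ → Gp p → Prop := fun n g => ∀ z : C, z ^ (p ^ n.factorial - 1) = 1 → g z = z ^ p
  have hne : ∀ n, ∃ g, P n g := by
    intro n
    obtain ⟨z, hz⟩ := exists_primitiveRoot_pow_sub_one p n.factorial_pos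
    obtain ⟨g, hg⟩ := (unramified_adjoin_root n.factorial_pos hz).2.2
    refine ⟨g, fun y hy => ?_⟩
    have : NeZero (p ^ n.factorial - 1) := ⟨fun h0 =>
      PadicFields.not_dvd_pow_sub_one (q := p) n.factorial_pos (h0 ▸ dvd_zero p)⟩
    obtain ⟨i, -, rfl⟩ := hz.eq_pow_of_pow_eq_one hy
    rw [map_pow, hg, ← pow_mul, ← pow_mul, mul_comm]
  have hanti : ∀ n g, P (n + 1) g → P n g := fun n g h z hz => h z (by
    obtain ⟨c, hc⟩ := Nat.pow_sub_one_dvd_pow_sub_one p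
      (Nat.factorial_dvd_factorial n.le_succ)
    rw [hc, pow_mul, hz, one_pow])
  have hclosed : ∀ n, IsClosed {g | P n g} := fun n => by
    simp only [P, Set.ofPred_forall]
    exact isClosed_iInter fun z => isClosed_iInter fun _ => isClosed_setOf_apply_eq z _
  obtain ⟨g, hg⟩ := exists_of_forall_level P hanti hne hclosed
  refine ⟨g, fun z N hN hz => ?_⟩
  obtain ⟨k, hk⟩ := exists_pow_factorial hN hz
  exact hg k z (hk k le_rfl)

/-- A Frobenius element raises integral elements to the `p`-th power modulo the maximal ideal. -/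
theorem exists_frobenius_congr :
    ∃ g : Gp p, (∀ (z : C) (N : ℕ), ¬ p ∣ N → z ^ N = 1 → g z = z ^ p) ∧
      ∀ x : C, ‖x‖ ≤ 1 → ‖g x - x ^ p‖ < 1 := by
  obtain ⟨g, hg⟩ := exists_frobenius (p := p)
  have hp : p.Prime := Fact.out
  refine ⟨g, hg, fun x hx => ?_⟩
  rcases hx.lt_or_eq with hlt | heq
  · refine (FlatLocal.norm_sub_le_max _ _).trans_lt (max_lt (by rwa [norm_apply]) ?_)
    rw [norm_pow]
    exact pow_lt_one₀ (norm_nonneg _) hlt hp.ne_zero
  · obtain ⟨z, n, hn, hz, hzlt⟩ := exists_root_norm_sub_lt' heq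
    have hgz := hg z _ (PadicFields.not_dvd_pow_sub_one hn) hz
    have hz1 : ‖z‖ ≤ 1 :=
      (norm_eq_one_of_pow_eq_one (fun h0 : p ^ n - 1 = 0 =>
        PadicFields.not_dvd_pow_sub_one (q := p) hn (h0 ▸ dvd_zero p)) hz).le
    have hpow : ‖z ^ p - x ^ p‖ < 1 := by
      rw [← geom_sum₂_mul, norm_mul]
      refine lt_of_le_of_lt (mul_le_of_le_one_left (norm_nonneg _) ?_) (norm_sub_rev z x ▸ hzlt)
      exact IsUltrametricDist.norm_sum_le_of_forall_le_of_nonneg zero_le_one fun i _ => by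
        rw [norm_mul, norm_pow, norm_pow]
        exact mul_le_one₀ (pow_le_one₀ (norm_nonneg _) hz1) (pow_nonneg (norm_nonneg _) _)
          (pow_le_one₀ (norm_nonneg _) hx)
    rw [show g x - x ^ p = (g x - g z) + (z ^ p - x ^ p) by rw [hgz]; ring, ← map_sub]
    exact (IsUltrametricDist.norm_add_le_max _ _).trans_lt
      (max_lt (by rwa [norm_apply]) hpow)

end TameField

end Fermat.Agent.FlatLocal
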