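import Fermat.Agent.FlatLocal.Connected
import Fermat.Agent.FlatLocal.PointProperty
import Fermat.Agent.FlatLocal.Generation
import Fermat.Agent.FlatLocal.Engine.Eigen
import Mathlib.GroupTheory.PGroup

/-!
# Tame fields adapted to models

* `exists_tameField_family`: a tame field containing the points of finitely many models, with
  the point property.
* `exists_bigField`: for a large tame degree `Gal(C/K)` acts on a model through a `p`-group.
* `connected_inter_eq_zero`, `fixK_trivial_of_split`: consequences of the tame exponents.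
-/

set_option autoImplicit false

noncomputable section

open Finset

namespace Fermat.Agent.FlatLocal

open Engine

variable {p : ℕ} [hp : Fact p.Prime] {e : ℕ}

local notation "C" => PadicAlgCl p

/-- A tame field containing the points of finitely many models, with the point property. -/
theorem exists_tameField_family {ι : Type} [Finite ι] {M : ι → Type} [∀ i, AddCommGroup (M i)]
    [∀ i, DistribMulAction (Gp p) (M i)] [∀ i, Finite (M i)] (T : ∀ i, Model p (M i))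
    (he : 0 < e) (hpe : ¬ p ∣ e) (hdvd : p - 1 ∣ e) :
    ∃ D : TameField p e, (∀ i j m, (T i).b j m ∈ D.F) ∧
      (∀ σ : Gp p, D.FixK σ → (∀ i, ∀ m : M i, σ • m = m) → ∀ x ∈ D.F, σ x = x) ∧
      HasPointProperty D := by
  classical
  cases nonempty_fintype ι
  let _ := fun i => Fintype.ofFinite (M i)
  let S : Finset C := Finset.univ.biUnion fun i =>
    Finset.univ.image fun q : Fin (T i).n × M i => (T i).b q.1 q.2
  have hmem : ∀ x, x ∈ S ↔ ∃ i j m, (T i).b j m = x := fun x => by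
    simp [S]
  obtain ⟨D, hval, hgen⟩ := exists_tameField he hpe hdvd S fun σ x hx => by
    obtain ⟨i, j, m, rfl⟩ := (hmem x).1 hx
    exact (hmem _).2 ⟨i, j, σ • m, (T i).equivariant j σ m⟩
  have hval' : ∀ i j m, (T i).b j m ∈ D.F := fun i j m => hval _ ((hmem _).2 ⟨i, j, m, rfl⟩)
  have hgen' : ∀ σ : Gp p, D.FixK σ → (∀ i, ∀ m : M i, σ • m = m) → ∀ x ∈ D.F, σ x = x :=
    fun σ hσ h => hgen σ hσ fun x hx => by
      obtain ⟨i, j, m, rfl⟩ := (hmem x).1 hx
      rw [← (T i).equivariant, h]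
  exact ⟨D, hval', hgen', fun φ r hr hφ σ hK hσ =>
    hgen' σ hK fun i m => (T i).smul_eq_of_fixed (hval' i) hr hφ hσ m⟩

variable {M : Type} [AddCommGroup M] [DistribMulAction (Gp p) M]

/-- Automorphisms with the same values at a point move it to the same point. -/
theorem Model.smul_eq_smul_of_eq_on [Finite M] (T : Model p M) {σ σ' : Gp p} {m : M}
    (h : ∀ i, σ (T.b i m) = σ' (T.b i m)) : σ • m = σ' • m :=
  T.eq_of_norm_sub_le (r := 0) ⟨le_rfl, by
      rw [zero_div, zero_pow (Nat.sub_ne_zero_of_lt hp.out.one_lt)]; exact FlatLocal.norm_p_pos⟩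
    fun i => by rw [T.equivariant, T.equivariant, h, sub_self, norm_zero, zero_div]

variable (M) in
/-- `Gal(C/K)` acts on `M` through a `p`-group. -/
def WildActsByPGroup (D : TameField p e) : Prop :=
  ∀ σ : Gp p, D.FixK σ → ∃ a : ℕ, ∀ m : M, (σ ^ p ^ a) • m = m

theorem fixK_pow {D : TameField p e} {σ : Gp p} (hσ : D.FixK σ) : ∀ n : ℕ, D.FixK (σ ^ n)
  | 0 => by rw [pow_zero]; exact fixK_one D
  | n + 1 => by rw [pow_succ]; exact fixK_mul D (fixK_pow hσ n) hσ

/-- For a large tame degree `Gal(C/K)` acts through a `p`-group. -/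
theorem Model.exists_bigField [Finite M] (hp2 : p ≠ 2) (T : Model p M) :
    ∃ (e : ℕ) (D : TameField p e), p ^ 2 - 1 ∣ e ∧ (∀ i m, T.b i m ∈ D.F) ∧
      (∀ σ : Gp p, D.FixK σ → (∀ m : M, σ • m = m) → ∀ x ∈ D.F, σ x = x) ∧
      WildActsByPGroup M D := by
  classical
  cases nonempty_fintype M
  let S : Finset C := Finset.univ.image fun q : Fin T.n × M => T.b q.1 q.2
  have hmem : ∀ i m, T.b i m ∈ S := fun i m =>
    Finset.mem_image_of_mem (fun q : Fin T.n × M => T.b q.1 q.2) (Finset.mem_univ (i, m))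
  let E : IntermediateField ℚ_[p] C := IntermediateField.adjoin ℚ_[p] (S : Set C)
  have : FiniteDimensional ℚ_[p] E := IntermediateField.finiteDimensional_adjoin fun x _ =>
    (Algebra.IsAlgebraic.isAlgebraic (R := ℚ_[p]) x).isIntegral
  set N := Module.finrank ℚ_[p] E
  set P := ∏ d ∈ (Finset.Icc 1 N).filter (fun d => ¬ p ∣ d), d with hP
  have hp3 : 3 ≤ p := by have := hp.out.two_le; omega
  have hpP : ¬ p ∣ P := fun h => by
    obtain ⟨d, hd, hdp⟩ := (hp.out.prime.dvd_finsetProd_iff _).1 h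
    exact (Finset.mem_filter.1 hd).2 hdp
  have hP0 : 0 < P := Nat.pos_of_ne_zero fun h => hpP (h ▸ dvd_zero p)
  have hsq0 : 0 < p ^ 2 - 1 := by
    have : 2 ^ 2 ≤ p ^ 2 := Nat.pow_le_pow_left hp.out.two_le 2
    omega
  obtain ⟨D, hval, hgen⟩ := exists_tameField (p := p) (e := (p ^ 2 - 1) * P)
    (Nat.mul_pos hsq0 hP0)
    (fun h => (hp.out.prime.dvd_or_dvd h).elim (Engine.not_dvd_pow_sub_one two_pos) hpP)
    (Dvd.dvd.mul_right (by simpa using Nat.pow_sub_one_dvd_pow_sub_one p (one_dvd 2)) P) S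
    fun σ x hx => by
      obtain ⟨⟨i, m⟩, -, rfl⟩ := Finset.mem_image.1 hx
      rw [← T.equivariant]
      exact hmem _ _
  refine ⟨_, D, dvd_mul_right _ _, fun i m => hval _ (hmem i m), fun σ hσ h => hgen σ hσ
    fun x hx => ?_, fun σ hσ => ?_⟩
  · obtain ⟨⟨i, m⟩, -, rfl⟩ := Finset.mem_image.1 hx
    rw [← T.equivariant, h]
  let π : Gp p →* Equiv.Perm M := MulAction.toPermHom (Gp p) M
  obtain ⟨a, q, hq, heq⟩ :=
    Nat.exists_eq_pow_mul_and_not_dvd (orderOf_pos (π σ)).ne' p hp.out.ne_one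
  refine ⟨a, fun m => ?_⟩
  set σ₁ := σ ^ p ^ a with hσ₁
  have hσ₁K : D.FixK σ₁ := fixK_pow hσ _
  have hfix : (σ₁ ^ q) • m = m := by
    have h1 : π (σ₁ ^ q) = 1 := by
      rw [hσ₁, ← pow_mul, ← heq, map_pow, pow_orderOf_eq_one]
    exact congrArg (fun f : Equiv.Perm M => f m) h1
  conv_rhs => rw [← one_smul (Gp p) m]
  refine T.smul_eq_smul_of_eq_on fun i => ?_
  rw [AlgEquiv.one_apply, ← sub_eq_zero]
  set y := T.b i m
  set δ := σ₁ y - y with hδ
  by_contra hne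
  have hyE : ∀ m', T.b i m' ∈ E := fun m' => IntermediateField.subset_adjoin _ _ (hmem i m')
  have hδE : δ ∈ E := sub_mem (by rw [← T.equivariant]; exact hyE _) (hyE m)
  have hδF : δ ∈ D.F := sub_mem (D.normal _ _ (hval _ (hmem i m))) (hval _ (hmem i m))
  have hdeg : (minpoly ℚ_[p] δ).natDegree ≤ N := by
    rw [show minpoly ℚ_[p] δ = minpoly ℚ_[p] (⟨δ, hδE⟩ : E) from
      minpoly.algHom_eq E.val E.val.injective ⟨δ, hδE⟩]
    exact minpoly.natDegree_le _
  have hN : ∀ d : ℕ, 0 < d → d ≤ N → ¬ p ∣ d → d ∣ (p ^ 2 - 1) * P := fun d hd0 hdN hdp =>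
    Dvd.dvd.mul_left (Finset.dvd_prod_of_mem (fun d => d)
      (Finset.mem_filter.2 ⟨Finset.mem_Icc.2 ⟨hd0, hdN⟩, hdp⟩)) _
  have hsum : ∑ j ∈ Finset.range q, (σ₁ ^ j) δ = 0 := by
    have h1 : ∑ j ∈ Finset.range q, (σ₁ ^ j) δ =
        ∑ j ∈ Finset.range q, ((σ₁ ^ (j + 1)) y - (σ₁ ^ j) y) :=
      Finset.sum_congr rfl fun j _ => by rw [hδ, map_sub, pow_succ, AlgEquiv.mul_apply]
    rw [h1, Finset.sum_range_sub (fun j => (σ₁ ^ j) y), pow_zero, AlgEquiv.one_apply,
      ← T.equivariant, hfix, sub_self]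
  have hclose : ‖∑ j ∈ Finset.range q, ((σ₁ ^ j) δ - δ)‖ < ‖δ‖ := by
    rcases Nat.eq_zero_or_pos q with rfl | hq0
    · exact absurd (dvd_zero p) hq
    obtain ⟨j, -, hj⟩ := Finset.exists_max_image (Finset.range q)
      (fun j => ‖(σ₁ ^ j) δ - δ‖) ⟨0, Finset.mem_range.2 hq0⟩
    exact (IsUltrametricDist.norm_sum_le_of_forall_le_of_nonneg (norm_nonneg _) hj).trans_lt
      (D.norm_sub_lt_of_fixK hN (fixK_pow hσ₁K j) hδF hdeg hne)
  rw [Finset.sum_sub_distrib, hsum, zero_sub, norm_neg, Finset.sum_const, Finset.card_range,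
    nsmul_eq_mul, norm_mul, norm_natCast_eq_one hq, one_mul] at hclose
  exact lt_irrefl _ hclose

/-- A nonzero group of points stable under `Gal(C/K)` has a nonzero fixed point. -/
theorem exists_fixed_of_pGroup [Finite M] (hexp : ∀ m : M, p • m = 0) (D : TameField p e)
    (hP : WildActsByPGroup M D) (V : AddSubgroup M) (hV : ∃ m ∈ V, m ≠ 0)
    (hVK : ∀ σ : Gp p, D.FixK σ → ∀ m ∈ V, σ • m ∈ V) :
    ∃ m ∈ V, m ≠ 0 ∧ ∀ σ : Gp p, D.FixK σ → σ • m = m := by
  let G : Subgroup (Gp p) :=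
    { carrier := {σ | D.FixK σ}
      one_mem' := fixK_one D
      mul_mem' := fun hσ hτ => fixK_mul D hσ hτ
      inv_mem' := fun hσ => fixK_inv D hσ }
  let _ : MulAction G V :=
    { smul := fun g v => ⟨(g : Gp p) • (v : M), hVK _ g.2 _ v.2⟩
      one_smul := fun v => Subtype.ext (one_smul _ _)
      mul_smul := fun g g' v => Subtype.ext (mul_smul _ _ _) }
  let π : G →* Equiv.Perm V := MulAction.toPermHom G V
  have hQ : IsPGroup p π.range := by
    rintro ⟨_, g, rfl⟩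
    obtain ⟨a, ha⟩ := hP g g.2
    refine ⟨a, Subtype.ext ?_⟩
    rw [SubmonoidClass.coe_pow, ← map_pow, OneMemClass.coe_one]
    exact Equiv.ext fun v => Subtype.ext (ha (v : M))
  obtain ⟨m₁, hm₁, hm₁0⟩ := hV
  have hdvd : p ∣ Nat.card V := by
    have h1 : addOrderOf (⟨m₁, hm₁⟩ : V) = p :=
      addOrderOf_eq_prime (Subtype.ext (hexp m₁)) fun h => hm₁0 (congrArg Subtype.val h)
    exact h1 ▸ addOrderOf_dvd_natCard _
  have h0 : (0 : V) ∈ MulAction.fixedPoints π.range V := by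
    rintro ⟨_, g, rfl⟩
    exact Subtype.ext (smul_zero _)
  obtain ⟨v, hv, hne⟩ := hQ.exists_fixed_point_of_prime_dvd_card_of_fixed_point V hdvd h0
  exact ⟨v, v.2, fun h => hne (Subtype.ext h.symm), fun σ hσ =>
    congrArg Subtype.val (hv ⟨π ⟨σ, hσ⟩, ⟨σ, hσ⟩, rfl⟩)⟩

/-- Tame exponents on a stable group of connected points. -/
theorem Model.exists_exponent_of_stable [Finite M] (T : Model p M) (D : TameField p e)
    (hP : WildActsByPGroup M D) {τ : Gp p} (hτ : IsInertia τ) (V : AddSubgroup M)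
    (hV : ∃ m ∈ V, m ≠ 0) (hVc : V ≤ T.connected)
    (hVK : ∀ σ : Gp p, D.FixK σ → ∀ m ∈ V, σ • m ∈ V) (hVτ : ∀ m ∈ V, τ • m ∈ V) :
    ∃ l : ℕ, 1 ≤ l ∧ l ≤ top D ∧ ∀ P : Polynomial ℤ,
      (∀ m ∈ V, Polynomial.aeval (actEnd (M := M) τ) P m = 0) →
        Polynomial.aeval (res (xi D τ) ^ l) P = 0 := by
  obtain ⟨m, hm, hm0, hmfix⟩ := exists_fixed_of_pGroup T.exponent D hP V hV hVK
  let W : AddSubgroup M :=
    { carrier := {m | m ∈ V ∧ ∀ σ : Gp p, D.FixK σ → σ • m = m}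
      zero_mem' := ⟨V.zero_mem, fun σ _ => smul_zero σ⟩
      add_mem' := fun ha hb => ⟨V.add_mem ha.1 hb.1, fun σ hσ => by
        rw [smul_add, ha.2 σ hσ, hb.2 σ hσ]⟩
      neg_mem' := fun ha => ⟨V.neg_mem ha.1, fun σ hσ => by rw [smul_neg, ha.2 σ hσ]⟩ }
  obtain ⟨l, hl1, hl2, hl⟩ := T.exists_exponent D hτ W ⟨m, ⟨hm, hmfix⟩, hm0⟩
    (fun m hm => ⟨hVτ m hm.1, fun σ hσ => by
      have h := hm.2 _ (fixK_conj D τ⁻¹ hσ)
      rw [inv_inv, mul_smul, mul_smul, inv_smul_eq_iff] at h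
      exact h⟩)
    (fun m hm => hVc hm.1) fun m hm => hm.2
  exact ⟨l, hl1, hl2, fun P hP => hl P fun m hm => hP m hm.1⟩

/-- A stable group on which tame inertia is unipotent meets the connected part trivially. -/
theorem Model.connected_inter_eq_zero [Finite M] (hp2 : p ≠ 2) (T : Model p M)
    (D : TameField p e) (hP : WildActsByPGroup M D) {τ : Gp p} (hτ : IsInertia τ)
    (hprim : IsPrimitiveRoot (τ D.ϖ / D.ϖ) e) (V : AddSubgroup M)
    (hVK : ∀ σ : Gp p, D.FixK σ → ∀ m ∈ V, σ • m ∈ V) (hVτ : ∀ m ∈ V, τ • m ∈ V)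
    (huni : ∀ m ∈ V, τ • (τ • m - m) = τ • m - m) :
    ∀ m ∈ V, m ∈ T.connected → m = 0 := by
  intro m hm hmc
  by_contra hm0
  obtain ⟨l, hl1, hl2, hl⟩ := T.exists_exponent_of_stable D hP hτ (V ⊓ T.connected)
    ⟨m, ⟨hm, hmc⟩, hm0⟩ inf_le_right
    (fun σ hσ m hm => ⟨hVK σ hσ m hm.1, T.smul_mem_connected σ hm.2⟩)
    (fun m hm => ⟨hVτ m hm.1, T.smul_mem_connected τ hm.2⟩)
  have h1 := hl ((Polynomial.X - 1) * (Polynomial.X - 1)) fun m hm => by
    rw [map_mul, map_sub, Polynomial.aeval_X, map_one]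
    show actEnd τ (τ • m - m) - (τ • m - m) = 0
    rw [actEnd_apply, huni m hm.1, sub_self]
  rw [map_mul, mul_self_eq_zero, map_sub, Polynomial.aeval_X, map_one, sub_eq_zero] at h1
  exact (isPrimitiveRoot_res_xi D hprim).pow_ne_one_of_pos_of_lt (by omega)
    (hl2.trans_lt (top_lt D hp2)) h1

/-- An extension of a module on which tame inertia has no fixed points by a module on which it
is trivial is trivial on `Gal(C/K)`, if both are. -/
theorem Model.fixK_trivial_of_split [Finite M] (hp2 : p ≠ 2) (T : Model p M)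
    (D : TameField p e) (hP : WildActsByPGroup M D)
    {τ : Gp p} (hτ : IsInertia τ)
    (hprim : IsPrimitiveRoot (τ D.ϖ / D.ϖ) e) (N : AddSubgroup M)
    (hNτ : ∀ n ∈ N, τ • n = n) (hNK : ∀ σ : Gp p, D.FixK σ → ∀ n ∈ N, σ • n = n)
    (hquot : ∀ σ : Gp p, D.FixK σ → ∀ m, σ • m - m ∈ N)
    (hsurj : ∀ m, ∃ m', m - (τ • m' - m') ∈ N)
    {σ : Gp p} (hσ : D.FixK σ) (m : M) : σ • m = m := by
  obtain ⟨m', hm'⟩ := hsurj m
  have hc : τ • m' - m' ∈ T.connected :=
    T.smul_sub_mem_connected fun i => hτ _ (T.norm_le i m')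
  have h1 : σ • (τ • m' - m') - (τ • m' - m') = 0 :=
    T.connected_inter_eq_zero hp2 D hP hτ hprim N (fun f hf n hn => by rwa [hNK f hf n hn])
      (fun n hn => by rwa [hNτ n hn]) (fun n hn => by rw [hNτ n hn, sub_self, smul_zero])
      _ (hquot σ hσ _) (T.connected.sub_mem (T.smul_mem_connected σ hc) hc)
  have h2 := hNK σ hσ _ hm'
  conv_lhs => rw [← sub_add_cancel m (τ • m' - m')]
  rw [smul_add, h2, sub_eq_zero.1 h1, sub_add_cancel]

end Fermat.Agent.FlatLocal
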